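import Fermat.Agent.EisensteinDescent.Setup
import Fermat.Agent.EisensteinTate.Primary

/-!
# The unit root of `X² - f X + p` on the primary Tate module

For `f ≡ 1 + p` modulo an ideal `P` containing `p`, the iteration `u ↦ u - (u² - f u + p)` from
`u = 1` converges `P`-adically. It gives operators `α r` on the levels and an operator `A` of the
primary Tate module, which is a scalar on every eigen-component.
-/

set_option autoImplicit false

noncomputable section

namespace Fermat.Agent.OrdinaryEisenstein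

open EisensteinDescent EisensteinTate

section Iterate

variable {T : Type*} [CommRing T]

/-- The iterates approximating the unit root of `X² - f X + c`. -/
def unitRootSeq (f c : T) : ℕ → T
  | 0 => 1
  | n + 1 => unitRootSeq f c n - (unitRootSeq f c n ^ 2 - f * unitRootSeq f c n + c)

variable {P : Ideal T} {f c : T}

theorem unitRootSeq_spec (hc : c ∈ P) (hf : f - (1 + c) ∈ P) (n : ℕ) :
    unitRootSeq f c n - 1 ∈ P ∧
      unitRootSeq f c n ^ 2 - f * unitRootSeq f c n + c ∈ P ^ (n + 1) := by
  induction n with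
  | zero =>
    refine ⟨by rw [unitRootSeq, sub_self]; exact P.zero_mem, ?_⟩
    rw [zero_add, pow_one, show unitRootSeq f c 0 ^ 2 - f * unitRootSeq f c 0 + c
        = -(f - (1 + c)) by rw [unitRootSeq]; ring]
    exact P.neg_mem hf
  | succ n ih =>
    obtain ⟨h1, h2⟩ := ih
    set u := unitRootSeq f c n
    set g := u ^ 2 - f * u + c with hg
    have hg1 : g ∈ P := Ideal.pow_le_self (Nat.succ_ne_zero n) h2
    refine ⟨?_, ?_⟩
    · show u - g - 1 ∈ P
      rw [show u - g - 1 = (u - 1) - g by ring]
      exact P.sub_mem h1 hg1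
    · show (u - g) ^ 2 - f * (u - g) + c ∈ P ^ (n + 1 + 1)
      rw [show (u - g) ^ 2 - f * (u - g) + c = g * (1 - (2 * u - f) + g) by rw [hg]; ring,
        pow_succ]
      refine Ideal.mul_mem_mul h2 ?_
      rw [show 1 - (2 * u - f) + g = (f - (1 + c)) + c - 2 * (u - 1) + g by ring]
      exact P.add_mem (P.sub_mem (P.add_mem hf hc) (P.mul_mem_left 2 h1)) hg1

theorem unitRootSeq_sub_mem (hc : c ∈ P) (hf : f - (1 + c) ∈ P) {m n : ℕ} (h : m ≤ n) :
    unitRootSeq f c n - unitRootSeq f c m ∈ P ^ (m + 1) := by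
  induction n, h using Nat.le_induction with
  | base => rw [sub_self]; exact zero_mem _
  | succ n hmn ih =>
    rw [unitRootSeq, show ∀ u g v : T, u - g - v = (u - v) - g from fun _ _ _ => by ring]
    exact sub_mem ih
      (Ideal.pow_le_pow_right (Nat.succ_le_succ hmn) (unitRootSeq_spec hc hf n).2)

end Iterate

variable {p : ℕ} [Fact p.Prime] {T : Type*} [CommRing T] {J : Type*} [AddCommGroup J] [Module T J]
  {D : ℕ}

/-- A single power of `P` kills a level. -/
theorem exists_pow_annihilates (h : HasTorsionRank J p D) (P : Ideal T) (r : ℕ) :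
    ∃ K : ℕ, ∀ t ∈ P ^ K, ∀ x ∈ primary J p P r, t • x = 0 := by
  classical
  have := h.finite_tors r
  have : Finite (primary J p P r) := Finite.of_injective
    (fun x : primary J p P r => (⟨(x : J), mem_tors.mpr x.2.1⟩ : tors J (p ^ r)))
    fun a b hab => Subtype.ext (congrArg Subtype.val hab :)
  have := Fintype.ofFinite (primary J p P r)
  choose k hk using fun x : primary J p P r => x.2.2
  exact ⟨Finset.univ.sup k, fun t ht x hx =>
    hk ⟨x, hx⟩ t (Ideal.pow_le_pow_right (Finset.le_sup (Finset.mem_univ _)) ht)⟩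

/-- **Unit roots on the levels.** -/
theorem exists_level_unitRoot (h : HasTorsionRank J p D) {P : Ideal T} (hp : (p : T) ∈ P) {f : T}
    (hf : f - (1 + (p : T)) ∈ P) :
    ∃ α : ℕ → T, (∀ r, α r - 1 ∈ P) ∧
      (∀ r, ∀ x ∈ primary J p P r, α r • α r • x - f • α r • x + p • x = 0) ∧
      ∀ r, ∀ x ∈ primary J p P r, α (r + 1) • x = α r • x := by
  choose K hK using exists_pow_annihilates h P
  set K' : ℕ → ℕ := fun r => ∑ i ∈ Finset.range (r + 1), K i with hK'
  have hle : ∀ r, K r ≤ K' r := fun r =>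
    Finset.single_le_sum (fun i _ => Nat.zero_le (K i)) (Finset.self_mem_range_succ r)
  have hle' : ∀ r, K' r ≤ K' (r + 1) := fun r =>
    le_of_le_of_eq (Nat.le_add_right _ _) (Finset.sum_range_succ K (r + 1)).symm
  refine ⟨fun r => unitRootSeq f (p : T) (K' r), fun r => (unitRootSeq_spec hp hf _).1,
    fun r x hx => ?_, fun r x hx => ?_⟩
  · rw [← Nat.cast_smul_eq_nsmul T, ← mul_smul, ← mul_smul, ← sub_smul, ← add_smul, ← pow_two]
    exact hK r _ (Ideal.pow_le_pow_right ((hle r).trans (Nat.le_succ _))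
      (unitRootSeq_spec hp hf _).2) x hx
  · rw [← sub_eq_zero, ← sub_smul]
    exact hK r _ (Ideal.pow_le_pow_right ((hle r).trans (Nat.le_succ _))
      (unitRootSeq_sub_mem hp hf (hle' r))) x hx

/-- The operator of the primary Tate module given by compatible operators on the levels. -/
def ofLevels {P : Ideal T} (α : ℕ → T)
    (hα : ∀ r, ∀ x ∈ primary J p P r, α (r + 1) • x = α r • x) :
    Module.End ℤ_[p] (primaryTate J p P) where
  toFun x := ⟨⟨fun r => α r • (x : CarayolReduction.tateModule J p).1 r, by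
      show α 0 • (x : CarayolReduction.tateModule J p).1 0 = 0
      rw [(x : CarayolReduction.tateModule J p).2.1, smul_zero], fun r => by
      show p • α (r + 1) • (x : CarayolReduction.tateModule J p).1 (r + 1) = α r • _
      rw [← smul_nsmul_comm, (x : CarayolReduction.tateModule J p).2.2, hα r _ (x.2 r)]⟩,
    fun r => (primary J p P r).smul_mem _ (x.2 r)⟩
  map_add' a b := Subtype.ext (Subtype.ext (funext fun r => smul_add (α r) _ _))
  map_smul' a x := Subtype.ext (Subtype.ext (funext fun r => by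
    show α r • (a • (x : CarayolReduction.tateModule J p)).1 r = _
    simp only [padic_smul_apply, RingHom.id_apply]
    exact smul_nsmul_comm _ _ _))

@[simp] theorem ofLevels_apply {P : Ideal T} (α : ℕ → T)
    (hα : ∀ r, ∀ x ∈ primary J p P r, α (r + 1) • x = α r • x) (x : primaryTate J p P) (r : ℕ) :
    (ofLevels α hα x : CarayolReduction.tateModule J p).1 r
      = α r • (x : CarayolReduction.tateModule J p).1 r := rfl

omit [Fact p.Prime] in
/-- An endomorphism congruent to elements of `B` modulo every power of `p` lies in `B`. -/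
theorem mem_of_forall_congr [Fact p.Prime] {M : Type*} [AddCommGroup M] [Module ℤ_[p] M]
    [Module.Free ℤ_[p] M] [Module.Finite ℤ_[p] M] (B : Submodule ℤ_[p] (Module.End ℤ_[p] M))
    (A : Module.End ℤ_[p] M) (hA : ∀ r : ℕ, ∃ b ∈ B, ∀ x, ∃ y, A x - b x = p ^ r • y) :
    A ∈ B := by
  classical
  let bas := Module.Free.chooseBasis ℤ_[p] M
  have hr : ∀ r, B.mkQ A ∈ (Ideal.span {(p : ℤ_[p])}) ^ r •
      (⊤ : Submodule ℤ_[p] (Module.End ℤ_[p] M ⧸ B)) := by
    intro r
    obtain ⟨b, hb, hy⟩ := hA r
    choose S hS using hy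
    have heq : A = b + (p : ℤ_[p]) ^ r • bas.constr ℤ_[p] (fun i => S (bas i)) := by
      refine bas.ext fun i => ?_
      rw [LinearMap.add_apply, LinearMap.smul_apply, Module.Basis.constr_basis, ← Nat.cast_pow,
        Nat.cast_smul_eq_nsmul, ← hS, add_sub_cancel]
    rw [heq, map_add, show B.mkQ b = 0 from (Submodule.Quotient.mk_eq_zero B).mpr hb, zero_add,
      map_smul]
    exact Submodule.smul_mem_smul (Ideal.pow_mem_pow (Ideal.mem_span_singleton_self _) _)
      Submodule.mem_top
  have h0 := Ideal.iInf_pow_smul_eq_bot_of_isLocalRing (I := Ideal.span {(p : ℤ_[p])})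
    (M := Module.End ℤ_[p] M ⧸ B) (by
      rw [Ne, Ideal.span_singleton_eq_top]
      exact PadicInt.p_nonunit)
  have hmem : B.mkQ A ∈ (⊥ : Submodule ℤ_[p] _) := h0 ▸ Submodule.mem_iInf _ |>.mpr hr
  exact (Submodule.Quotient.mk_eq_zero B).mp ((Submodule.mem_bot ℤ_[p]).mp hmem)

theorem ofLevels_mem_span (h : HasTorsionRank J p D) {P : Ideal T} (α : ℕ → T)
    (hα : ∀ r, ∀ x ∈ primary J p P r, α (r + 1) • x = α r • x) :
    ofLevels α hα ∈ Submodule.span ℤ_[p]
      (Set.range (primaryAct (J := J) (p := p) (P := P))) := by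
  have := h.primaryTate_free P
  have := h.primaryTate_finite P
  refine mem_of_forall_congr _ _ fun r =>
    ⟨primaryAct (α r), Submodule.subset_span ⟨_, rfl⟩, fun x => ?_⟩
  refine (h.primaryProj_eq_zero_iff P).mp (Subtype.ext ?_)
  show α r • _ - α r • _ = (0 : J)
  exact sub_self _

section Eigen

variable {Γ : Type*} [Group Γ] {Λ : Type*} [AddCommGroup Λ] [Module ℤ_[p] Λ]
  [DistribMulAction Γ Λ] {act : T →+* Module.End ℤ_[p] Λ} {E : Type*} [Field E] [Algebra ℤ_[p] E]

/-- Elements of the span of the operators are scalars on each eigen-component. -/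
theorem exists_scalar_of_mem_span (Eig : EigenData Γ act E) {A : Module.End ℤ_[p] Λ}
    (hA : A ∈ Submodule.span ℤ_[p] (Set.range act)) :
    ∃ a : Eig.ι → E, ∀ x i, Eig.coord (A x) i = a i • Eig.coord x i := by
  induction hA using Submodule.span_induction with
  | mem S hS =>
    obtain ⟨t, rfl⟩ := hS
    exact ⟨fun i => Eig.θ i t, fun x i => Eig.coord_act t x i⟩
  | zero => exact ⟨0, fun x i => by simp⟩
  | add S S' _ _ hS hS' =>
    obtain ⟨a, ha⟩ := hS
    obtain ⟨a', ha'⟩ := hS'
    exact ⟨a + a', fun x i => by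
      rw [LinearMap.add_apply, map_add, Pi.add_apply, ha, ha', Pi.add_apply, add_smul]⟩
  | smul z S _ hS =>
    obtain ⟨a, ha⟩ := hS
    exact ⟨fun i => algebraMap ℤ_[p] E z * a i, fun x i => by
      rw [LinearMap.smul_apply, map_smul, Pi.smul_apply, ha, mul_smul, algebraMap_smul]⟩

/-- Every component is seen by some lattice element. -/
theorem exists_coord_ne_zero (Eig : EigenData Γ act E) (i : Eig.ι) :
    ∃ x, Eig.coord x i ≠ 0 := by
  by_contra! hall
  have hmem : ∀ v ∈ Submodule.span E (Set.range Eig.coord), v i = 0 := by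
    intro v hv
    induction hv using Submodule.span_induction with
    | mem v hv => obtain ⟨x, rfl⟩ := hv; exact hall x
    | zero => rfl
    | add u v _ _ hu hv => rw [Pi.add_apply, hu, hv, add_zero]
    | smul z u _ hu => rw [Pi.smul_apply, hu, smul_zero]
  classical
  have h1 := hmem (Pi.single i 1) (Eig.span_coord ▸ Submodule.mem_top)
  rw [Pi.single_eq_same] at h1
  exact one_ne_zero (congrFun h1 0)

/-- A root of a quadratic in the operators gives a root in each component. -/
theorem scalar_quadratic (Eig : EigenData Γ act E) {A : Module.End ℤ_[p] Λ} {a : Eig.ι → E}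
    (ha : ∀ x i, Eig.coord (A x) i = a i • Eig.coord x i) {f : T} {c : ℕ}
    (hA : ∀ x, A (A x) - act f (A x) + c • x = 0) (i : Eig.ι) :
    a i ^ 2 - Eig.θ i f * a i + (c : E) = 0 := by
  obtain ⟨x, hx⟩ := exists_coord_ne_zero Eig i
  have h := congrFun (congrArg Eig.coord (hA x)) i
  rw [map_add, map_sub, map_nsmul, map_zero, Pi.add_apply, Pi.sub_apply, Pi.smul_apply,
    Pi.zero_apply, Eig.coord_act, ha, ha, smul_smul, smul_smul, ← Nat.cast_smul_eq_nsmul E,
    ← sub_smul, ← add_smul, ← pow_two] at h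
  exact (smul_eq_zero.mp h).resolve_right hx

end Eigen

section Main

variable {P : Ideal T} {Γ : Type*} [Group Γ] [DistribMulAction Γ J] [SMulCommClass Γ T J]
  {E : Type*} [Field E] [Algebra ℤ_[p] E]

/-- **The unit root operator**: the operator `A` of `nsmul_eq_zero_of_family`, its eigenvalues,
and its levelwise description. -/
theorem exists_unitRoot (h : HasTorsionRank J p D) (hp : (p : T) ∈ P) {f : T}
    (hf : f - (1 + (p : T)) ∈ P)
    (Eig : EigenData Γ (primaryAct (J := J) (p := p) (P := P)) E) :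
    ∃ (α : ℕ → T) (A : Module.End ℤ_[p] (primaryTate J p P)) (a : Eig.ι → E),
      (∀ r, α r - 1 ∈ P) ∧
      (∀ r, ∀ x ∈ primary J p P r, α r • α r • x - f • α r • x + p • x = 0) ∧
      (∀ r, ∀ x ∈ primary J p P r, α (r + 1) • x = α r • x) ∧
      (∀ (x : primaryTate J p P) (r : ℕ),
        (A x : CarayolReduction.tateModule J p).1 r
          = α r • (x : CarayolReduction.tateModule J p).1 r) ∧
      (∀ x i, Eig.coord (A x) i = a i • Eig.coord x i) ∧
      ∀ i, a i ^ 2 - Eig.θ i f * a i + (p : E) = 0 := by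
  obtain ⟨α, h1, h2, h3⟩ := exists_level_unitRoot h hp hf
  obtain ⟨a, ha⟩ := exists_scalar_of_mem_span Eig (ofLevels_mem_span h α h3)
  refine ⟨α, ofLevels α h3, a, h1, h2, h3, fun x r => rfl, ha,
    fun i => scalar_quadratic Eig ha (fun x => Subtype.ext (Subtype.ext (funext fun r => ?_))) i⟩
  rw [Submodule.coe_add, Submodule.coe_sub, Submodule.coe_smul_of_tower]
  exact h2 r _ (x.2 r)

end Main

end Fermat.Agent.OrdinaryEisenstein
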