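import Fermat.Agent.EisensteinDescent.GalUnits
import Mathlib.RingTheory.RootsOfUnity.AlgebraicallyClosed

/-!
# A compatible system of `p`-power roots of unity, and the `p`-power torsion of `ℚ̄ˣ`

The chosen roots generate the torsion and inertia acts on them through the cyclotomic character.
-/

set_option autoImplicit false

noncomputable section

namespace Fermat.Agent.OrdinaryEisenstein

open GaloisBasics EisensteinDescent

/-- The `p`-power torsion of `ℚ̄ˣ`. -/
def muPow (p : ℕ) : AddSubgroup Qmul where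
  carrier := {z | ∃ n : ℕ, p ^ n • z = 0}
  zero_mem' := ⟨0, smul_zero _⟩
  add_mem' := by
    rintro a b ⟨m, ha⟩ ⟨n, hb⟩
    exact ⟨m + n, by
      rw [nsmul_add, pow_add, mul_nsmul, ha, mul_comm, mul_nsmul, hb, nsmul_zero, nsmul_zero,
        add_zero]⟩
  neg_mem' := by
    rintro a ⟨n, ha⟩
    exact ⟨n, by rw [neg_nsmul, ha, neg_zero]⟩

/-- An element killed by a power of `p` is in `muPow p`. -/
theorem mem_muPow {p n : ℕ} {z : Qmul} (h : p ^ n • z = 0) : z ∈ muPow p := ⟨n, h⟩

theorem pow_nsmul_galois {p n : ℕ} (g : GalQ) {z : Qmul} (h : p ^ n • z = 0) :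
    p ^ n • (g • z) = 0 := by
  show p ^ n • DistribSMul.toAddMonoidHom Qmul g z = 0
  rw [← map_nsmul, h, map_zero]

/-- Galois acts on the `p`-power torsion. -/
def muSmul {p : ℕ} (g : GalQ) (z : muPow p) : muPow p :=
  ⟨g • (z : Qmul), by
    obtain ⟨n, hn⟩ := z.2
    exact ⟨n, pow_nsmul_galois g hn⟩⟩

@[simp] theorem coe_muSmul {p : ℕ} (g : GalQ) (z : muPow p) :
    ((muSmul g z : muPow p) : Qmul) = g • (z : Qmul) := rfl

variable (p : ℕ) [Fact p.Prime]

theorem exists_next_root {r : ℕ} {z : Qbar} (hz : IsPrimitiveRoot z (p ^ r)) :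
    ∃ w : Qbar, w ^ p = z ∧ IsPrimitiveRoot w (p ^ (r + 1)) := by
  have hp := (Fact.out : p.Prime)
  have : NeZero (p ^ (r + 1)) := ⟨pow_ne_zero _ hp.ne_zero⟩
  have : NeZero (p ^ r) := ⟨pow_ne_zero _ hp.ne_zero⟩
  obtain ⟨η, hη⟩ := HasEnoughRootsOfUnity.exists_primitiveRoot Qbar (p ^ (r + 1))
  have hηp : IsPrimitiveRoot (η ^ p) (p ^ r) :=
    hη.pow (pow_pos hp.pos _) (by rw [pow_succ'])
  rcases r.eq_zero_or_pos with rfl | hr
  · refine ⟨η, ?_, hη⟩
    have h1 : η ^ p = 1 := by simpa using hη.pow_eq_one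
    have h2 : z = 1 := by simpa using hz.pow_eq_one
    rw [h1, h2]
  obtain ⟨i, hi, hcop, rfl⟩ := hηp.isPrimitiveRoot_iff.mp hz
  refine ⟨η ^ i, ?_, hη.pow_of_coprime i ?_⟩
  · rw [← pow_mul, ← pow_mul, mul_comm]
  · exact Nat.Coprime.pow_right _ ((Nat.coprime_pow_right_iff hr _ _).mp hcop)

/-- A compatible system of primitive `p ^ r`-th roots of unity. -/
def rootVal : (r : ℕ) → {z : Qbar // IsPrimitiveRoot z (p ^ r)}
  | 0 => ⟨1, by rw [pow_zero]; exact IsPrimitiveRoot.one⟩
  | r + 1 => ⟨_, (exists_next_root p (rootVal r).2).choose_spec.2⟩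

theorem rootVal_succ (r : ℕ) : (rootVal p (r + 1)).1 ^ p = (rootVal p r).1 :=
  (exists_next_root p (rootVal p r).2).choose_spec.1

/-- The same system in `ℚ̄ˣ`, written additively. -/
def root (r : ℕ) : muPow p :=
  ⟨qmk (rootVal p r).1 ((rootVal p r).2.ne_zero (pow_ne_zero _ (Fact.out : p.Prime).ne_zero)),
    mem_muPow (n := r) (qval_injective (by
      rw [qval_nsmul, qval_qmk, (rootVal p r).2.pow_eq_one, qval_zero]))⟩

theorem qval_root (r : ℕ) : qval (root p r : Qmul) = (rootVal p r).1 := rfl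

theorem root_zero : root p 0 = 0 := Subtype.ext (qval_injective rfl)

theorem nsmul_root_succ (r : ℕ) : p • root p (r + 1) = root p r :=
  Subtype.ext (qval_injective (by
    rw [AddSubgroup.coe_nsmul, qval_nsmul, qval_root, qval_root, rootVal_succ]))

theorem pow_nsmul_root (r : ℕ) : p ^ r • (root p r : Qmul) = 0 :=
  qval_injective (by rw [qval_nsmul, qval_root, (rootVal p r).2.pow_eq_one, qval_zero])

/-- Every element killed by `p ^ r` is a multiple of the `r`-th root. -/
theorem exists_eq_nsmul_root {r : ℕ} {z : Qmul} (hz : p ^ r • z = 0) :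
    ∃ k : ℕ, z = k • (root p r : Qmul) := by
  have : NeZero (p ^ r) := ⟨pow_ne_zero _ (Fact.out : p.Prime).ne_zero⟩
  obtain ⟨k, -, hk⟩ := (rootVal p r).2.eq_pow_of_pow_eq_one (ξ := qval z)
    (by rw [← qval_nsmul, hz, qval_zero])
  exact ⟨k, qval_injective (by rw [qval_nsmul, qval_root, hk])⟩

/-- Galois acts on the system through the cyclotomic character. -/
theorem muSmul_root (g : GalQ) (r : ℕ) :
    muSmul g (root p r) = (padicCyclo p g).appr r • root p r :=
  Subtype.ext (by
    rw [coe_muSmul, AddSubgroup.coe_nsmul]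
    exact smul_eq_appr_nsmul g (pow_nsmul_root p r))

variable {p}

/-- An element with a multiple that is a unit at a place is a unit there. -/
theorem mem_unitsAt_of_nsmul_mem {A : ValuationSubring Qbar} {n : ℕ} (hn : n ≠ 0) {v : Qmul}
    (hv : n • v ∈ unitsAt A) : v ∈ unitsAt A := by
  rw [mem_unitsAt] at hv ⊢
  refine (pow_eq_one_iff_of_nonneg zero_le hn).1 ?_
  rw [← map_pow, ← qval_nsmul, hv]

end Fermat.Agent.OrdinaryEisenstein
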