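import Fermat.Agent.OrdinaryCurve.LocalField
import Fermat.Agent.OrdinaryEisenstein.RootSystem
import Mathlib.Algebra.Polynomial.Identities

/-!
# Kummer classes of units of the completed unramified ring, globally

For a unit `u` of `unramHat p` and a `p ^ r`-th root `x` of `u` in `ℂ_p` there is an algebraic
number `v` with `complexEmb v = x * c`, `c` a unit of `unramHat p`, such that `v ^ p ^ r` is a unit
at `padicPlace p` fixed by inertia. So the global Kummer cocycle of `v` on inertia is the local one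
of `x`.
-/

set_option autoImplicit false

noncomputable section

open scoped NNReal

namespace Fermat.Agent.OrdinaryEisenstein

open GaloisBasics EisensteinDescent OrdinaryCurve

section Roots

variable (p : ℕ) [hp : Fact p.Prime]

/-- A `p`-th root of an element close to one. -/
theorem exists_root_of_dvd_sub_one {n : ℕ} (hn : 2 ≤ n) {t : unramHat p}
    (ht : (p : unramHat p) ^ (n + 1) ∣ t - 1) :
    ∃ c : unramHat p, c ^ p = t ∧ (p : unramHat p) ^ n ∣ c - 1 := by
  set P : unramHat p := (p : unramHat p) with hP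
  have step : ∀ (j : ℕ) (c : unramHat p), P ^ n ∣ c - 1 → P ^ (n + 1 + j) ∣ t - c ^ p →
      ∃ c' : unramHat p, P ^ (n + j) ∣ c' - c ∧ P ^ n ∣ c' - 1 ∧
        P ^ (n + 1 + (j + 1)) ∣ t - c' ^ p := by
    intro j c hc ⟨w, hw⟩
    obtain ⟨k, hk⟩ := Polynomial.powAddExpansion c (P ^ (n + j) * w) p
    refine ⟨c + P ^ (n + j) * w, ⟨w, by ring⟩, ?_, ?_⟩
    · rw [show c + P ^ (n + j) * w - 1 = (c - 1) + P ^ (n + j) * w by ring]
      exact dvd_add hc (Dvd.dvd.mul_right (pow_dvd_pow _ (Nat.le_add_right n j)) w)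
    · have he : t - (c + P ^ (n + j) * w) ^ p
          = P ^ (n + 1 + j) * w * (1 - c ^ (p - 1)) - k * (P ^ (n + j) * w) ^ 2 := by
        rw [hk, ← hP, show n + 1 + j = n + j + 1 by omega, pow_succ]
        rw [show n + 1 + j = n + j + 1 by omega, pow_succ] at hw
        linear_combination hw
      rw [he]
      refine dvd_sub ?_ ?_
      · have h1 : P ^ n ∣ 1 - c ^ (p - 1) := by
          have h2 := hc.trans (sub_one_dvd_pow_sub_one c (p - 1))
          rw [← neg_sub, dvd_neg]
          exact h2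
        have h3 := mul_dvd_mul (dvd_mul_right (P ^ (n + 1 + j)) w) h1
        rw [← pow_add] at h3
        exact (pow_dvd_pow _ (by omega)).trans h3
      · rw [mul_pow, ← pow_mul]
        exact Dvd.dvd.mul_left (Dvd.dvd.mul_right (pow_dvd_pow _ (by omega)) _) _
  let S : ℕ → Type := fun j => {c : unramHat p // P ^ n ∣ c - 1 ∧ P ^ (n + 1 + j) ∣ t - c ^ p}
  let f : (j : ℕ) → S j := fun j => Nat.rec (motive := S)
    ⟨1, by rw [sub_self]; exact dvd_zero _, by rw [one_pow, Nat.add_zero]; exact ht⟩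
    (fun j c => ⟨(step j c.1 c.2.1 c.2.2).choose, (step j c.1 c.2.1 c.2.2).choose_spec.2⟩) j
  obtain ⟨y, hy⟩ := exists_limit p (fun j => (f j).1) fun j =>
    (pow_dvd_pow _ (Nat.le_add_left j n)).trans
      (step j (f j).1 (f j).2.1 (f j).2.2).choose_spec.1
  refine ⟨y, eq_of_sub_eq_zero (eq_zero_of_forall_dvd p _ fun j => ?_), ?_⟩
  · have h1 := (hy j).trans (sub_dvd_pow_sub_pow y (f j).1 p)
    have h2 := (pow_dvd_pow P (show j ≤ n + 1 + j by omega)).trans (f j).2.2
    rw [show y ^ p - t = (y ^ p - (f j).1 ^ p) - (t - (f j).1 ^ p) by ring]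
    exact dvd_sub h1 h2
  · rw [show y - 1 = (y - (f n).1) + ((f n).1 - 1) by ring]
    exact dvd_add (hy n) (f n).2.1

/-- A `p ^ r`-th root of an element close to one. -/
theorem exists_pow_root_of_dvd_sub_one (r : ℕ) {t : unramHat p}
    (ht : (p : unramHat p) ^ (r + 2) ∣ t - 1) :
    ∃ c : unramHat p, c ^ p ^ r = t := by
  induction r generalizing t with
  | zero => exact ⟨t, by rw [pow_zero, pow_one]⟩
  | succ r ih =>
    obtain ⟨c, hc, hc1⟩ := exists_root_of_dvd_sub_one p (n := r + 2) (by omega) ht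
    obtain ⟨d, hd⟩ := ih hc1
    exact ⟨d, by rw [pow_succ, pow_mul, hd, hc]⟩

end Roots

section Approx

variable (p : ℕ) [hp : Fact p.Prime]

/-- The algebraic numbers fixed by inertia at `padicPlace p` whose image is unramified
integral. -/
def inertiaFixedInt : Subring Qbar where
  carrier := {a | (∀ s ∈ (padicPlace p).inertiaSubgroupIn ℚ, s a = a) ∧ complexEmb p a ∈ unramHat p}
  zero_mem' := ⟨fun s _ => map_zero s, by rw [map_zero]; exact zero_mem _⟩
  one_mem' := ⟨fun s _ => map_one s, by rw [map_one]; exact one_mem _⟩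
  add_mem' := fun ha hb => ⟨fun s hs => by rw [map_add, ha.1 s hs, hb.1 s hs],
    by rw [map_add]; exact add_mem ha.2 hb.2⟩
  neg_mem' := fun ha => ⟨fun s hs => by rw [map_neg, ha.1 s hs],
    by rw [map_neg]; exact neg_mem ha.2⟩
  mul_mem' := fun ha hb => ⟨fun s hs => by rw [map_mul, ha.1 s hs, hb.1 s hs],
    by rw [map_mul]; exact mul_mem ha.2 hb.2⟩

/-- These numbers are dense in the completed unramified ring. -/
theorem unramHat_le_closure :
    unramHat p ≤ ((inertiaFixedInt p).map (complexEmb p)).topologicalClosure := by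
  refine Subring.topologicalClosure_minimal _ ?_ (Subring.isClosed_topologicalClosure _)
  rintro _ ⟨z, hz, rfl⟩
  have hA : (padicPlace p).LiesOverPrime p := PoitouTate.padicPlace_liesOverPrime p
  induction hz using Algebra.adjoin_induction with
  | mem z hz =>
    obtain ⟨m, hm, hz'⟩ := id hz
    have hm0 : m ≠ 0 := fun h => hm (h ▸ dvd_zero p)
    obtain ⟨y, rfl⟩ := PoitouTate.mem_range_padicEmbedding p (z := z)
      (IsIntegral.of_pow (Nat.pos_of_ne_zero hm0) (by rw [hz']; exact isIntegral_one))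
    refine Subring.le_topologicalClosure _ ⟨y, ⟨fun s hs => ?_, ?_⟩, rfl⟩
    · exact HeckeDatum.inertia_apply_eq (padicPlace p) hA
        ((hp.out.coprime_iff_not_dvd.mpr hm).symm) hm0 hs
        ((padicEmbedding p).toRingHom.injective (by rw [map_pow, map_one]; exact hz'))
    · exact coe_mem_unramHat p (Algebra.subset_adjoin hz)
  | algebraMap r =>
    have hden : r ∈ closure (Set.range (Int.cast : ℤ → ℤ_[p])) := PadicInt.denseRange_intCast r
    rw [Metric.mem_closure_iff] at hden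
    show algebraMap (PadicAlgCl p) ℂ_[p] (algebraMap ℤ_[p] (PadicAlgCl p) r) ∈ closure _
    rw [Metric.mem_closure_iff]
    intro ε hε
    obtain ⟨_, ⟨n, rfl⟩, hn⟩ := hden ε hε
    refine ⟨_, ⟨(n : Qbar), intCast_mem (inertiaFixedInt p) n, rfl⟩, ?_⟩
    rw [map_intCast, ← map_intCast ((algebraMap (PadicAlgCl p) ℂ_[p]).comp
        (algebraMap ℤ_[p] (PadicAlgCl p))) n, RingHom.comp_apply, dist_eq_norm, ← map_sub,
      ← map_sub, ← PadicComplex.coe_eq, PadicComplex.norm_extends, norm_algebraMap_int]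
    rwa [dist_eq_norm] at hn
  | add a b _ _ ha hb => rw [map_add]; exact add_mem ha hb
  | mul a b _ _ ha hb => rw [map_mul]; exact mul_mem ha hb

theorem exists_fixed_approx {x : ℂ_[p]} (hx : x ∈ unramHat p) {ε : ℝ} (hε : 0 < ε) :
    ∃ a ∈ inertiaFixedInt p, ‖x - complexEmb p a‖ < ε := by
  obtain ⟨_, ⟨a, ha, rfl⟩, h⟩ := Metric.mem_closure_iff.mp (unramHat_le_closure p hx) ε hε
  exact ⟨a, ha, by rwa [dist_eq_norm] at h⟩

end Approx

variable (p : ℕ) [hp : Fact p.Prime]

/-- An algebraic number of norm one is a unit at `padicPlace p`. -/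
theorem mem_unitsAt_padicPlace {x : Qmul} (h : ‖complexEmb p (qval x)‖ = 1) :
    x ∈ unitsAt (padicPlace p) := by
  rw [mem_unitsAt]
  have h1 : qval x ∈ padicPlace p := (norm_complexEmb_le_one_iff p _).mp h.le
  have h2 : (qval x)⁻¹ ∈ padicPlace p :=
    (norm_complexEmb_le_one_iff p _).mp (by rw [map_inv₀, norm_inv, h, inv_one])
  refine le_antisymm ((ValuationSubring.valuation_le_one_iff _ _).mpr h1) ?_
  have h3 := (ValuationSubring.valuation_le_one_iff _ _).mpr h2
  rw [map_inv₀] at h3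
  exact (inv_le_one₀ ((Valuation.pos_iff _).mpr (qval_ne_zero x))).mp h3

/-- Every inertia element at `padicPlace p` extends to a local Galois element. -/
theorem exists_local_lift {s : GalQ} (hs : s ∈ (padicPlace p).inertiaSubgroupIn ℚ) :
    ∃ g, localGaloisToGlobal p g = s := by
  have h : s ∈ (localGaloisToGlobal p).range := by
    rw [PoitouTate.range_localGaloisToGlobal]
    exact (mem_inertiaSubgroupIn_iff_smul.mp hs).1
  exact h

/-- **Kummer units**: the local Kummer cocycle of a unit of the completed unramified ring is the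
global one of an algebraic number whose `p ^ r`-th power is an inertia fixed unit at the place. -/
theorem exists_kummerUnit (u : unramHat p) (hu : ‖(u : ℂ_[p])‖ = 1) (r : ℕ) {x : ℂ_[p]}
    (hx : x ^ p ^ r = (u : ℂ_[p])) :
    ∃ v : Qmul, ∃ c : unramHat p, ‖(c : ℂ_[p])‖ = 1 ∧
      complexEmb p (qval v) = x * (c : ℂ_[p]) ∧
      p ^ r • v ∈ unitsAt (padicPlace p) ∧
      (∀ s ∈ (padicPlace p).inertiaSubgroupIn ℚ, p ^ r • (s • v - v) = 0) ∧
      ∀ g, localGaloisToGlobal p g ∈ (padicPlace p).inertiaSubgroupIn ℚ →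
        complexEmb p (qval (localGaloisToGlobal p g • v - v)) = completeGal p g x / x := by
  have hpr : p ^ r ≠ 0 := pow_ne_zero _ hp.out.ne_zero
  have : NeZero (p ^ r) := ⟨hpr⟩
  have hu0 : (u : ℂ_[p]) ≠ 0 := fun h => one_ne_zero (hu.symm.trans (by rw [h, norm_zero]))
  have hlt : ‖(p : ℂ_[p])‖ ^ (r + 2) < 1 :=
    pow_lt_one₀ (norm_nonneg _) (norm_prime_lt_one p) (by omega)
  obtain ⟨a, ha, hlt'⟩ := exists_fixed_approx p u.2 (pow_pos (norm_prime_pos p) (r + 2))
  have ha1 : ‖complexEmb p a‖ = 1 := (norm_eq_of_sub_lt p (x := (u : ℂ_[p]))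
    (by rw [hu]; exact hlt'.trans hlt)).symm.trans hu
  have ha0 : a ≠ 0 := fun h => one_ne_zero (ha1.symm.trans (by rw [h, map_zero, norm_zero]))
  set t : unramHat p := ⟨complexEmb p a, ha.2⟩ * ⟨_, inv_mem_unramHat p u.2 hu⟩ with ht
  have ht1 : (p : unramHat p) ^ (r + 2) ∣ t - 1 := by
    refine (pow_dvd_iff_norm_le p).mpr ?_
    rw [ht, AddSubgroupClass.coe_sub, MulMemClass.coe_mul, OneMemClass.coe_one]
    rw [show complexEmb p a * (u : ℂ_[p])⁻¹ - 1 = (complexEmb p a - u) * (u : ℂ_[p])⁻¹ by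
      rw [sub_mul, mul_inv_cancel₀ hu0], norm_mul, norm_inv, hu, inv_one, mul_one, norm_sub_rev]
    exact hlt'.le
  obtain ⟨c, hc⟩ := exists_pow_root_of_dvd_sub_one p r ht1
  have hc' : (c : ℂ_[p]) ^ p ^ r = complexEmb p a * (u : ℂ_[p])⁻¹ := by
    rw [← SubmonoidClass.coe_pow, hc, ht, MulMemClass.coe_mul]
  have hc1 : ‖(c : ℂ_[p])‖ = 1 := by
    refine (pow_eq_one_iff_of_nonneg (norm_nonneg _) hpr).mp ?_
    rw [← norm_pow, hc', norm_mul, norm_inv, hu, ha1, inv_one, mul_one]
  have hxc : (x * (c : ℂ_[p])) ^ p ^ r = complexEmb p a := by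
    rw [mul_pow, hx, hc', mul_left_comm, mul_inv_cancel₀ hu0, mul_one]
  obtain ⟨v₀, hv₀⟩ := IsAlgClosed.exists_pow_nat_eq a (Nat.pos_of_ne_zero hpr)
  have hv₀0 : v₀ ≠ 0 := fun h => ha0 (by rw [← hv₀, h, zero_pow hpr])
  have hemb0 : complexEmb p v₀ ≠ 0 := (map_ne_zero _).mpr hv₀0
  obtain ⟨z, hz⟩ := HasEnoughRootsOfUnity.exists_primitiveRoot Qbar (p ^ r)
  obtain ⟨i, -, hi⟩ := (hz.map_of_injective (f := complexEmb p) (complexEmb p).injective
    ).eq_pow_of_pow_eq_one (ξ := x * (c : ℂ_[p]) / complexEmb p v₀) (by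
      rw [div_pow, hxc, ← map_pow, hv₀, div_self ((map_ne_zero _).mpr ha0)])
  rw [← map_pow] at hi
  have hv0 : v₀ * z ^ i ≠ 0 := mul_ne_zero hv₀0 (pow_ne_zero _ (hz.ne_zero hpr))
  have hvx : complexEmb p (v₀ * z ^ i) = x * (c : ℂ_[p]) := by
    rw [map_mul, hi, mul_div_cancel₀ _ hemb0]
  have hva : (v₀ * z ^ i) ^ p ^ r = a := (complexEmb p).injective (by rw [map_pow, hvx, hxc])
  refine ⟨qmk _ hv0, c, hc1, hvx, mem_unitsAt_padicPlace p ?_, fun s hs => ?_, fun g hg => ?_⟩
  · rw [qval_nsmul, qval_qmk, hva, ha1]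
  · refine qval_injective ?_
    rw [qval_nsmul, qval_sub, qval_smul, qval_qmk, div_pow, ← map_pow, hva, ha.1 s hs,
      div_self ha0, qval_zero]
  · rw [qval_sub, qval_smul, qval_qmk, map_div₀, ← completeGal_complexEmb, hvx, map_mul,
      ← coe_unramGal, unramGal_eq_id_of_inertia p hg c]
    exact mul_div_mul_right _ _ fun h => one_ne_zero (hc1.symm.trans (by rw [h, norm_zero]))

/-- The same for a family of units, in the shape consumed by `MuFamily.pCond`. -/
theorem exists_kummerUnit_family {ι : Type*} (u : ι → unramHat p)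
    (hu : ∀ i, ‖(u i : ℂ_[p])‖ = 1) (r : ℕ) (x : ι → ℂ_[p])
    (hx : ∀ i, x i ^ p ^ r = (u i : ℂ_[p])) :
    ∃ v : ι → Qmul, (∀ i, p ^ r • v i ∈ unitsAt (padicPlace p)) ∧
      (∀ i, ∀ s ∈ (padicPlace p).inertiaSubgroupIn ℚ, p ^ r • (s • v i - v i) = 0) ∧
      ∀ i, ∀ g, localGaloisToGlobal p g ∈ (padicPlace p).inertiaSubgroupIn ℚ →
        complexEmb p (qval (localGaloisToGlobal p g • v i - v i))
          = completeGal p g (x i) / x i := by
  choose v c _ _ h1 h2 h3 using fun i => exists_kummerUnit p (u i) (hu i) r (hx i)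
  exact ⟨v, h1, h2, h3⟩

end Fermat.Agent.OrdinaryEisenstein
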