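import Fermat.Agent.OrdinaryEisenstein.Glue
import Fermat.Agent.OrdinaryEisenstein.KummerUnits
import Fermat.Agent.OrdinaryCurve.Interface

/-!
# The Kummer step at `p`

If the projection of a fixed point `y` to the primary part becomes, over `ℂ_p`, `p ^ r` times a sum
of classes attached to roots of units of the completed unramified ring and an inertia invariant
class, then `y` has a `p ^ r`-th root whose inertia cocycle is that of algebraic Kummer units
pushed through the family of maps of roots of unity.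
-/

set_option autoImplicit false

noncomputable section

namespace Fermat.Agent.OrdinaryEisenstein

open GaloisBasics EisensteinDescent EisensteinTate OrdinaryCurve

variable {p : ℕ} [Fact p.Prime] {T : Type} [CommRing T] {J : Type} [AddCommGroup J]
  [DistribMulAction GalQ J] [Module T J] [SMulCommClass GalQ T J] {P : Ideal T} {D : ℕ}
  (h : HasTorsionRank J p D) {ι : Type} [Fintype ι] (F : MuFamily p (padicPlace p) J P ι)
  {Jc : Type*} [AddCommGroup Jc] {S : Type*} [Monoid S] [DistribMulAction S Jc]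
  (lift : (PadicAlgCl p ≃ₐ[ℚ_[p]] PadicAlgCl p) → S) (up : J →+ Jc)

omit [Fact (Nat.Prime p)] [SMulCommClass GalQ T J] in
/-- The cocycle of `w` after the torsion correction. -/
theorem idem_smul_sub_eq (e : T) {r : ℕ} (he : ∀ x : J, p ^ r • x = 0 → e • x ∈ primary J p P r)
    (he' : ∀ x ∈ primary J p P r, e • x = x) (s : GalQ) {w₀ ξ S₀ : J}
    (hw₀ : p ^ r • (s • w₀ - w₀) = 0) (hS₀ : S₀ ∈ primary J p P r)
    (hdiff : s • ξ - ξ = e • (s • w₀ - w₀) - S₀) :
    e • (s • (w₀ - ξ) - (w₀ - ξ)) = S₀ := by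
  have hfix : e • (s • ξ - ξ) = s • ξ - ξ := by
    rw [hdiff]; exact he' _ (sub_mem (he _ hw₀) hS₀)
  rw [smul_sub s, sub_sub_sub_comm, smul_sub e, hfix, hdiff, sub_sub_cancel]

/-- **The Kummer step.** -/
theorem exists_root_kummerUnits (hinj : Function.Injective up)
    (hgal : ∀ (g : PadicAlgCl p ≃ₐ[ℚ_[p]] PadicAlgCl p) (x : J),
      up (localGaloisToGlobal p g • x) = lift g • up x)
    {r : ℕ} (hsurj : ∀ y : Jc, p ^ r • y = 0 → ∃ x : J, p ^ r • x = 0 ∧ up x = y)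
    {y w₀ : J} (hy : ∀ g : GalQ, g • y = y) (hw₀ : p ^ r • w₀ = y)
    (u : ι → unramHat p) (hu : ∀ i, ‖(u i : ℂ_[p])‖ = 1) (x : ι → ℂ_[p])
    (hx : ∀ i, x i ^ p ^ r = (u i : ℂ_[p])) (Φx : ι → Jc) (z' : Jc)
    (hup : up (h.idem P r • y) = p ^ r • (∑ i, Φx i + z'))
    (hz' : ∀ g, localGaloisToGlobal p g ∈ (padicPlace p).inertiaSubgroupIn ℚ → lift g • z' = z')
    (hcoc : ∀ i, ∀ g, localGaloisToGlobal p g ∈ (padicPlace p).inertiaSubgroupIn ℚ →
      ∀ z : muPow p, p ^ r • (z : Qmul) = 0 →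
        complexEmb p (qval z) = completeGal p g (x i) / x i →
        lift g • Φx i - Φx i = up (F.Φ i z)) :
    ∃ (w : J) (c : ι → Qmul), p ^ r • w = y ∧ (∀ i, p ^ r • c i ∈ unitsAt (padicPlace p)) ∧
      ∃ htors : ∀ i, ∀ s ∈ (padicPlace p).inertiaSubgroupIn ℚ, p ^ r • (s • c i - c i) = 0,
        ∀ s (hs : s ∈ (padicPlace p).inertiaSubgroupIn ℚ),
          h.idem P r • (s • w - w)
            = ∑ i, F.Φ i ⟨s • c i - c i, mem_muPow (htors i s hs)⟩ := by
  obtain ⟨c, hc₁, hc₂, hc₃⟩ := exists_kummerUnit_family p u hu r x hx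
  set e := h.idem P r with he
  have hξ : p ^ r • (up (e • w₀) - (∑ i, Φx i + z')) = 0 := by
    rw [nsmul_sub, ← map_nsmul, smul_comm (p ^ r) e, hw₀, hup, sub_self]
  obtain ⟨ξ, hξ₀, hξ₁⟩ := hsurj _ hξ
  refine ⟨w₀ - ξ, c, by rw [nsmul_sub, hw₀, hξ₀, sub_zero], hc₁, hc₂, fun s hs => ?_⟩
  obtain ⟨g, rfl⟩ := exists_local_lift p hs
  set σ := localGaloisToGlobal p g with hσ
  have hnsmul : ∀ (n : ℕ) (z : J), σ • n • z = n • σ • z :=
    map_nsmul (DistribSMul.toAddMonoidHom J σ)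
  refine idem_smul_sub_eq e (fun z hz => h.idem_mem P hz) (fun z hz => h.idem_eq P hz) σ
    (by rw [nsmul_sub, ← hnsmul, hw₀, hy, sub_self])
    (sum_mem fun i _ => F.mem_primary i r _ (hc₂ i σ hs)) (hinj ?_)
  have hew : up (e • w₀) = up ξ + (∑ i, Φx i + z') := by rw [hξ₁, sub_add_cancel]
  have h1 : up (σ • ξ - ξ) = lift g • up (e • w₀) - up (e • w₀) -
      ∑ i, (lift g • Φx i - Φx i) := by
    rw [map_sub, hgal, hew, smul_add, smul_add, Finset.smul_sum, hz' g hs, Finset.sum_sub_distrib]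
    abel
  rw [h1, map_sub up (e • (σ • w₀ - w₀)), map_sum, smul_sub e, ← smul_comm σ e, map_sub, hgal]
  refine congrArg _ (Finset.sum_congr rfl fun i _ => ?_)
  exact hcoc i g hs ⟨σ • c i - c i, mem_muPow (hc₂ i σ hs)⟩ (hc₂ i σ hs) (hc₃ i g hs)

/-- The Kummer step on `J₀(N)` through a torsion bridge. -/
theorem exists_root_kummerUnits_jZero {N : ℕ} [NeZero N] (B : TorsionBridge p N) {T : Type}
    [CommRing T] [Module T (ModularCurve.JZero N)] [SMulCommClass GalQ T (ModularCurve.JZero N)]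
    {P : Ideal T} {D : ℕ} (h : HasTorsionRank (ModularCurve.JZero N) p D) {ι : Type} [Fintype ι]
    (F : MuFamily p (padicPlace p) (ModularCurve.JZero N) P ι)
    {r : ℕ} {y w₀ : ModularCurve.JZero N} (hy : ∀ g : GalQ, g • y = y) (hw₀ : p ^ r • w₀ = y)
    (u : ι → unramHat p) (hu : ∀ i, ‖(u i : ℂ_[p])‖ = 1) (x : ι → ℂ_[p])
    (hx : ∀ i, x i ^ p ^ r = (u i : ℂ_[p]))
    (Φx : ι → AlgebraicCurve.Pic0 ℂ_[p] (curveField p N))
    (z' : AlgebraicCurve.Pic0 ℂ_[p] (curveField p N))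
    (hup : B.up (h.idem P r • y) = p ^ r • (∑ i, Φx i + z'))
    (hz' : ∀ g, localGaloisToGlobal p g ∈ (padicPlace p).inertiaSubgroupIn ℚ →
      completeGalEquiv p g • z' = z')
    (hcoc : ∀ i, ∀ g, localGaloisToGlobal p g ∈ (padicPlace p).inertiaSubgroupIn ℚ →
      ∀ z : muPow p, p ^ r • (z : Qmul) = 0 →
        complexEmb p (qval z) = completeGal p g (x i) / x i →
        completeGalEquiv p g • Φx i - Φx i = B.up (F.Φ i z)) :
    ∃ (w : ModularCurve.JZero N) (c : ι → Qmul), p ^ r • w = y ∧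
      (∀ i, p ^ r • c i ∈ unitsAt (padicPlace p)) ∧
      ∃ htors : ∀ i, ∀ s ∈ (padicPlace p).inertiaSubgroupIn ℚ, p ^ r • (s • c i - c i) = 0,
        ∀ s (hs : s ∈ (padicPlace p).inertiaSubgroupIn ℚ),
          h.idem P r • (s • w - w)
            = ∑ i, F.Φ i ⟨s • c i - c i, mem_muPow (htors i s hs)⟩ :=
  exists_root_kummerUnits h F (completeGalEquiv p) B.up B.injective B.galois
    (B.surj r) hy hw₀ u hu x hx Φx z' hup hz' hcoc

end Fermat.Agent.OrdinaryEisenstein
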