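import Fermat.Agent.OrdinaryEisenstein.HeckeMatrix
import Fermat.Agent.OrdinaryCurve.ClassFamily
import Fermat.Agent.OrdinaryCurve.Bridge
import Fermat.Agent.HeckeEigen.Integral

/-!
# The anemic Hecke algebra on classes of families on the disc

The integral cusp forms give a `QBasis`, the matrices of the `T_q` are `TMat`s for it, and an
operator of the anemic algebra sends the class with logarithm vector `R` to the class with vector
`M R`, `M` its matrix.
-/

set_option autoImplicit false

noncomputable section

open ModularCurve CongruenceSubgroup ModularFormClass Matrix AlgebraicCurve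

namespace Fermat.Agent.OrdinaryEisenstein

open Fermat.Agent.EisensteinDescent Fermat.Agent.OrdinaryCurve
open scoped IsMulCommutative

variable (N : ℕ) [NeZero N] [Fact N.Prime]

/-- The integral cusp forms as a saturated basis. -/
def formQBasis : QBasis N where
  rank := Module.finrank ℤ ↥(CuspForm.intLattice N 2)
  f i := ((formBasis N i : ↥(CuspForm.intLattice N 2)) : CuspForm (Gamma0 N) 2)
  a := coeffVec N
  coeff n i := (qCoeff_formBasis N n i).symm
  indep := by
    classical
    refine Fintype.linearIndependent_iff.mpr fun z hz i₀ => ?_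
    have h := HeckeEigen.sum_mul_eq_zero_of_int_relations (fun i n => coeffVec N n i)
      (fun i => if i = i₀ then 1 else 0)
      (fun c hc => by simp [eq_zero_of_dotProduct_coeffVec N c fun m => hc m]) z (fun n => by
        have h1 := congrArg (HeckeEigen.qCoeffLin N 2 n) hz
        rw [map_sum, map_zero] at h1
        rw [← h1]
        exact Finset.sum_congr rfl fun i _ => by
          rw [map_smul, HeckeEigen.qCoeffLin_apply, qCoeff_formBasis, smul_eq_mul])
    simpa using h
  spans := by
    rw [eq_top_iff, ← (CuspIntStr.hasIntegralStructure N 2 :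
      Submodule.span ℂ (CuspForm.intLattice N 2 : Set (CuspForm (Gamma0 N) 2)) = ⊤)]
    refine Submodule.span_le.mpr fun f hf => ?_
    have h := congrArg Subtype.val ((formBasis N).sum_repr ⟨f, hf⟩)
    rw [AddSubmonoidClass.coe_finsetSum] at h
    change _ = f at h
    rw [SetLike.mem_coe, ← h]
    refine Submodule.sum_mem _ fun i _ => ?_
    rw [SetLike.val_smul, ← Int.cast_smul_eq_zsmul ℂ]
    exact Submodule.smul_mem _ _ (Submodule.subset_span ⟨i, rfl⟩)
  saturated m c hdvd i := by
    classical
    rcases eq_or_ne m 0 with rfl | hm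
    · simp [eq_zero_of_dotProduct_coeffVec N c fun n => zero_dvd_iff.mp (hdvd n)]
    choose q hq using hdvd
    have hg : (m : ℂ)⁻¹ • (∑ j, c j • ((formBasis N j : ↥(CuspForm.intLattice N 2)) :
        CuspForm (Gamma0 N) 2)) ∈ CuspForm.intLattice N 2 :=
      HeckeEigen.mem_intLattice_iff_qCoeff.mpr fun n => ⟨q n, by
        rw [HeckeEigen.qCoeff_smul, HeckeEigen.qCoeff_sum]
        simp only [HeckeEigen.qCoeff_zsmul, qCoeff_formBasis]
        have := congrArg (fun x : ℤ => (x : ℂ)) (hq n)
        push_cast at this
        rw [this, ← mul_assoc, inv_mul_cancel₀ (Int.cast_ne_zero.mpr hm), one_mul]⟩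
    set g : ↥(CuspForm.intLattice N 2) := ⟨_, hg⟩ with hgdef
    have hsum : m • g = ∑ j, c j • formBasis N j := Subtype.ext (by
      rw [SetLike.val_smul, hgdef, ← Int.cast_smul_eq_zsmul ℂ, smul_smul,
        mul_inv_cancel₀ (Int.cast_ne_zero.mpr hm), one_smul, AddSubmonoidClass.coe_finsetSum]
      simp)
    refine ⟨(formBasis N).repr g i, ?_⟩
    have := congrArg (fun x => (formBasis N).repr x i) hsum
    simpa [Finsupp.single_apply] using this.symm

theorem formQBasis_a : (formQBasis N).a = coeffVec N := rfl

/-- The matrix of `T_q` is its matrix on the coefficient vectors. -/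
theorem isTMat_heckeMat {q : ℕ} (hq : q.Prime) (hqN : q ≠ N) :
    IsTMat (formQBasis N) q (heckeMat N q) := fun n => by
  refine Eq.trans ?_ (heckeMat_mulVec_coeffVec N hq hqN n).symm
  rw [formQBasis_a]
  split_ifs <;> rfl

variable (p : ℕ) [Fact p.Prime]

omit [Fact (Nat.Prime N)] in
/-- The comparison map intertwines `T_q`. -/
theorem upHom_awayTq {q : ℕ} [NeZero q] (hq : q.Prime) (hqN : q ≠ N) (y : JZero N) :
    upHom p N (awayTq N q • y) = heckeOperatorAlong ℂ_[p] N q (upHom p N y) := by
  rw [awayTq_smul N hq hqN, upHom_hecke_prime p N q hq]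

variable {p N}

open scoped PowerSeries in
/-- **The anemic algebra on classes of families.** -/
theorem isClass_awayAlg_smul (S : DiscCurve (curveField p N) (FormIdx N))
    (hHecke : ∀ (q : ℕ) [NeZero q], q.Prime → q ≠ N → ∀ (a : DiscPoint ℂ_[p])
      (R : FormIdx N → ℂ_[p]⟦X⟧) (x : Pic0 ℂ_[p] (curveField p N)), S.IsClass a R x →
        S.IsClass a (fun i => ∑ b, PowerSeries.C (heckeMat N q i b : ℂ_[p]) * R b)
          (heckeOperatorAlong ℂ_[p] N q x))
    (t : awayAlg N) {a : DiscPoint ℂ_[p]} {R : FormIdx N → ℂ_[p]⟦X⟧} {y : JZero N}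
    (h : S.IsClass a R (upHom p N y)) :
    S.IsClass a (fun i => ∑ b, PowerSeries.C (heckeMatHom N t i b : ℂ_[p]) * R b)
      (upHom p N (t • y)) := by
  classical
  induction t using awayAlg_induction N generalizing R y with
  | hC k =>
    have hk : (k : awayAlg N) • y = k • y := Int.cast_smul_eq_zsmul _ k y
    rw [hk, map_zsmul]
    refine (h.zsmul k).congr fun i => ?_
    rw [map_intCast, ← Matrix.diagonal_intCast, Finset.sum_eq_single i]
    · simp [zsmul_eq_mul]
    · intro b _ hb
      simp [Matrix.diagonal_apply_ne _ hb.symm]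
    · simp
  | hadd s t hs ht =>
    have hst : (s + t) • y = s • y + t • y := add_smul s t y
    rw [hst, map_add (upHom p N)]
    refine ((hs h).add (ht h)).congr fun i => ?_
    simp [map_add (heckeMatHom N), Matrix.add_apply, ← Finset.sum_add_distrib, add_mul]
  | hmulT t q hq hqN ht =>
    have : NeZero q := ⟨hq.ne_zero⟩
    have hmul : (t * awayTq N q) • y = t • awayTq N q • y := mul_smul t _ y
    rw [hmul]
    have h1 := hHecke q hq hqN a R _ h
    rw [← upHom_awayTq N p hq hqN] at h1
    refine (ht h1).congr fun i => ?_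
    rw [map_mul, heckeMatHom_awayTq]
    simp only [Matrix.mul_apply, Int.cast_sum, Int.cast_mul, map_sum, map_mul, Finset.mul_sum,
        Finset.sum_mul]
    rw [Finset.sum_comm]
    exact Finset.sum_congr rfl fun b _ => Finset.sum_congr rfl fun c _ => by ring

end Fermat.Agent.OrdinaryEisenstein
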