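import Fermat.Agent.EisensteinDescent.Assembly
import Fermat.Agent.OrdinaryEisenstein.RootSystem

/-!
# From maps of roots of unity to Eisenstein descent at `p`

A family `Φ i` of inertia equivariant homomorphisms from `μ_{p^∞}` into the primary torsion of `J`
gives elements `X i` of the primary Tate module on which inertia at `p` acts through the cyclotomic
character, and Kummer cocycles of units pushed through the `Φ i` satisfy the local condition at `p`
of `nsmul_eq_zero_of_inputs`.
-/

set_option autoImplicit false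

noncomputable section

namespace Fermat.Agent.OrdinaryEisenstein

open GaloisBasics EisensteinDescent EisensteinTate

variable {p : ℕ} [Fact p.Prime] {T : Type} [CommRing T] {J : Type} [AddCommGroup J]
  [DistribMulAction GalQ J] [Module T J] [SMulCommClass GalQ T J]

/-- Inertia equivariant homomorphisms from `μ_{p^∞}` to the primary torsion. -/
structure MuFamily (p : ℕ) (Ap : ValuationSubring Qbar) (J : Type) [AddCommGroup J]
    [DistribMulAction GalQ J] [Module T J] (P : Ideal T) (ι : Type) where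
  /-- the homomorphisms -/
  Φ : ι → muPow p →+ J
  mem_primary : ∀ (i : ι) (r : ℕ) (z : muPow p), p ^ r • (z : Qmul) = 0 → Φ i z ∈ primary J p P r
  equivariant : ∀ (i : ι), ∀ s ∈ Ap.inertiaSubgroupIn ℚ, ∀ z : muPow p,
    s • Φ i z = Φ i (muSmul s z)

variable {Ap : ValuationSubring Qbar} {P : Ideal T} {ι : Type} (F : MuFamily p Ap J P ι)

/-- The element of the primary Tate module defined by `Φ i`. -/
def MuFamily.elem (i : ι) : primaryTate J p P :=
  ⟨⟨fun r ↦ F.Φ i (root p r), by
        show F.Φ i (root p 0) = 0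
        rw [root_zero, map_zero],
      fun r ↦ by rw [← map_nsmul, nsmul_root_succ]⟩,
    fun r ↦ F.mem_primary i r _ (pow_nsmul_root p r)⟩

omit [SMulCommClass GalQ T J] in
@[simp] theorem MuFamily.elem_apply (i : ι) (r : ℕ) :
    (F.elem i : CarayolReduction.tateModule J p).1 r = F.Φ i (root p r) := rfl

omit [DistribMulAction GalQ J] [SMulCommClass GalQ T J] in
theorem padicCyclo_smul_apply (g : GalQ) (x : primaryTate J p P) (r : ℕ) :
    ((padicCyclo p g • x : primaryTate J p P) : CarayolReduction.tateModule J p).1 r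
      = (padicCyclo p g).appr r • (x : CarayolReduction.tateModule J p).1 r :=
  padic_smul_apply_of_eq rfl

theorem MuFamily.smul_elem {s : GalQ} (hs : s ∈ Ap.inertiaSubgroupIn ℚ) (i : ι) :
    s • F.elem i = padicCyclo p s • F.elem i := by
  refine Subtype.ext (Subtype.ext (funext fun r ↦ ?_))
  rw [padicCyclo_smul_apply]
  show s • F.Φ i (root p r) = _
  rw [F.equivariant i s hs, muSmul_root, map_nsmul, F.elem_apply]

/-- The Frobenius relation, from a levelwise one. -/
theorem MuFamily.op_smul_elem {τ : GalQ} (A : Module.End ℤ_[p] (primaryTate J p P))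
    (i : ι) (hA : ∀ r, (A (τ • F.elem i) : CarayolReduction.tateModule J p).1 r
      = F.Φ i (muSmul τ (root p r))) :
    A (τ • F.elem i) = padicCyclo p τ • F.elem i := by
  refine Subtype.ext (Subtype.ext (funext fun r ↦ ?_))
  rw [hA, padicCyclo_smul_apply, muSmul_root, map_nsmul, F.elem_apply]

/-- An operator given levelwise and intertwining `τ` on the images satisfies the hypothesis
`hA` of `op_smul_elem`. -/
theorem MuFamily.op_apply_of_levelwise {τ : GalQ} (A : Module.End ℤ_[p] (primaryTate J p P))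
    (α : ℕ → J → J)
    (hα : ∀ (x : primaryTate J p P) (r : ℕ),
      (A x : CarayolReduction.tateModule J p).1 r = α r ((x : CarayolReduction.tateModule J p).1 r))
    (hατ : ∀ (i : ι) (r : ℕ) (z : muPow p), p ^ r • (z : Qmul) = 0 →
      α r (τ • F.Φ i z) = F.Φ i (muSmul τ z))
    (i : ι) (r : ℕ) :
    (A (τ • F.elem i) : CarayolReduction.tateModule J p).1 r = F.Φ i (muSmul τ (root p r)) :=
  (hα _ r).trans (hατ i r _ (pow_nsmul_root p r))

variable {E : Type} [Field E] [CharZero E] [Algebra ℤ_[p] E]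
  (Eig : EigenData GalQ (primaryAct (J := J) (p := p) (P := P)) E)

omit [CharZero E] in
/-- Inertia at `p` acts on each `X i` through the cyclotomic character. -/
theorem MuFamily.hline {τ : GalQ} (A : Module.End ℤ_[p] (primaryTate J p P))
    (hA : ∀ i r, (A (τ • F.elem i) : CarayolReduction.tateModule J p).1 r
      = F.Φ i (muSmul τ (root p r)))
    (hnz : ∀ θ : Eig.ι, ∃ i, Eig.coord (F.elem i) θ ≠ 0) :
    ∀ θ, ∃ x : primaryTate J p P,
      (∀ s ∈ Ap.inertiaSubgroupIn ℚ, s • x = padicCyclo p s • x) ∧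
        A (τ • x) = padicCyclo p τ • x ∧ Eig.coord x θ ≠ 0 := fun θ ↦ by
  obtain ⟨i, hi⟩ := hnz θ
  exact ⟨F.elem i, fun s hs ↦ F.smul_elem hs i, F.op_smul_elem A i (hA i), hi⟩

omit [CharZero E] in
theorem MuFamily.elem_mem_lattice (i : ι) :
    F.elem i ∈ Ordinary.lattice Eig (padicCyclo p) (Ap.inertiaSubgroupIn ℚ) :=
  fun _ hs ↦ F.smul_elem hs i

variable {D : ℕ} (h : HasTorsionRank J p D)

theorem MuFamily.coe_proj_nsmul (i : ι) (r k : ℕ) :
    (((tateSystem h P).proj r (k • F.elem i) : (tateSystem h P).Lev r) : J)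
      = k • F.Φ i (root p r) := by
  rw [map_nsmul, Submodule.coe_smul_of_tower, LevelSystem.coe_proj]
  rfl

variable [Fintype ι]

omit [CharZero E] in
/-- **The condition at `p`**: Kummer cocycles of units pushed through the family. -/
theorem MuFamily.pCond {N : ℕ} {AN : ValuationSubring Qbar} {r : ℕ} {w : J} (v : ι → Qmul)
    (hunit : ∀ i, p ^ r • v i ∈ unitsAt Ap)
    (htors : ∀ i, ∀ s ∈ Ap.inertiaSubgroupIn ℚ, p ^ r • (s • v i - v i) = 0)
    (hw : ∀ s (hs : s ∈ Ap.inertiaSubgroupIn ℚ),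
      h.idem P r • (s • w - w) = ∑ i, F.Φ i ⟨s • v i - v i, mem_muPow (htors i s hs)⟩)
    (c : GalQ → (tateSystem h P).Lev r)
    (hc : ∀ σ, ((c σ : (tateSystem h P).Lev r) : J) = h.idem P r • (σ • w - w)) :
    (galSys N p AN Ap).PCond
      ((tateSystem h P).sub r
        (Ordinary.lattice Eig (padicCyclo p) (Ap.inertiaSubgroupIn ℚ))) c := by
  set L := Ordinary.lattice Eig (padicCyclo p) (Ap.inertiaSubgroupIn ℚ)
  have hmem : ∀ i, (tateSystem h P).proj r (F.elem i) ∈ (tateSystem h P).sub r L :=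
    fun i ↦ ⟨F.elem i, F.elem_mem_lattice Eig i, rfl⟩
  have hk : ∀ s ∈ Ap.inertiaSubgroupIn ℚ, ∀ i, ∃ k : ℕ, s • v i - v i = k • (root p r : Qmul) :=
    fun s hs i ↦ exists_eq_nsmul_root p (htors i s hs)
  have hcs : ∀ s ∈ Ap.inertiaSubgroupIn ℚ, ∃ k : ι → ℕ,
      (∀ i, s • v i - v i = k i • (root p r : Qmul)) ∧
        c s = ∑ i, k i • (tateSystem h P).proj r (F.elem i) := by
    intro s hs
    choose k hk using hk s hs
    refine ⟨k, hk, Subtype.ext ?_⟩
    rw [hc, hw s hs, AddSubmonoidClass.coe_finsetSum]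
    refine Finset.sum_congr rfl fun i _ ↦ ?_
    rw [← map_nsmul ((tateSystem h P).proj r), F.coe_proj_nsmul h]
    rw [← map_nsmul (F.Φ i)]
    exact congrArg (F.Φ i) (Subtype.ext (hk i))
  refine ⟨fun s hs ↦ ?_, fun φ ↦ ?_⟩
  · obtain ⟨k, -, hks⟩ := hcs s hs
    rw [hks]
    exact sum_mem fun i _ ↦ nsmul_mem (hmem i) _
  · have hn : ∀ i, ∃ n : ℕ, φ ⟨_, hmem i⟩ = n • (root p r : Qmul) := fun i ↦ by
      refine exists_eq_nsmul_root p ?_
      rw [← map_nsmul, show p ^ r • (⟨_, hmem i⟩ : (tateSystem h P).sub r L) = 0 from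
        Subtype.ext ((tateSystem h P).pow_nsmul_lev r _), map_zero]
    choose n hn using hn
    refine ⟨∑ i, n i • v i, sum_mem fun i _ ↦ nsmul_mem
      (mem_unitsAt_of_nsmul_mem (pow_ne_zero r (Fact.out : p.Prime).ne_zero) (hunit i)) _,
      fun s hs ↦ ?_⟩
    obtain ⟨k, hk, hks⟩ := hcs s hs
    rw [show (⟨c s, _⟩ : (tateSystem h P).sub r L) =
        ∑ i, k i • (⟨_, hmem i⟩ : (tateSystem h P).sub r L) from
        Subtype.ext (hks.trans (by rw [AddSubmonoidClass.coe_finsetSum]; rfl)),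
      map_sum, Finset.smul_sum, ← Finset.sum_sub_distrib]
    refine Finset.sum_congr rfl fun i _ ↦ ?_
    rw [map_nsmul, hn, smul_comm (k i) (n i), ← hk i, nsmul_sub]
    congr 1
    exact (map_nsmul (DistribSMul.toAddMonoidHom Qmul s) (n i) (v i)).symm

omit [CharZero E] in
/-- Kummer cocycles of units pushed through the family satisfy the local condition at `p`. -/
theorem MuFamily.hpcond {N : ℕ} {AN : ValuationSubring Qbar} {y : J}
    (hy : ∀ r, ∃ (w : J) (v : ι → Qmul), p ^ r • w = y ∧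
      (∀ i, p ^ r • v i ∈ unitsAt Ap) ∧
      ∃ htors : ∀ i, ∀ s ∈ Ap.inertiaSubgroupIn ℚ, p ^ r • (s • v i - v i) = 0,
        ∀ s (hs : s ∈ Ap.inertiaSubgroupIn ℚ),
          h.idem P r • (s • w - w) = ∑ i, F.Φ i ⟨s • v i - v i, mem_muPow (htors i s hs)⟩) :
    ∀ r, ∃ w : J, p ^ r • w = y ∧ ∀ c : GalQ → (tateSystem h P).Lev r,
      (∀ σ, ((c σ : (tateSystem h P).Lev r) : J) = h.idem P r • (σ • w - w)) →
        (galSys N p AN Ap).PCond
          ((tateSystem h P).sub r
            (Ordinary.lattice Eig (padicCyclo p) (Ap.inertiaSubgroupIn ℚ))) c := fun r ↦ by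
  obtain ⟨w, v, hwy, hunit, htors, hw⟩ := hy r
  exact ⟨w, hwy, fun c hc ↦ F.pCond Eig h v hunit htors hw c hc⟩

end Fermat.Agent.OrdinaryEisenstein
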