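import Fermat.Agent.EisensteinDescent.Setup
import Mathlib.LinearAlgebra.Dual.Lemmas
import Mathlib.LinearAlgebra.FiniteDimensional.Basic
import Mathlib.NumberTheory.Padics.RingHoms
import Mathlib.RingTheory.Localization.FractionRing
import Mathlib.RingTheory.Localization.Integer
import Mathlib.LinearAlgebra.Dimension.OrzechProperty
import Mathlib.LinearAlgebra.Dimension.DivisionRing
import Mathlib.LinearAlgebra.FiniteDimensional.Lemmas

/-!
# Vectors on which the operators act faithfully meet every eigen-component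

If no nonzero element of the `ℤ_p`-span of the operators kills all `X i`, and the eigencharacters
are distinct, then every eigen-component sees some `X i`: a combination over `E` of operators
projecting to one component would otherwise kill all `X i`.
-/

set_option autoImplicit false

noncomputable section

namespace Fermat.Agent.OrdinaryEisenstein

open EisensteinDescent

variable {Γ : Type*} [Group Γ] {p : ℕ} [Fact p.Prime] {T : Type*} [CommRing T]
  {Λ : Type*} [AddCommGroup Λ] [Module ℤ_[p] Λ] [DistribMulAction Γ Λ]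
  {act : T →+* Module.End ℤ_[p] Λ} {E : Type*} [Field E] [CharZero E] [Algebra ℤ_[p] E]

omit [Group Γ] [DistribMulAction Γ Λ] in
/-- `ℤ_p` embeds in a field of characteristic zero that is an algebra over it. -/
theorem algebraMap_padicInt_injective (p : ℕ) [Fact p.Prime] (E : Type*) [Field E] [CharZero E]
    [Algebra ℤ_[p] E] : Function.Injective (algebraMap ℤ_[p] E) := by
  rw [RingHom.injective_iff_ker_eq_bot]
  by_contra hne
  obtain ⟨n, hn⟩ := PadicInt.ideal_eq_span_pow_p hne
  have h : (p : ℤ_[p]) ^ n ∈ RingHom.ker (algebraMap ℤ_[p] E) := by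
    rw [hn]
    exact Ideal.mem_span_singleton_self _
  rw [RingHom.mem_ker, map_pow, map_natCast] at h
  exact (Fact.out : p.Prime).ne_zero (Nat.cast_eq_zero.mp (pow_eq_zero_iff'.mp h).1)

omit [Group Γ] [DistribMulAction Γ Λ] in
/-- A relation with coefficients in `E` between operators, valid on enough vectors, is valid on
every vector: it suffices to test rational functionals of the coefficients. -/
theorem sum_mul_repr_eq_zero {κ J ι : Type*} (s : Finset κ) (l : κ → E)
    (f : κ → Module.End ℤ_[p] Λ) (b : Module.Basis J ℤ_[p] Λ) (X : ι → Λ)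
    (hinj : ∀ g ∈ Submodule.span ℤ_[p] (Set.range f), (∀ i, g (X i) = 0) → g = 0)
    (h : ∀ i j, ∑ t ∈ s, l t * algebraMap ℤ_[p] E (b.repr (f t (X i)) j) = 0) (x : Λ) (j : J) :
    ∑ t ∈ s, l t * algebraMap ℤ_[p] E (b.repr (f t x) j) = 0 := by
  classical
  let ψ : ℚ_[p] →+* E := IsFractionRing.lift (algebraMap_padicInt_injective p E)
  let : Algebra ℚ_[p] E := ψ.toAlgebra
  refine (Module.forall_dual_apply_eq_zero_iff ℚ_[p] _).mp fun φ => ?_
  have hφ : ∀ (c : ℤ_[p]) (e : E), φ (e * algebraMap ℤ_[p] E c) =
      algebraMap ℤ_[p] ℚ_[p] c * φ e := by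
    intro c e
    rw [mul_comm e, ← smul_eq_mul (algebraMap ℤ_[p] ℚ_[p] c), ← map_smul, Algebra.smul_def]
    refine congrArg φ (congrArg (· * e) ?_)
    exact (IsFractionRing.lift_algebraMap _ c).symm
  obtain ⟨z, hz⟩ := IsLocalization.exist_integer_multiples (nonZeroDivisors ℤ_[p]) s
    fun t => φ (l t)
  choose! n hn using hz
  have hsum : ∀ y j', algebraMap ℤ_[p] ℚ_[p] (z : ℤ_[p]) * φ (∑ t ∈ s, l t * algebraMap ℤ_[p] E
      (b.repr (f t y) j')) = algebraMap ℤ_[p] ℚ_[p] (b.repr ((∑ t ∈ s, n t • f t) y) j') := by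
    intro y j'
    rw [LinearMap.sum_apply, map_sum, map_sum, Finset.mul_sum, Finsupp.finsetSum_apply,
      map_sum (algebraMap ℤ_[p] ℚ_[p])]
    refine Finset.sum_congr rfl fun t ht => ?_
    rw [hφ, LinearMap.smul_apply, map_smul, Finsupp.smul_apply, smul_eq_mul, map_mul, hn t ht,
      Algebra.smul_def]
    ring
  have hg : (∑ t ∈ s, n t • f t) = 0 := by
    refine hinj _ (sum_mem fun t _ => Submodule.smul_mem _ _ (Submodule.subset_span ⟨t, rfl⟩))
      fun i => b.repr.injective ?_
    rw [map_zero]
    refine Finsupp.ext fun j' => ?_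
    have h1 := hsum (X i) j'
    rw [h i j', map_zero, mul_zero] at h1
    exact (map_eq_zero_iff _ (IsFractionRing.injective ℤ_[p] ℚ_[p])).mp h1.symm
  have h2 := hsum x j
  rw [hg, LinearMap.zero_apply, map_zero, Finsupp.zero_apply, map_zero] at h2
  exact (mul_eq_zero.mp h2).resolve_left fun h0 =>
    nonZeroDivisors.coe_ne_zero z ((map_eq_zero_iff _ (IsFractionRing.injective ℤ_[p] ℚ_[p])).mp h0)

variable (Eig : EigenData Γ act E)

omit [CharZero E] in
/-- Distinct characters give, over `E`, a combination of operators projecting to one component. -/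
theorem exists_component_projector (hθ : Function.Injective Eig.θ) [DecidableEq Eig.ι]
    (i₀ : Eig.ι) : ∃ l : T →₀ E, ∀ i, (l.sum fun t c => c * Eig.θ i t) =
        if i = i₀ then 1 else 0 := by
  let v : T → Eig.ι → E := fun t i => Eig.θ i t
  have htop : Submodule.span E (Set.range v) = ⊤ := by
    by_contra hne
    obtain ⟨φ, hφ0, hφ⟩ := Submodule.exists_le_ker_of_lt_top _ (lt_top_iff_ne_top.mpr hne)
    refine hφ0 ?_
    have hli : LinearIndependent E fun i : Eig.ι => (Eig.θ i : T → E) :=
      (linearIndependent_monoidHom T E).comp (fun i => (Eig.θ i : T →* E)) fun i j hij =>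
        hθ (RingHom.ext fun t => DFunLike.congr_fun hij t)
    have hz : ∀ i, φ (Pi.single i 1) = 0 := Fintype.linearIndependent_iff.mp hli
      (fun i => φ (Pi.single i 1)) (funext fun t => by
        have h1 : φ (v t) = 0 := hφ (Submodule.subset_span ⟨t, rfl⟩)
        rw [← Finset.univ_sum_single (v t), map_sum] at h1
        rw [Finset.sum_apply, Pi.zero_apply, ← h1]
        refine Finset.sum_congr rfl fun i _ => ?_
        rw [show (Pi.single i (v t i) : Eig.ι → E) = v t i • Pi.single i 1 by
          rw [← Pi.single_smul', smul_eq_mul, mul_one], map_smul]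
        exact mul_comm _ _)
    refine (Pi.basisFun E Eig.ι).ext fun i => ?_
    rw [Pi.basisFun_apply]
    exact hz i
  obtain ⟨l, hl⟩ := Finsupp.mem_span_range_iff_exists_finsupp.mp
    (show Pi.single i₀ (1 : E) ∈ Submodule.span E (Set.range v) from htop ▸ Submodule.mem_top)
  refine ⟨l, fun i => ?_⟩
  have h1 := congrFun hl i
  rw [Finsupp.sum, Finset.sum_apply, Pi.single_apply] at h1
  exact h1

variable [Module.Free ℤ_[p] Λ] [Module.Finite ℤ_[p] Λ]

omit [CharZero E] [Module.Free ℤ_[p] Λ] [Module.Finite ℤ_[p] Λ] in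
/-- A basis of the lattice gives a basis of the coordinates. -/
theorem linearIndependent_coord_basis {J : Type*} [Fintype J] (b : Module.Basis J ℤ_[p] Λ) :
    LinearIndependent E fun j => Eig.coord (b j) := by
  refine linearIndependent_of_top_le_span_of_card_eq_finrank ?_ ?_
  · rw [← Eig.span_coord, Submodule.span_le]
    rintro _ ⟨x, rfl⟩
    rw [← b.sum_repr x, map_sum]
    refine sum_mem fun j _ => ?_
    rw [map_smul, ← algebraMap_smul E]
    exact Submodule.smul_mem _ _ (Submodule.subset_span ⟨j, rfl⟩)
  · rw [← Module.finrank_eq_card_basis b, Eig.finrank_eq, Module.finrank_pi_fintype,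
      Finset.sum_const, Finset.card_univ, Module.finrank_fin_fun, smul_eq_mul, mul_comm]

/-- **Nonvanishing in every component.** -/
theorem exists_coord_ne_zero_of_span_injective (hθ : Function.Injective Eig.θ) {ι : Type*}
    (X : ι → Λ)
    (hinj : ∀ f ∈ Submodule.span ℤ_[p] (Set.range act), (∀ i, f (X i) = 0) → f = 0)
    (i₀ : Eig.ι) : ∃ i, Eig.coord (X i) i₀ ≠ 0 := by
  classical
  by_contra! hall
  obtain ⟨l, hl⟩ := exists_component_projector Eig hθ i₀
  let b := Module.Free.chooseBasis ℤ_[p] Λ
  have hexp : ∀ y, (∑ j, (∑ t ∈ l.support, l t * algebraMap ℤ_[p] E (b.repr (act t y) j)) •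
      Eig.coord (b j)) = fun i => if i = i₀ then Eig.coord y i else 0 := by
    intro y
    have h1 : ∀ t, ∑ j, algebraMap ℤ_[p] E (b.repr (act t y) j) • Eig.coord (b j)
        = Eig.coord (act t y) := fun t => by
      conv_rhs => rw [← b.sum_repr (act t y), map_sum]
      exact Finset.sum_congr rfl fun j _ => by rw [map_smul, algebraMap_smul]
    simp only [Finset.sum_smul, mul_smul]
    rw [Finset.sum_comm]
    simp only [← Finset.smul_sum, h1]
    funext i
    rw [Finset.sum_apply]
    simp only [Pi.smul_apply, Eig.coord_act, smul_smul]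
    rw [← Finset.sum_smul, show ∑ t ∈ l.support, l t * Eig.θ i t = _ from hl i]
    split_ifs with hi
    · rw [one_smul]
    · rw [zero_smul]
  have hX : ∀ i j, ∑ t ∈ l.support, l t * algebraMap ℤ_[p] E (b.repr (act t (X i)) j) = 0 :=
    fun i => Fintype.linearIndependent_iff.mp (linearIndependent_coord_basis Eig b) _ (by
      rw [hexp]
      funext k
      split_ifs with hk
      · rw [hk, hall i]; rfl
      · rfl)
  have hzero : ∀ y, Eig.coord y i₀ = 0 := fun y => by
    have h1 := congrFun (hexp y) i₀
    rw [if_pos rfl] at h1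
    rw [← h1, Finset.sum_apply]
    refine Finset.sum_eq_zero fun j _ => ?_
    rw [sum_mul_repr_eq_zero _ (fun t => l t) (fun t => act t) b X hinj hX y j, zero_smul]
    rfl
  have hmem : ∀ v ∈ Submodule.span E (Set.range Eig.coord), v i₀ = 0 := fun v hv => by
    have : Submodule.span E (Set.range Eig.coord) ≤ LinearMap.ker (LinearMap.proj i₀) :=
      Submodule.span_le.mpr (Set.range_subset_iff.mpr hzero)
    exact this hv
  have h1 := hmem (Pi.single i₀ 1) (Eig.span_coord ▸ Submodule.mem_top)
  rw [Pi.single_eq_same] at h1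
  exact one_ne_zero (congrFun h1 0)

end Fermat.Agent.OrdinaryEisenstein
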