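import Fermat.Agent.OrdinaryEisenstein.Projector

/-!
# The unit root matrix

The unit root of `X² - T_p X + p` on the primary levels gives matrices `α`, `α'` over `ℤ_p` with
`α α' = e` and `α² - H_p α + p e = 0`, `e` the Eisenstein projector.
-/

set_option autoImplicit false

noncomputable section

open ModularCurve Matrix

namespace Fermat.Agent.OrdinaryEisenstein

open Fermat.Agent.EisensteinDescent Fermat.Agent.EisensteinTate

section Abstract

variable {p : ℕ} [Fact p.Prime] {T : Type*} [CommRing T] {J : Type*} [AddCommGroup J] [Module T J]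
  {D : ℕ}

/-- An inverse on the levels of a sequence congruent to `1`. -/
theorem exists_inverse_seq (h : HasTorsionRank J p D) (P : Ideal T) {α : ℕ → T}
    (h1 : ∀ r, α r - 1 ∈ P) (hα : ∀ r, ∀ x ∈ primary J p P r, α (r + 1) • x = α r • x) :
    ∃ α' : ℕ → T, (∀ r, ∀ x ∈ primary J p P r, α' (r + 1) • x = α' r • x) ∧
      ∀ r, ∀ x ∈ primary J p P r, (α r * α' r) • x = x := by
  choose K hK using exists_pow_annihilates h P
  set α' : ℕ → T := fun r => ∑ i ∈ Finset.range (K r), (1 - α r) ^ i
  have hinv : ∀ r, ∀ x ∈ primary J p P r, (α r * α' r) • x = x := by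
    intro r x hx
    have e : α r * α' r = 1 - (1 - α r) ^ K r := by
      rw [← mul_neg_geom_sum]
      ring
    have h0 : (1 - α r) ^ K r • x = 0 := by
      refine hK r _ (Ideal.pow_mem_pow ?_ _) x hx
      rw [← neg_sub]
      exact P.neg_mem (h1 r)
    rw [e, sub_smul, h0, sub_zero, one_smul]
  refine ⟨α', fun r x hx => ?_, hinv⟩
  have hmem : α' r • x ∈ primary J p P r := (primary _ _ _ r).smul_mem _ hx
  calc α' (r + 1) • x = α' (r + 1) • (α r * α' r) • x := by rw [hinv r x hx]
    _ = (α (r + 1) * α' (r + 1)) • α' r • x := by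
      rw [mul_smul, ← hα r _ hmem, mul_comm, mul_smul]
    _ = α' r • x := hinv (r + 1) _ (primary_mono r.le_succ hmem)

omit [Fact (Nat.Prime p)] in
theorem quadratic_smul (a f : T) (x : J) :
    (a * a + -f * a + (p : T)) • x = a • a • x - f • a • x + p • x := by
  rw [add_smul, add_smul, mul_smul, mul_smul, neg_smul, Nat.cast_smul_eq_nsmul, sub_eq_add_neg]

end Abstract

variable {N : ℕ} [NeZero N] [Fact N.Prime] {p : ℕ} [Fact p.Prime] {D : ℕ}
  (h : HasTorsionRank (JZero N) p D)

include h

/-- A level-wise quadratic relation passes to the matrices. -/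
theorem limMat_quadratic {α : ℕ → awayAlg N} (hα : IsCompat h α) (f : awayAlg N)
    (h2 : ∀ r, ∀ x ∈ primary (JZero N) p (EisensteinDescent.eisensteinIdeal N p) r,
      α r • α r • x - f • α r • x + p • x = 0) :
    limMat h α * limMat h α - castMat p (heckeMatHom N f) * limMat h α
      + (p : ℤ_[p]) • eisProj h = 0 := by
  have hf := isCompat_const h (-f)
  have hp := isCompat_const h (p : awayAlg N)
  have h0 := isCompat_const h (0 : awayAlg N)
  have e := limMat_congr h (((hα.mul h hα).add h (hf.mul h hα)).add h hp) h0 fun r x hx =>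
    ((quadratic_smul (p := p) (α r) f x).trans (h2 r x hx)).trans (zero_smul (awayAlg N) x).symm
  have e1 := limMat_add h ((hα.mul h hα).add h (hf.mul h hα)) hp
  have e2 := limMat_add h (hα.mul h hα) (hf.mul h hα)
  have e3 := limMat_mul h hα hα
  have e4 := limMat_mul h hf hα
  have e5 := limMat_const h (-f)
  have e6 := limMat_const h (p : awayAlg N)
  have e7 := limMat_const h (0 : awayAlg N)
  rw [e1, e2, e3, e4, e5, e6, e7] at e
  simp only [map_neg, map_natCast, map_zero, zero_mul, mul_assoc, eisProj_mul_limMat h hα, neg_mul,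
    ← sub_eq_add_neg] at e
  rw [Nat.cast_smul_eq_nsmul, nsmul_eq_mul]
  exact e

end Fermat.Agent.OrdinaryEisenstein
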