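import Fermat.Agent.OrdinaryEisenstein.PhiMat
import Fermat.Agent.OrdinaryEisenstein.FormClass
import Fermat.Agent.OrdinaryEisenstein.Glue
import Fermat.Agent.OrdinaryEisenstein.KummerUnits
import Fermat.Agent.OrdinaryEisenstein.UnitRootMatrix

/-!
# The family of maps of roots of unity of the ordinary Eisenstein part

A solution vector `c` gives `z ↦ Φ_c (z)`, a map of `μ_{p^∞}` to `J₀(N)(ℚ̄)`. For vectors fixed by
the Eisenstein projector it lands in the primary part and is inertia equivariant; compatible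
operators act through their limit matrices, so the unit root composed with Frobenius fixes it.
-/

set_option autoImplicit false

noncomputable section

open PowerSeries Matrix AlgebraicCurve ModularCurve
open scoped IsMulCommutative

namespace Fermat.Agent.OrdinaryEisenstein

open OrdinaryCurve OrdinaryExclusion GaloisBasics EisensteinDescent EisensteinTate

variable {p : ℕ} [hp : Fact p.Prime]

theorem exists_pow_muPt (z : muPow p) :
    ∃ r, (complexEmb p (qval (z : Qmul))) ^ p ^ r = 1 := by
  obtain ⟨r, hr⟩ := z.2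
  exact ⟨r, by rw [← map_pow, ← qval_nsmul, hr, qval_zero, map_one]⟩

/-- The point `z - 1` of the disc. -/
def muPt (z : muPow p) : DiscPoint ℂ_[p] :=
  ⟨complexEmb p (qval (z : Qmul)) - 1,
    norm_root_sub_one_lt (norm_prime_lt_one p) (exists_pow_muPt z).choose_spec⟩

theorem one_add_muPt (z : muPow p) : 1 + (muPt z).val = complexEmb p (qval (z : Qmul)) :=
  add_sub_cancel _ _

theorem pow_one_add_muPt {z : muPow p} {r : ℕ} (hz : p ^ r • (z : Qmul) = 0) :
    (1 + (muPt z).val) ^ p ^ r = 1 := by
  rw [one_add_muPt, ← map_pow, ← qval_nsmul, hz, qval_zero, map_one]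

theorem muPt_muSmul (g : PadicAlgCl p ≃ₐ[ℚ_[p]] PadicAlgCl p) (z : muPow p) :
    (muPt (muSmul (localGaloisToGlobal p g) z)).val = completeGal p g (muPt z).val := by
  show complexEmb p (qval (localGaloisToGlobal p g • (z : Qmul))) - 1
    = completeGal p g (complexEmb p (qval (z : Qmul)) - 1)
  rw [map_sub, map_one, completeGal_complexEmb]
  rfl

variable {N : ℕ} [NeZero N]

namespace PhiData

variable (Z : PhiData p N)

theorem pow_smul_phi_muPt (c : Z.Sol) {z : muPow p} {r : ℕ} (hz : p ^ r • (z : Qmul) = 0) :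
    p ^ r • Z.phi c (muPt z) = 0 := by
  rw [← Z.phi_pow c (p ^ r) (d := discZero ℂ_[p]) (by simp [discZero, pow_one_add_muPt hz]),
    Z.phi_zero]

/-- The value of `phi` at a `p`-power root of unity comes from a point of `J₀(N)(ℚ̄)`. -/
theorem exists_preimage (c : Z.Sol) (z : muPow p) :
    ∃ x : JZero N, upHom p N x = Z.phi c (muPt z) := by
  obtain ⟨r, hr⟩ := z.2
  obtain ⟨x, -, hx⟩ := (torsionBridge p N).surj r _ (Z.pow_smul_phi_muPt c hr)
  exact ⟨x, hx⟩

/-- The map of a solution vector on `μ_{p^∞}`. -/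
def phiMu (c : Z.Sol) : muPow p →+ JZero N :=
  AddMonoidHom.mk' (fun z => (Z.exists_preimage c z).choose) fun z z' =>
    upHom_injective p N (by
      rw [map_add, (Z.exists_preimage c (z + z')).choose_spec,
        (Z.exists_preimage c z).choose_spec, (Z.exists_preimage c z').choose_spec]
      refine Z.phi_add c ?_
      have h : complexEmb p (qval ((z + z' : muPow p) : Qmul))
          = complexEmb p (qval (z : Qmul)) * complexEmb p (qval (z' : Qmul)) := by
        rw [← map_mul]
        rfl
      show _ - 1 = (_ - 1) + (_ - 1) + (_ - 1) * (_ - 1)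
      linear_combination h)

theorem up_phiMu (c : Z.Sol) (z : muPow p) : upHom p N (Z.phiMu c z) = Z.phi c (muPt z) :=
  (Z.exists_preimage c z).choose_spec

theorem pow_smul_phiMu (c : Z.Sol) {z : muPow p} {r : ℕ} (hz : p ^ r • (z : Qmul) = 0) :
    p ^ r • Z.phiMu c z = 0 :=
  upHom_injective p N (by rw [map_nsmul, up_phiMu, Z.pow_smul_phi_muPt c hz, map_zero])

/-- Inertia acts on the images through its action on roots of unity. -/
theorem inertia_smul_phiMu (c : Z.Sol) {s : GalQ}
    (hs : s ∈ (padicPlace p).inertiaSubgroupIn ℚ) (z : muPow p) :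
    s • Z.phiMu c z = Z.phiMu c (muSmul s z) := by
  obtain ⟨g, rfl⟩ := exists_local_lift p hs
  refine upHom_injective p N ?_
  rw [upHom_galois, up_phiMu, up_phiMu]
  exact Z.galois_phi_of_inertia hs c (muPt_muSmul g z)

/-- Frobenius moves `c` and the root of unity. -/
theorem frob_smul_phiMu (c : Z.Sol) (z : muPow p) :
    localGaloisToGlobal p (frobElt p) • Z.phiMu c z
      = Z.phiMu (frobSol c) (muSmul (localGaloisToGlobal p (frobElt p)) z) := by
  refine upHom_injective p N ?_
  rw [upHom_galois, up_phiMu, up_phiMu]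
  exact Z.galois_phi (frobElt p) (fun _ => rfl) (muPt_muSmul _ z)

end PhiData

/-! ### At prime level -/

variable [Fact N.Prime]

/-- The data of the curve with the integral forms of level `N`. -/
def formPhiData (hpN : p ≠ N) (S : DiscCurve (curveField p N) (Fin (formQBasis N).rank))
    (hS : S.disc = discData p N) (hA : S.curve.A = fun m i => ((formQBasis N).a m i : ℂ_[p])) :
    PhiData p N :=
  ⟨formQBasis N, S, hS, hA, heckeMat N p, isTMat_heckeMat N hp.out hpN⟩

variable (hpN : p ≠ N) (S : DiscCurve (curveField p N) (Fin (formQBasis N).rank))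
  (hS : S.disc = discData p N) (hA : S.curve.A = fun m i => ((formQBasis N).a m i : ℂ_[p]))

local notation "Z₀" => formPhiData hpN S hS hA

theorem commute_heckeMat_castMat (X : awayAlg N) :
    Commute (castMat p (heckeMat N p)) (castMat p (heckeMatHom N X)) :=
  (heckeMatHom_commute N (awayTq N p) X).map (castMat p)

variable {D : ℕ} (h : HasTorsionRank (JZero N) p D)

theorem commute_heckeMat_limMat {t : ℕ → awayAlg N} (ht : IsCompat h t) :
    Commute (castMat p (heckeMat N p)) (limMat h t) :=
  castMat_mul_limMat_comm h (awayTq N p) ht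

variable (hsmul : ∀ (t : awayAlg N) (a : DiscPoint ℂ_[p]) (R : Fin (formQBasis N).rank → ℂ_[p]⟦X⟧)
  (y : JZero N), S.IsClass a R (upHom p N y) →
    S.IsClass a (fun i => ∑ b, C (heckeMatHom N t i b : ℂ_[p]) * R b) (upHom p N (t • y)))

include hsmul

/-- Compatible operators act through their limit matrices. -/
theorem smul_phiMu {t : ℕ → awayAlg N} (ht : IsCompat h t) (c : PhiData.Sol Z₀) {r : ℕ}
    {z : muPow p} (hz : p ^ r • (z : Qmul) = 0) :
    ∃ R₀, ∀ R, R₀ ≤ R → (t R * h.idem (eisensteinIdeal N p) R) • PhiData.phiMu Z₀ c z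
      = PhiData.phiMu Z₀ (matSol (limMat h t) (commute_heckeMat_limMat h ht) c) z := by
  obtain ⟨R₀, hR₀⟩ := isMatLim_limMat h ht r
  refine ⟨R₀, fun R hR => upHom_injective p N ?_⟩
  rw [PhiData.up_phiMu, ← PhiData.phi_matSol_of_congr Z₀ (hR₀ R hR)
    (commute_heckeMat_limMat h ht) (commute_heckeMat_castMat _) c (pow_one_add_muPt hz)]
  refine PhiData.phi_eq Z₀ (hsmul _ _ (logVecOf c.1) _ ?_) fun i =>
    PhiData.sum_mul_logVecOf Z₀ _ c.1 i
  rw [PhiData.up_phiMu]
  exact PhiData.isClass_phi Z₀ c _

/-- Vectors fixed by the projector land in the primary part. -/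
theorem phiMu_mem_primary (c : PhiData.Sol Z₀) (hc : matVec (eisProj h) c.1 = c.1) {r : ℕ}
    {z : muPow p} (hz : p ^ r • (z : Qmul) = 0) :
    PhiData.phiMu Z₀ c z ∈ primary (JZero N) p (eisensteinIdeal N p) r := by
  obtain ⟨R₀, hR₀⟩ := smul_phiMu hpN S hS hA h hsmul (isCompat_const h 1) c hz
  have hx := PhiData.pow_smul_phiMu Z₀ c hz
  have h1 := hR₀ (max R₀ r) (le_max_left _ _)
  have h2 : matSol (limMat h fun _ => 1) (commute_heckeMat_limMat h (isCompat_const h 1)) c = c :=
    Subtype.ext hc
  replace h1 := h1.trans (congrArg (fun d => PhiData.phiMu Z₀ d z) h2)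
  rw [one_mul, h.idem_compat _ (le_max_right R₀ r) hx] at h1
  rw [← h1]
  exact h.idem_mem _ hx

/-- Compatible operators on a level act through their limit matrices. -/
theorem level_smul_phiMu {t : ℕ → awayAlg N} (ht : IsCompat h t) (c : PhiData.Sol Z₀)
    (hc : matVec (eisProj h) c.1 = c.1) {r : ℕ} {z : muPow p} (hz : p ^ r • (z : Qmul) = 0) :
    t r • PhiData.phiMu Z₀ c z
      = PhiData.phiMu Z₀ (matSol (limMat h t) (commute_heckeMat_limMat h ht) c) z := by
  obtain ⟨R₀, hR₀⟩ := smul_phiMu hpN S hS hA h hsmul ht c hz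
  have hmem := phiMu_mem_primary hpN S hS hA h hsmul c hc hz
  rw [← hR₀ (max R₀ r) (le_max_left _ _), ← ht.smul_eq h (le_max_right R₀ r) hmem]
  refine Eq.trans ?_ (mul_smul _ _ _).symm
  rw [h.idem_eq _ (primary_mono (le_max_right R₀ r) hmem)]

variable {n : ℕ} (c : Fin n → solutions (p := p) (heckeMat N p))
  (hc : ∀ k, matVec (eisProj h) (c k).1 = (c k).1)

/-- The family. -/
def phiFamily : MuFamily p (padicPlace p) (JZero N) (eisensteinIdeal N p) (Fin n) where
  Φ k := PhiData.phiMu Z₀ (c k)
  mem_primary k _ _ hz := phiMu_mem_primary hpN S hS hA h hsmul (c k) (hc k) hz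
  equivariant k _ hs z := PhiData.inertia_smul_phiMu Z₀ (c k) hs z

/-- The unit root composed with Frobenius fixes the family. -/
theorem unitRoot_frob_phiFamily {α : ℕ → awayAlg N} (hα : IsCompat h α)
    (hασ : ∀ k, matVec (limMat h α) (fun i => unramFrob p ((c k).1 i)) = (c k).1)
    (k : Fin n) (r : ℕ) (z : muPow p) (hz : p ^ r • (z : Qmul) = 0) :
    α r • localGaloisToGlobal p (frobElt p) • (phiFamily hpN S hS hA h hsmul c hc).Φ k z
      = (phiFamily hpN S hS hA h hsmul c hc).Φ k
          (muSmul (localGaloisToGlobal p (frobElt p)) z) := by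
  show α r • localGaloisToGlobal p (frobElt p) • PhiData.phiMu Z₀ (c k) z = PhiData.phiMu Z₀ (c k) _
  have he : matVec (eisProj h) (frobSol (c k)).1 = (frobSol (c k)).1 := funext fun i => by
    show matVec (eisProj h) (fun b => unramFrob p ((c k).1 b)) i = unramFrob p ((c k).1 i)
    conv_rhs => rw [← hc k]
    exact (unramGal_matVec (frobElt p) (eisProj h) (c k).1 i).symm
  rw [PhiData.frob_smul_phiMu, level_smul_phiMu hpN S hS hA h hsmul hα (frobSol (c k)) he
    (pow_nsmul_galois _ hz)]
  exact congrArg (fun d => PhiData.phiMu Z₀ d _) (Subtype.ext (hασ k))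

end Fermat.Agent.OrdinaryEisenstein
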