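import Fermat.Agent.OrdinaryEisenstein.HeckeMatrix
import Fermat.Agent.OrdinaryEisenstein.UnitRoot
import Fermat.Agent.TateExport.PadicLattice

/-!
# The Eisenstein projector on integral forms tensored with `ℤ_p`

A compatible sequence of operators on the primary levels of `J₀(N)` gives a matrix over `ℤ_p`,
the limit of the integral matrices of `t R * idem R`. For `t = 1` this is the Eisenstein projector.
-/

set_option autoImplicit false

noncomputable section

open ModularCurve Matrix

namespace Fermat.Agent.OrdinaryEisenstein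

open Fermat.Agent.EisensteinDescent Fermat.Agent.EisensteinTate

section Limit

variable (p : ℕ) [Fact p.Prime] {ι : Type*} [Fintype ι] [DecidableEq ι]

/-- Reduction of matrices modulo `p ^ j`. -/
def redMat (j : ℕ) : Matrix ι ι ℤ_[p] →+* Matrix ι ι (ZMod (p ^ j)) :=
  (PadicInt.toZModPow j).mapMatrix

/-- Integral matrices as matrices over `ℤ_p`. -/
def castMat : Matrix ι ι ℤ →+* Matrix ι ι ℤ_[p] := (Int.castRingHom ℤ_[p]).mapMatrix

/-- Integral matrices modulo `p ^ j`. -/
def intRed (j : ℕ) : Matrix ι ι ℤ →+* Matrix ι ι (ZMod (p ^ j)) :=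
  (redMat p j).comp (castMat p)

/-- A `p`-adic matrix is the limit of a sequence of integral matrices. -/
def IsMatLim (M : ℕ → Matrix ι ι ℤ) (A : Matrix ι ι ℤ_[p]) : Prop :=
  ∀ j, ∃ R₀, ∀ R, R₀ ≤ R → redMat p j A = intRed p j (M R)

variable {p} {M M' : ℕ → Matrix ι ι ℤ} {A A' : Matrix ι ι ℤ_[p]}

theorem eq_of_redMat (h : ∀ j, redMat p j A = redMat p j A') : A = A' :=
  Matrix.ext fun i l => PadicInt.ext_of_toZModPow.mp fun j => congrFun (congrFun (h j) i) l

theorem intRed_apply (j : ℕ) (X : Matrix ι ι ℤ) (i l : ι) :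
    intRed p j X i l = ((X i l : ℤ) : ZMod (p ^ j)) := map_intCast (PadicInt.toZModPow j) _

theorem intRed_eq_of_dvd {j : ℕ} {X Y C : Matrix ι ι ℤ} (h : X - Y = ((p : ℤ) ^ j) • C) :
    intRed p j X = intRed p j Y := by
  ext i l
  rw [intRed_apply, intRed_apply, ZMod.intCast_eq_intCast_iff_dvd_sub]
  refine ⟨-C i l, ?_⟩
  have := congrFun (congrFun h i) l
  rw [Matrix.sub_apply, Matrix.smul_apply, smul_eq_mul] at this
  push_cast
  linear_combination -this

/-- A sequence of matrices has at most one limit. -/
theorem IsMatLim.unique (h : IsMatLim p M A) (h' : IsMatLim p M A') : A = A' :=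
  eq_of_redMat fun j => by
    obtain ⟨R, hR⟩ := h j
    obtain ⟨R', hR'⟩ := h' j
    rw [hR _ (le_max_left R R'), hR' _ (le_max_right R R')]

/-- Sequences eventually congruent modulo every power of `p` have the same limit. -/
theorem IsMatLim.congr (h : IsMatLim p M A)
    (hM : ∀ j, ∃ R₀, ∀ R, R₀ ≤ R → intRed p j (M R) = intRed p j (M' R)) : IsMatLim p M' A :=
  fun j => by
    obtain ⟨R, hR⟩ := h j
    obtain ⟨R', hR'⟩ := hM j
    exact ⟨max R R', fun S hS => (hR S ((le_max_left _ _).trans hS)).trans
      (hR' S ((le_max_right _ _).trans hS))⟩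

/-- A constant sequence converges to its image over `ℤ_p`. -/
theorem IsMatLim.const (X : Matrix ι ι ℤ) : IsMatLim p (fun _ => X) (castMat p X) :=
  fun _ => ⟨0, fun _ _ => rfl⟩

/-- Limits of matrices add. -/
theorem IsMatLim.add (h : IsMatLim p M A) (h' : IsMatLim p M' A') :
    IsMatLim p (fun R => M R + M' R) (A + A') := fun j => by
  obtain ⟨R, hR⟩ := h j
  obtain ⟨R', hR'⟩ := h' j
  exact ⟨max R R', fun S hS => by
    rw [map_add, map_add, hR S ((le_max_left _ _).trans hS),
      hR' S ((le_max_right _ _).trans hS)]⟩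

/-- Limits of matrices multiply. -/
theorem IsMatLim.mul (h : IsMatLim p M A) (h' : IsMatLim p M' A') :
    IsMatLim p (fun R => M R * M' R) (A * A') := fun j => by
  obtain ⟨R, hR⟩ := h j
  obtain ⟨R', hR'⟩ := h' j
  exact ⟨max R R', fun S hS => by
    rw [map_mul, map_mul, hR S ((le_max_left _ _).trans hS),
      hR' S ((le_max_right _ _).trans hS)]⟩

theorem exists_isMatLim (hM : ∀ j, ∃ k, ∀ R, k ≤ R → intRed p j (M R) = intRed p j (M k)) :
    ∃ A, IsMatLim p M A := by
  choose k hk using hM
  have hcast : ∀ j (z : ℤ), ZMod.castHom (pow_dvd_pow p j.le_succ) (ZMod (p ^ j))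
      ((z : ZMod (p ^ (j + 1)))) = (z : ZMod (p ^ j)) := fun j z => map_intCast _ z
  have hcompat : ∀ i l j, ZMod.castHom (pow_dvd_pow p j.le_succ) (ZMod (p ^ j))
      ((M (k (j + 1)) i l : ℤ) : ZMod (p ^ (j + 1))) = ((M (k j) i l : ℤ) : ZMod (p ^ j)) := by
    intro i l j
    have h1 := congrFun (congrFun (hk (j + 1) _ (le_max_right (k j) (k (j + 1)))) i) l
    have h2 := congrFun (congrFun (hk j _ (le_max_left (k j) (k (j + 1)))) i) l
    rw [intRed_apply, intRed_apply] at h1 h2
    rw [← h1, hcast, h2]
  choose A hA using fun i l => TateExport.exists_padicInt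
    (fun j => ((M (k j) i l : ℤ) : ZMod (p ^ j))) (hcompat i l)
  refine ⟨Matrix.of A, fun j => ⟨k j, fun R hR => Matrix.ext fun i l => ?_⟩⟩
  rw [hk j R hR, intRed_apply]
  exact hA i l j

end Limit

variable {N : ℕ} [NeZero N] [Fact N.Prime] {p : ℕ} [Fact p.Prime] {D : ℕ}

/-- Sequences of operators which agree eventually on each torsion level have the same matrices. -/
theorem intRed_heckeMatHom_congr {s s' : ℕ → awayAlg N}
    (hs : ∀ r R, r ≤ R → ∀ x : JZero N, p ^ r • x = 0 → s R • x = s' R • x) (j : ℕ) :
    ∃ R₀, ∀ R, R₀ ≤ R →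
      intRed p j (heckeMatHom N (s R)) = intRed p j (heckeMatHom N (s' R)) := by
  obtain ⟨k, hk⟩ := exists_dvd_heckeMatHom (N := N) (Fact.out : p.Prime) j
  refine ⟨k, fun R hR => ?_⟩
  obtain ⟨C, hC⟩ := hk (s R - s' R) fun x hx =>
    (sub_smul (R := awayAlg N) (M := JZero N) (s R) (s' R) x).trans (sub_eq_zero.mpr
        (hs k R hR x hx))
  exact intRed_eq_of_dvd ((map_sub (heckeMatHom N) _ _).symm.trans hC)

variable (h : HasTorsionRank (JZero N) p D)

include h

/-- The sequence of integral matrices attached to operators on the primary levels. -/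
def levelMat (t : ℕ → awayAlg N) (R : ℕ) : Matrix (FormIdx N) (FormIdx N) ℤ :=
  heckeMatHom N (t R * h.idem (EisensteinDescent.eisensteinIdeal N p) R)

/-- Operators compatible on the primary levels. -/
def IsCompat (_ : HasTorsionRank (JZero N) p D) (t : ℕ → awayAlg N) : Prop :=
  ∀ r, ∀ x ∈ primary (JZero N) p (EisensteinDescent.eisensteinIdeal N p) r,
    t (r + 1) • x = t r • x

omit [Fact (Nat.Prime N)] [Fact (Nat.Prime p)] in
theorem IsCompat.smul_eq {t : ℕ → awayAlg N} (ht : IsCompat h t) {r R : ℕ} (hrR : r ≤ R)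
    {x : JZero N} (hx : x ∈ primary (JZero N) p (EisensteinDescent.eisensteinIdeal N p) r) :
    t R • x = t r • x := by
  induction R, hrR using Nat.le_induction with
  | base => rfl
  | succ n hn ih => exact (ht n x (primary_mono hn hx)).trans ih

/-- The matrices of a compatible sequence of operators converge over `ℤ_p`. -/
theorem exists_isMatLim_levelMat {t : ℕ → awayAlg N} (ht : IsCompat h t) :
    ∃ A, IsMatLim p (levelMat h t) A := by
  refine exists_isMatLim fun j => ?_
  obtain ⟨k, hk⟩ := exists_dvd_heckeMatHom (N := N) (Fact.out : p.Prime) j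
  refine ⟨k, fun R hR => ?_⟩
  set P := EisensteinDescent.eisensteinIdeal N p
  obtain ⟨C, hC⟩ := hk (t R * h.idem P R - t k * h.idem P k) fun x hx => by
    refine (sub_smul (R := awayAlg N) (M := JZero N) _ _ x).trans (sub_eq_zero.mpr ?_)
    refine (mul_smul _ _ x).trans (Eq.trans ?_ (mul_smul _ _ x).symm)
    rw [h.idem_compat P hR hx, ht.smul_eq h hR (h.idem_mem P hx)]
  exact intRed_eq_of_dvd ((map_sub (heckeMatHom N) _ _).symm.trans hC)

open Classical in
/-- **The `p`-adic matrix of compatible operators on the primary levels.** -/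
def limMat (t : ℕ → awayAlg N) : Matrix (FormIdx N) (FormIdx N) ℤ_[p] :=
  if ht : ∃ A, IsMatLim p (levelMat h t) A then ht.choose else 0

theorem isMatLim_limMat {t : ℕ → awayAlg N} (ht : IsCompat h t) :
    IsMatLim p (levelMat h t) (limMat h t) := by
  rw [limMat, dif_pos (exists_isMatLim_levelMat h ht)]
  exact (exists_isMatLim_levelMat h ht).choose_spec

omit [Fact (Nat.Prime N)] [Fact (Nat.Prime p)] in
theorem isCompat_const (c : awayAlg N) : IsCompat h fun _ => c := fun _ _ _ => rfl

omit [Fact (Nat.Prime N)] [Fact (Nat.Prime p)] in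
/-- Compatible sequences are closed under sums. -/
theorem IsCompat.add {s t : ℕ → awayAlg N} (hs : IsCompat h s) (ht : IsCompat h t) :
    IsCompat h fun R => s R + t R := fun r x hx =>
  ((add_smul (s (r + 1)) (t (r + 1)) x).trans (congrArg₂ (· + ·) (hs r x hx) (ht r x hx))).trans
    (add_smul (s r) (t r) x).symm

omit [Fact (Nat.Prime N)] [Fact (Nat.Prime p)] in
/-- Compatible sequences are closed under products. -/
theorem IsCompat.mul {s t : ℕ → awayAlg N} (hs : IsCompat h s) (ht : IsCompat h t) :
    IsCompat h fun R => s R * t R := fun r x hx => by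
  refine (mul_smul _ _ x).trans (Eq.trans ?_ (mul_smul _ _ x).symm)
  rw [ht r x hx]
  exact hs r _ ((primary _ _ _ r).smul_mem _ hx)

/-- Operators agreeing on the primary levels have the same matrix. -/
theorem limMat_congr {s t : ℕ → awayAlg N} (hs : IsCompat h s) (ht : IsCompat h t)
    (he : ∀ r, ∀ x ∈ primary (JZero N) p (EisensteinDescent.eisensteinIdeal N p) r,
      s r • x = t r • x) :
    limMat h s = limMat h t := by
  refine IsMatLim.unique ?_ (isMatLim_limMat h ht)
  refine (isMatLim_limMat h hs).congr fun j => intRed_heckeMatHom_congr ?_ j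
  intro r R hrR x hx
  set P := EisensteinDescent.eisensteinIdeal N p
  have hxR : p ^ R • x = 0 := by rw [← Nat.sub_add_cancel hrR, pow_add, mul_smul, hx, smul_zero]
  exact (mul_smul _ _ x).trans ((he R _ (h.idem_mem P hxR)).trans (mul_smul _ _ x).symm)

theorem limMat_add {s t : ℕ → awayAlg N} (hs : IsCompat h s) (ht : IsCompat h t) :
    limMat h (fun R => s R + t R) = limMat h s + limMat h t := by
  refine IsMatLim.unique (isMatLim_limMat h (hs.add h ht))
    (((isMatLim_limMat h hs).add (isMatLim_limMat h ht)).congr fun j => ⟨0, fun R _ => ?_⟩)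
  rw [levelMat, levelMat, levelMat, ← map_add, add_mul]

/-- The limit matrix is multiplicative in the compatible sequence. -/
theorem limMat_mul {s t : ℕ → awayAlg N} (hs : IsCompat h s) (ht : IsCompat h t) :
    limMat h (fun R => s R * t R) = limMat h s * limMat h t := by
  refine IsMatLim.unique (isMatLim_limMat h (hs.mul h ht))
    (((isMatLim_limMat h hs).mul (isMatLim_limMat h ht)).congr fun j => ?_)
  set P := EisensteinDescent.eisensteinIdeal N p
  have key : ∀ r R, r ≤ R → ∀ x : JZero N, p ^ r • x = 0 →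
      (s R * h.idem P R * (t R * h.idem P R)) • x = (s R * t R * h.idem P R) • x := by
    intro r R hrR x hx
    have hxR : p ^ R • x = 0 := by
      rw [← Nat.sub_add_cancel hrR, pow_add, mul_smul, hx, smul_zero]
    rw [show s R * h.idem P R * (t R * h.idem P R) = h.idem P R * (s R * t R * h.idem P R) by ring]
    refine (mul_smul _ _ x).trans (h.idem_eq P ?_)
    rw [show (s R * t R * h.idem P R) • x = (s R * t R) • h.idem P R • x from mul_smul _ _ x]
    exact (primary _ _ _ R).smul_mem _ (h.idem_mem P hxR)
  obtain ⟨R₀, hR₀⟩ := intRed_heckeMatHom_congr key j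
  exact ⟨R₀, fun R hR => by rw [levelMat, levelMat, levelMat, ← map_mul]; exact hR₀ R hR⟩

/-- The Eisenstein projector. -/
def eisProj : Matrix (FormIdx N) (FormIdx N) ℤ_[p] := limMat h fun _ => 1

theorem limMat_mul_eisProj {t : ℕ → awayAlg N} (ht : IsCompat h t) :
    limMat h t * eisProj h = limMat h t := by
  rw [eisProj, ← limMat_mul h ht (isCompat_const h 1)]
  simp only [mul_one]

theorem eisProj_mul_limMat {t : ℕ → awayAlg N} (ht : IsCompat h t) :
    eisProj h * limMat h t = limMat h t := by
  rw [eisProj, ← limMat_mul h (isCompat_const h 1) ht]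
  simp only [one_mul]

/-- The Eisenstein projector is idempotent. -/
theorem eisProj_isIdempotentElem : IsIdempotentElem (eisProj h) :=
  limMat_mul_eisProj h (isCompat_const h 1)

/-- Constant sequences act through their integral matrix. -/
theorem limMat_const (c : awayAlg N) :
    limMat h (fun _ => c) = castMat p (heckeMatHom N c) * eisProj h := by
  refine IsMatLim.unique (isMatLim_limMat h (isCompat_const h c))
    (((IsMatLim.const (heckeMatHom N c)).mul (isMatLim_limMat h (isCompat_const h 1))).congr
      fun j => ⟨0, fun R _ => ?_⟩)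
  rw [levelMat, levelMat, ← map_mul, one_mul]

/-- The matrices of compatible operators commute with all Hecke matrices. -/
theorem castMat_mul_limMat_comm (c : awayAlg N) {t : ℕ → awayAlg N} (ht : IsCompat h t) :
    castMat p (heckeMatHom N c) * limMat h t = limMat h t * castMat p (heckeMatHom N c) := by
  refine IsMatLim.unique ((IsMatLim.const (heckeMatHom N c)).mul (isMatLim_limMat h ht))
    (((isMatLim_limMat h ht).mul (IsMatLim.const (heckeMatHom N c))).congr
      fun j => ⟨0, fun R _ => ?_⟩)
  rw [levelMat, (heckeMatHom_commute N _ c).eq]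

/-- The limit matrices commute with each other. -/
theorem limMat_comm {s t : ℕ → awayAlg N} (hs : IsCompat h s) (ht : IsCompat h t) :
    limMat h s * limMat h t = limMat h t * limMat h s := by
  rw [← limMat_mul h hs ht, ← limMat_mul h ht hs]
  simp only [mul_comm]

end Fermat.Agent.OrdinaryEisenstein
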