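import Fermat.Agent.OrdinaryEisenstein.HeckeMatrix

/-!
# The span of the operators on the primary Tate module is seen by matrices

Given matrices `M : T →+* Mat(ℤ)` such that operators with matrix divisible by a high power of `p`
kill the `p ^ r`-torsion, every element of the `ℤ_p`-span of the operators on the primary Tate
module is given levelwise by operators whose matrices converge to a `ℤ_p`-matrix `Mf`; if
`Mf * e = 0` for the limit `e` of the matrices of the projectors to the primary part, the element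
is zero.
-/

set_option autoImplicit false

noncomputable section

namespace Fermat.Agent.OrdinaryEisenstein

open Fermat.Agent.EisensteinTate
open Matrix

variable {p : ℕ} [Fact p.Prime] {n : Type*}

/-- An integer divisible by `p ^ j` in `ℤ_p` is divisible by it in `ℤ`. -/
theorem int_dvd_of_padic_dvd {j : ℕ} {a : ℤ} (h : (p : ℤ_[p]) ^ j ∣ (a : ℤ_[p])) :
    (p : ℤ) ^ j ∣ a := by
  exact_mod_cast PadicInt.norm_int_le_pow_iff_dvd.mp <|
    (PadicInt.norm_le_pow_iff_mem_span_pow _ j).mpr (Ideal.mem_span_singleton.mpr h)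

/-- Congruences between matrices multiply. -/
theorem dvd_mul_sub_mul [Fintype n] {j : ℕ} {A A' B B' : Matrix n n ℤ_[p]}
    (hA : ∀ i k, (p : ℤ_[p]) ^ j ∣ A i k - A' i k) (hB : ∀ i k, (p : ℤ_[p]) ^ j ∣ B i k - B' i k)
    (i k : n) : (p : ℤ_[p]) ^ j ∣ (A * B) i k - (A' * B') i k := by
  rw [Matrix.mul_apply, Matrix.mul_apply, ← Finset.sum_sub_distrib]
  refine Finset.dvd_sum fun l _ => ?_
  rw [show A i l * B l k - A' i l * B' l k
      = (A i l - A' i l) * B l k + A' i l * (B l k - B' l k) by ring]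
  exact dvd_add (Dvd.dvd.mul_right (hA i l) _) (Dvd.dvd.mul_left (hB l k) _)

variable [Fintype n] [DecidableEq n] {T : Type*} [CommRing T] {J : Type*} [AddCommGroup J]
  [Module T J] {P : Ideal T} (M : T →+* Matrix n n ℤ)

/-- Elements of the span are levelwise operators with converging matrices. -/
theorem exists_approx {f : Module.End ℤ_[p] (primaryTate J p P)}
    (hf : f ∈ Submodule.span ℤ_[p] (Set.range (primaryAct (J := J) (p := p) (P := P)))) :
    ∃ (s : ℕ → T) (Mf : Matrix n n ℤ_[p]),
      (∀ (x : primaryTate J p P) (r : ℕ),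
        (f x : CarayolReduction.tateModule J p).1 r
          = s r • (x : CarayolReduction.tateModule J p).1 r) ∧
      ∀ r i k, (p : ℤ_[p]) ^ r ∣ (M (s r) i k : ℤ_[p]) - Mf i k := by
  induction hf using Submodule.span_induction with
  | mem S hS =>
    obtain ⟨t, rfl⟩ := hS
    exact ⟨fun _ => t, (M t).map (Int.castRingHom ℤ_[p]), fun x r => rfl,
      fun r i k => by rw [Matrix.map_apply, eq_intCast, sub_self]; exact dvd_zero _⟩
  | zero =>
    exact ⟨fun _ => 0, 0, fun x r => (zero_smul T _).symm, fun r i k => by rw [map_zero]; simp⟩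
  | add S S' _ _ hS hS' =>
    obtain ⟨s, A, hs, hA⟩ := hS
    obtain ⟨s', A', hs', hA'⟩ := hS'
    refine ⟨s + s', A + A', fun x r => ?_, fun r i k => ?_⟩
    · show (S x : CarayolReduction.tateModule J p).1 r
        + (S' x : CarayolReduction.tateModule J p).1 r = _
      rw [hs, hs']
      exact (add_smul (s r) (s' r) _).symm
    · rw [Pi.add_apply, map_add, Matrix.add_apply, Matrix.add_apply, Int.cast_add,
        show ∀ a b c d : ℤ_[p], a + b - (c + d) = (a - c) + (b - d) from fun _ _ _ _ => by ring]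
      exact dvd_add (hA r i k) (hA' r i k)
  | smul z S _ hS =>
    obtain ⟨s, A, hs, hA⟩ := hS
    refine ⟨fun r => (z.appr r : T) * s r, z • A, fun x r => ?_, fun r i k => ?_⟩
    · show (z • (S x : CarayolReduction.tateModule J p)).1 r = _
      rw [padic_smul_apply_of_eq rfl, hs, mul_smul, Nat.cast_smul_eq_nsmul]
    · rw [map_mul, map_natCast, ← nsmul_eq_mul, Matrix.smul_apply, Matrix.smul_apply, smul_eq_mul,
        nsmul_eq_mul, Int.cast_mul, Int.cast_natCast,
        show ∀ a b c d : ℤ_[p], a * b - c * d = (a - c) * b + c * (b - d) from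
          fun _ _ _ _ => by ring]
      refine dvd_add (Dvd.dvd.mul_right ?_ _) (Dvd.dvd.mul_left (hA r i k) _)
      rw [← neg_sub, dvd_neg]
      exact Ideal.mem_span_singleton.mp (PadicInt.appr_spec r z)

/-- **Faithfulness on the primary part**: an element of the span whose matrix kills the limit of
the projectors is zero. -/
theorem eq_zero_of_matrix_mul_eq_zero
    (hdiv : ∀ r : ℕ, ∃ j : ℕ, ∀ t : T, (∃ A : Matrix n n ℤ, M t = ((p : ℤ) ^ j) • A) →
      ∀ x : J, p ^ r • x = 0 → t • x = 0)
    {D : ℕ} (h : HasTorsionRank J p D) {e : Matrix n n ℤ_[p]}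
    (he : ∀ j : ℕ, ∃ R₀, ∀ R ≥ R₀, ∀ i k,
      (p : ℤ_[p]) ^ j ∣ (M (h.idem P R) i k : ℤ_[p]) - e i k)
    {f : Module.End ℤ_[p] (primaryTate J p P)} {s : ℕ → T} {Mf : Matrix n n ℤ_[p]}
    (hs : ∀ (x : primaryTate J p P) (r : ℕ),
      (f x : CarayolReduction.tateModule J p).1 r
        = s r • (x : CarayolReduction.tateModule J p).1 r)
    (hM : ∀ r i k, (p : ℤ_[p]) ^ r ∣ (M (s r) i k : ℤ_[p]) - Mf i k)
    (h0 : Mf * e = 0) : f = 0 := by
  classical
  refine LinearMap.ext fun x => Subtype.ext (Subtype.ext (funext fun r => ?_))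
  obtain ⟨j, hj⟩ := hdiv r
  obtain ⟨R₀, hR₀⟩ := he j
  set R := max R₀ (max j r)
  have hjR : j ≤ R := le_trans (le_max_left _ _) (le_max_right _ _)
  have hrR : r ≤ R := le_trans (le_max_right _ _) (le_max_right _ _)
  have hdvd : ∀ i k, (p : ℤ) ^ j ∣ M (s R * h.idem P R) i k := fun i k => by
    refine int_dvd_of_padic_dvd ?_
    have h1 := dvd_mul_sub_mul
      (A := (M (s R)).map (Int.castRingHom ℤ_[p])) (A' := Mf)
      (B := (M (h.idem P R)).map (Int.castRingHom ℤ_[p])) (B' := e)
      (fun i k => (pow_dvd_pow _ hjR).trans (hM R i k))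
      (fun i k => hR₀ R (le_max_left _ _) i k) i k
    rw [h0, ← Matrix.map_mul, ← map_mul, Matrix.map_apply, eq_intCast, Matrix.zero_apply,
      sub_zero] at h1
    exact h1
  choose C hC using fun i k => hdvd i k
  have hkill := hj (s R * h.idem P R) ⟨Matrix.of C, Matrix.ext fun i k => by
    rw [Matrix.smul_apply, Matrix.of_apply, smul_eq_mul]
    exact hC i k⟩ (p ^ (R - r) • (x : CarayolReduction.tateModule J p).1 R) (by
    rw [← mul_smul, ← pow_add, Nat.add_sub_cancel' hrR]
    exact CarayolReduction.tateModule_pow_smul _ R)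
  show (f x : CarayolReduction.tateModule J p).1 r = 0
  rw [← CarayolReduction.tateModule_pow_smul_add (f x : CarayolReduction.tateModule J p) r (R - r),
    Nat.add_sub_cancel' hrR, hs, ← smul_nsmul_comm]
  rw [mul_smul, smul_nsmul_comm (h.idem P R), h.idem_eq P (x.2 R)] at hkill
  exact hkill

/-- The faithfulness hypothesis holds for the matrices on weight two forms of prime level. -/
theorem heckeMat_dvd_kills (N : ℕ) [NeZero N] [Fact N.Prime] (r : ℕ) :
    ∃ j : ℕ, ∀ t : EisensteinDescent.awayAlg N,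
      (∃ A : Matrix (FormIdx N) (FormIdx N) ℤ, heckeMatHom N t = ((p : ℤ) ^ j) • A) →
        ∀ x : ModularCurve.JZero N, p ^ r • x = 0 → t • x = 0 :=
  exists_smul_eq_zero_of_dvd Fact.out r

end Fermat.Agent.OrdinaryEisenstein
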