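import Fermat.Agent.OrdinaryEisenstein.PhiMat
import Fermat.Agent.OrdinaryEisenstein.PhiFamily
import Fermat.Agent.OrdinaryEisenstein.FormClass
import Fermat.Agent.OrdinaryEisenstein.Projector
import Fermat.Agent.OrdinaryEisenstein.SpanFaithful
import Fermat.Agent.OrdinaryEisenstein.NonVanish
import Fermat.Agent.OrdinaryEisenstein.Glue
import Fermat.Agent.OrdinaryCurve.ClassInjective
import Fermat.Agent.OrdinaryExclusion.Fixed

/-!
# The ordinary family meets every eigen-component

An element of the span of the operators killing the elements of the Tate module attached to a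
basis of solutions has matrix zero on the Eisenstein part (injectivity of `c ↦` class of
`c log (1 + X)` at the roots of unity), hence vanishes; so by the distinctness of the characters
every eigen-component sees one of these elements.
-/

set_option autoImplicit false

noncomputable section

open ModularCurve AlgebraicCurve Matrix

namespace Fermat.Agent.OrdinaryEisenstein

open Fermat.Agent.OrdinaryCurve Fermat.Agent.EisensteinTate Fermat.Agent.EisensteinDescent
open OrdinaryExclusion GaloisBasics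
open scoped IsMulCommutative

variable {p : ℕ} [Fact p.Prime]

/-- Divisibility as equality modulo `p ^ j`. -/
theorem dvd_sub_iff_toZModPow {j : ℕ} {x y : ℤ_[p]} :
    (p : ℤ_[p]) ^ j ∣ x - y ↔ PadicInt.toZModPow j x = PadicInt.toZModPow j y := by
  rw [← sub_eq_zero, ← map_sub, ← RingHom.mem_ker, PadicInt.ker_toZModPow,
    Ideal.mem_span_singleton]

/-- `ℤ_p` embeds in the completed unramified ring. -/
theorem toUnram_injective' (p : ℕ) [Fact p.Prime] : Function.Injective (toUnram p) := fun _ _ h =>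
  ((algebraMap (PadicAlgCl p) ℂ_[p]).injective.comp
    (algebraMap_padicInt_injective p (PadicAlgCl p))) (congrArg Subtype.val h)

open scoped PowerSeries in
/-- If matrices `M r` commuting with `H` and converging to `Mf` send a solution `c` to vectors with
trivial classes at `ζ_{p ^ r} - 1`, then `Mf c = 0`. -/
theorem mulVec_eq_zero_of_classes {N : ℕ} [NeZero N] (Z : PhiData p N)
    {M : ℕ → Matrix (Fin Z.Q.rank) (Fin Z.Q.rank) ℤ}
    {Mf : Matrix (Fin Z.Q.rank) (Fin Z.Q.rank) ℤ_[p]} (hHM : ∀ r, Commute Z.H (M r))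
    (hM : ∀ r i k, (p : ℤ_[p]) ^ r ∣ (M r i k : ℤ_[p]) - Mf i k) (c : Z.Sol)
    (hzero : ∀ r, Z.S.IsClass (rootDisc p r)
      (fun i => ∑ b, PowerSeries.C (M r i b : ℂ_[p]) * logVecOf c.1 b) 0) :
    Mf.map (toUnram p) *ᵥ c.1 = 0 := by
  classical
  set H' := castMat p Z.H with hH'
  choose D hD using hM
  have hMD : ∀ r, castMat p (M r) = Mf + ((p : ℤ_[p]) ^ r) • Matrix.of (D r) := by
    intro r
    ext i j
    rw [Matrix.add_apply, Matrix.smul_apply, Matrix.of_apply, smul_eq_mul, ← hD r i j]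
    exact (add_sub_cancel _ _).symm
  have hcs : ∀ r, Commute H' (castMat p (M r)) := fun r => (hHM r).map (castMat p)
  have hHMf : Commute H' Mf := by
    refine Matrix.ext fun i j => PadicInt.ext_of_toZModPow.mp fun r => dvd_sub_iff_toZModPow.mp ?_
    have h1 : H' * Mf - Mf * H' =
        ((p : ℤ_[p]) ^ r) • (Matrix.of (D r) * H' - H' * Matrix.of (D r)) := by
      have h2 := (hcs r).eq
      rw [hMD r, mul_add, add_mul, mul_smul_comm, smul_mul_assoc] at h2
      rw [smul_sub, sub_eq_sub_iff_add_eq_add, h2]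
      exact add_comm _ _
    exact ⟨_, congrFun (congrFun h1 i) j⟩
  have hHD : ∀ r, Commute H' (Matrix.of (D r)) := by
    intro r
    refine Matrix.ext fun i j => ?_
    have h2 := (hcs r).eq
    rw [hMD r, mul_add, add_mul, hHMf.eq, add_right_inj, mul_smul_comm, smul_mul_assoc] at h2
    have h3 := congrFun (congrFun h2 i) j
    rw [Matrix.smul_apply, Matrix.smul_apply, smul_eq_mul, smul_eq_mul] at h3
    exact mul_left_cancel₀ (pow_ne_zero r (Nat.cast_ne_zero.mpr (Fact.out : p.Prime).ne_zero)) h3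
  let v : Z.Sol := ⟨Mf.map (toUnram p) *ᵥ c.1, matVec_mem_solutions hHMf c.2⟩
  suffices hcls : ∀ r, Z.S.IsClass (rootDisc p r) (logVecOf v.1) 0 from
    eq_zero_of_isClass_rootDisc Z.S Z.disc_eq Z.A_eq Z.isT v.1 v.2 hcls
  intro r
  -- the difference is divisible by `p ^ r`, hence has class zero there
  let w : Z.Sol := ⟨(Matrix.of (D r)).map (toUnram p) *ᵥ c.1,
    matVec_mem_solutions (hHD r) c.2⟩
  have hw : Z.phi (p ^ r • w) (rootDisc p r) = 0 := by
    rw [Z.phi_nsmul_vec, ← Z.phi_pow w (d := discZero ℂ_[p]) (p ^ r) (by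
      rw [one_add_rootDisc, ← map_pow, (isPrimitiveRoot_rootSys p r).pow_eq_one, map_one]
      simp [discZero])]
    exact Z.phi_zero w
  have h3 := Z.isClass_phi (p ^ r • w) (rootDisc p r)
  rw [hw] at h3
  have h4 := (hzero r).add h3.neg
  rw [neg_zero, add_zero] at h4
  refine h4.congr fun i => ?_
  have hvec : (v.1 i : ℂ_[p]) = (∑ b, (M r i b : ℂ_[p]) * (c.1 b : ℂ_[p])) -
      ((p ^ r • w : Z.Sol).1 i : ℂ_[p]) := by
    have e1 : (castMat p (M r)).map (toUnram p) *ᵥ c.1 = v.1 + p ^ r • w.1 := by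
      have hmap : (castMat p (M r)).map (toUnram p) = Mf.map (toUnram p) +
          ((p ^ r : ℕ) : unramHat p) • (Matrix.of (D r)).map (toUnram p) := by
        rw [hMD r]
        ext a b
        simp [Matrix.map_apply]
      rw [hmap, Matrix.add_mulVec, Matrix.smul_mulVec, Nat.cast_smul_eq_nsmul]
    have hm : (castMat p (M r)).map (toUnram p) = (M r).map (Int.cast : ℤ → unramHat p) :=
      map_intCast_toUnram p _
    rw [hm] at e1
    have e2 := congrArg (fun x : Fin Z.Q.rank → unramHat p => ((x i : unramHat p) : ℂ_[p])) e1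
    simp only [Pi.add_apply, Matrix.mulVec, dotProduct, Matrix.map_apply, Subring.coe_add,
      AddSubmonoidClass.coe_finsetSum, Subring.coe_mul, Subring.coe_intCast] at e2
    rw [e2]
    simp
  simp only [logVecOf, hvec, map_sub, map_sum, map_mul, sub_mul, Finset.sum_mul, mul_assoc]
  exact (sub_eq_add_neg _ _).symm

/-- A limit of integral matrices, entrywise. -/
theorem IsMatLim.exists_dvd {ι : Type*} [Fintype ι] [DecidableEq ι] {M : ℕ → Matrix ι ι ℤ}
    {A : Matrix ι ι ℤ_[p]} (h : IsMatLim p M A) (j : ℕ) :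
    ∃ R₀, ∀ R ≥ R₀, ∀ i k, (p : ℤ_[p]) ^ j ∣ (M R i k : ℤ_[p]) - A i k := by
  obtain ⟨R₀, hR₀⟩ := h j
  refine ⟨R₀, fun R hR i k => dvd_sub_iff_toZModPow.mpr ?_⟩
  have h1 := Matrix.ext_iff.mpr (hR₀ R hR) i k
  rw [intRed_apply] at h1
  rw [map_intCast]
  exact h1.symm

/-- A matrix killing vectors which span the image of an idempotent kills the idempotent. -/
theorem mul_eq_zero_of_span {ι κ : Type*} [Fintype ι] [Fintype κ]
    {e A : Matrix ι ι ℤ_[p]} (he : e * e = e) (c : κ → ι → unramHat p)
    (hspan : ∀ v : ι → unramHat p, e.map (toUnram p) *ᵥ v = v → ∃ w : κ → unramHat p,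
      v = ∑ k, w k • c k)
    (hA : ∀ k, A.map (toUnram p) *ᵥ c k = 0) : A * e = 0 := by
  classical
  refine Matrix.ext fun i j => toUnram_injective' p ?_
  obtain ⟨w, hw⟩ := hspan (e.map (toUnram p) *ᵥ Pi.single j 1)
    (by rw [mulVec_mulVec, ← Matrix.map_mul, he])
  have h1 : ((A * e).map (toUnram p) *ᵥ Pi.single j 1) i = 0 := by
    rw [Matrix.map_mul, ← mulVec_mulVec, hw, Matrix.mulVec_sum]
    simp only [Matrix.mulVec_smul, hA, smul_zero, Finset.sum_const_zero, Pi.zero_apply]
  rw [Matrix.mulVec_single_one, Matrix.col_apply, Matrix.map_apply] at h1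
  rw [h1, Matrix.zero_apply, map_zero]

variable {N : ℕ} [NeZero N] [Fact N.Prime] (hpN : p ≠ N)
  (S : DiscCurve (curveField p N) (Fin (formQBasis N).rank))
  (hS : S.disc = discData p N) (hA : S.curve.A = fun m i => ((formQBasis N).a m i : ℂ_[p]))

local notation "Z₀" => formPhiData hpN S hS hA

open scoped PowerSeries in
include hS hA hpN in
/-- An element of the span killing the elements of the family has matrix killing the vectors. -/
theorem matrix_mulVec_eq_zero
    (hsmul : ∀ (t : awayAlg N) (a : DiscPoint ℂ_[p]) (R : Fin (formQBasis N).rank → ℂ_[p]⟦X⟧)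
      (y : JZero N), S.IsClass a R (upHom p N y) →
        S.IsClass a (fun i => ∑ b, PowerSeries.C (heckeMatHom N t i b : ℂ_[p]) * R b)
          (upHom p N (t • y)))
    (c : PhiData.Sol Z₀) {s : ℕ → awayAlg N}
    {Mf : Matrix (Fin (formQBasis N).rank) (Fin (formQBasis N).rank) ℤ_[p]}
    (hM : ∀ r i k, (p : ℤ_[p]) ^ r ∣ (heckeMatHom N (s r) i k : ℤ_[p]) - Mf i k)
    (hkill : ∀ r, s r • PhiData.phiMu Z₀ c (root p r) = 0) :
    Mf.map (toUnram p) *ᵥ c.1 = 0 := by
  refine mulVec_eq_zero_of_classes Z₀ (M := fun r => heckeMatHom N (s r))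
    (fun r => heckeMatHom_commute N (awayTq N p) (s r)) hM c fun r => ?_
  obtain ⟨j, hj⟩ : ∃ j : ℕ, qmk (rootSys p r)
      ((isPrimitiveRoot_rootSys p r).ne_zero (pow_ne_zero _ (Fact.out : p.Prime).ne_zero)) =
        j • (root p r : Qmul) :=
    exists_eq_nsmul_root p (qval_injective (by
      rw [qval_nsmul, qval_qmk, (isPrimitiveRoot_rootSys p r).pow_eq_one, qval_zero]))
  have hpt : muPt (j • root p r) = rootDisc p r := DiscPoint.ext (add_left_cancel (a := (1 : ℂ_[p]))
    (by rw [one_add_muPt, one_add_rootDisc, AddSubgroup.coe_nsmul, ← hj, qval_qmk]))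
  have h2 := PhiData.isClass_phi Z₀ c (rootDisc p r)
  rw [← hpt, ← PhiData.up_phiMu, hpt] at h2
  have h3 := hsmul (s r) _ _ _ h2
  rw [map_nsmul, smul_nsmul_comm, hkill r, nsmul_zero, map_zero] at h3
  exact h3

open scoped PowerSeries in
/-- **The family meets every eigen-component.** -/
theorem exists_coord_elem_ne_zero {D : ℕ} (h : HasTorsionRank (JZero N) p D)
    (hsmul : ∀ (t : awayAlg N) (a : DiscPoint ℂ_[p]) (R : Fin (formQBasis N).rank → ℂ_[p]⟦X⟧)
      (y : JZero N), S.IsClass a R (upHom p N y) →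
        S.IsClass a (fun i => ∑ b, PowerSeries.C (heckeMatHom N t i b : ℂ_[p]) * R b)
          (upHom p N (t • y)))
    {n : ℕ} (c : Fin n → solutions (p := p) (heckeMat N p))
    (hc : ∀ k, matVec (eisProj h) (c k).1 = (c k).1)
    (hspan : ∀ v : Fin (formQBasis N).rank → unramHat p, matVec (eisProj h) v = v →
      ∃ w : Fin n → unramHat p, v = ∑ k, w k • (c k).1)
    {E : Type} [Field E] [CharZero E] [Algebra ℤ_[p] E]
    (Eig : EigenData GalQ
      (primaryAct (J := JZero N) (p := p) (P := EisensteinDescent.eisensteinIdeal N p)) E)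
    (hθ : Function.Injective Eig.θ) (θ : Eig.ι) :
    ∃ k, Eig.coord ((phiFamily hpN S hS hA h hsmul c hc).elem k) θ ≠ 0 := by
  classical
  have := h.primaryTate_free (EisensteinDescent.eisensteinIdeal N p)
  have := h.primaryTate_finite (EisensteinDescent.eisensteinIdeal N p)
  refine exists_coord_ne_zero_of_span_injective Eig hθ
    (fun k => (phiFamily hpN S hS hA h hsmul c hc).elem k) (fun f hf hfX => ?_) θ
  obtain ⟨s, Mf, hs, hM⟩ := exists_approx (heckeMatHom N) hf
  refine eq_zero_of_matrix_mul_eq_zero (heckeMatHom N) (fun r => heckeMat_dvd_kills N r) h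
    (e := eisProj h) (fun j => ?_) hs hM ?_
  · obtain ⟨R₀, hR₀⟩ := IsMatLim.exists_dvd (isMatLim_limMat h (isCompat_const h 1)) j
    refine ⟨R₀, fun R hR i k => ?_⟩
    have h1 := hR₀ R hR i k
    simp only [levelMat, one_mul] at h1
    exact h1
  · refine mul_eq_zero_of_span (eisProj_isIdempotentElem h).eq _ hspan fun k =>
      matrix_mulVec_eq_zero hpN S hS hA hsmul (c k) hM fun r => ?_
    have h1 := hs ((phiFamily hpN S hS hA h hsmul c hc).elem k) r
    rw [hfX k] at h1
    exact h1.symm

end Fermat.Agent.OrdinaryEisenstein
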