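import Fermat.Agent.OrdinaryCurve.LogExp
import Fermat.Agent.OrdinaryCurve.LocalField
import Fermat.Agent.OrdinaryCurve.Specialize

/-!
# Logarithms, exponentials and their values at points of the disc

An integral series with constant term `1` takes principal-unit values at points of the open disc.
-/

set_option autoImplicit false

noncomputable section

open PowerSeries Fermat.Agent.OrdinaryCurve

namespace Fermat.Agent.OrdinaryEisenstein

section Formal

variable {K : Type*} [Field K] [CharZero K]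

/-- `log (exp s) = s`. -/
theorem log_subst_expOf_sub_one (s : K⟦X⟧) (hs : constantCoeff s = 0) :
    (log K).subst (expOf s - 1) = s := by
  have := isAddTorsionFree_of_rat (A := K)
  have he := constantCoeff_expOf hs
  rw [← logOf_eq]
  refine derivative.ext ?_ (by rw [constantCoeff_logOf he, hs])
  have hne : expOf s ≠ 0 := fun h => by simp [h] at he
  refine mul_left_cancel₀ hne ?_
  rw [mul_derivative_logOf he, derivative_expOf hs]

end Formal

variable (p : ℕ) [hp : Fact p.Prime]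

/-- The value of a series over the unramified ring at one of its points stays in it. -/
theorem evalAt_mem_unramHat (hW : ∀ x ∈ unramHat p, ‖x‖ ≤ 1) {Y : DiscPoint ℂ_[p]}
    (hY : Y.val ∈ unramHat p) (w : (unramHat p)⟦X⟧) :
    evalAt (unramHat p) hW Y w ∈ unramHat p := by
  rw [evalAt_apply]
  exact (isClosed_unramHat p).mem_of_tendsto
    (summable_eval (unramHat p) hW Y w).hasSum.tendsto_sum_nat
    (Filter.Eventually.of_forall fun n => sum_mem fun l _ =>
      mul_mem (SetLike.coe_mem _) (pow_mem hY l))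

theorem norm_evalAt_sub_one_lt (hW : ∀ x ∈ unramHat p, ‖x‖ ≤ 1) (Y : DiscPoint ℂ_[p])
    {w : (unramHat p)⟦X⟧} (hw : constantCoeff w = 1) :
    ‖evalAt (unramHat p) hW Y w - 1‖ < 1 := by
  have h := norm_evalAt_lt (unramHat p) hW Y (w - 1) (by rw [map_sub, map_one, hw, sub_self])
  rwa [map_sub, map_one] at h

theorem norm_eq_one_of_sub_one_lt {u : ℂ_[p]} (hu : ‖u - 1‖ < 1) : ‖u‖ = 1 := by
  have h := IsUltrametricDist.norm_add_eq_max_of_norm_ne_norm
    (x := u - 1) (y := (1 : ℂ_[p])) (by rw [norm_one]; exact hu.ne)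
  rwa [sub_add_cancel, norm_one, max_eq_right hu.le] at h

theorem norm_evalAt_eq_one (hW : ∀ x ∈ unramHat p, ‖x‖ ≤ 1) (Y : DiscPoint ℂ_[p])
    {w : (unramHat p)⟦X⟧} (hw : constantCoeff w = 1) : ‖evalAt (unramHat p) hW Y w‖ = 1 :=
  norm_eq_one_of_sub_one_lt p (norm_evalAt_sub_one_lt p hW Y hw)

theorem norm_sub_one_lt_of_pow {x : ℂ_[p]} (hx : ‖x ^ p - 1‖ < 1) : ‖x - 1‖ < 1 := by
  have hxp := norm_eq_one_of_sub_one_lt p hx
  rw [norm_pow] at hxp
  have hn : ‖x‖ = 1 := (pow_eq_one_iff_of_nonneg (norm_nonneg _) hp.out.ne_zero).mp hxp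
  have hle : ‖x - 1‖ ≤ 1 := by
    rw [sub_eq_add_neg]
    exact (IsUltrametricDist.norm_add_le_max _ _).trans (by simp [hn])
  let W : Subring ℂ_[p] :=
    { carrier := {z | ‖z‖ ≤ 1}
      one_mem' := (norm_one (α := ℂ_[p])).le
      zero_mem' := show ‖(0 : ℂ_[p])‖ ≤ 1 by simp
      neg_mem' := fun {z} hz => show ‖-z‖ ≤ 1 by rw [norm_neg]; exact hz
      add_mem' := fun {z w} hz hw => (IsUltrametricDist.norm_add_le_max z w).trans (max_le hz hw)
      mul_mem' := fun {z w} hz hw => show ‖z * w‖ ≤ 1 by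
        rw [norm_mul]; exact mul_le_one₀ hz (norm_nonneg _) hw }
  obtain ⟨r, hr⟩ := exists_add_pow_prime_eq hp.out (⟨x - 1, hle⟩ : W) 1
  have h := congrArg Subtype.val hr
  push_cast at h
  simp only [one_pow, mul_one, sub_add_cancel] at h
  have key : ‖(x - 1) ^ p‖ < 1 := by
    rw [show (x - 1) ^ p = (x ^ p - 1) + -((p : ℂ_[p]) * (x - 1) * (r : ℂ_[p])) by
      rw [h]; ring]
    refine (IsUltrametricDist.norm_add_le_max _ _).trans_lt (max_lt hx ?_)
    rw [norm_neg, mul_assoc, norm_mul]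
    exact (mul_le_of_le_one_right (norm_nonneg _) (((norm_mul _ _).le).trans
      (mul_le_one₀ hle (norm_nonneg _) r.2))).trans_lt (norm_prime_lt_one p)
  rw [norm_pow] at key
  exact (pow_lt_one_iff_of_nonneg (norm_nonneg _) hp.out.ne_zero).mp key

/-- A principal unit has a `p ^ r`-th root which is a principal unit. -/
theorem exists_root_principal (r : ℕ) {u : ℂ_[p]} (hu : ‖u - 1‖ < 1) :
    ∃ x : ℂ_[p], x ^ p ^ r = u ∧ ‖x - 1‖ < 1 := by
  induction r generalizing u with
  | zero => exact ⟨u, by simp, hu⟩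
  | succ r ih =>
    obtain ⟨y, hy, hy1⟩ := ih hu
    obtain ⟨x, hx⟩ := IsAlgClosed.exists_pow_nat_eq y hp.out.pos
    exact ⟨x, by rw [pow_succ', pow_mul, hx, hy], norm_sub_one_lt_of_pow p (by rwa [hx])⟩

end Fermat.Agent.OrdinaryEisenstein
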