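import Fermat.Agent.OrdinaryExclusion.Fixed
import Mathlib.LinearAlgebra.FreeModule.PID
import Mathlib.LinearAlgebra.Matrix.ToLin
import Mathlib.LinearAlgebra.Dual.Lemmas

/-!
# Lang descent for an invertible unit root

For an idempotent `e` over `ℤ_p` and `α` invertible on its image, the vectors fixed by `α ∘ σ` in
the completed unramified ring have a basis of the image of `e`.
-/

set_option autoImplicit false

noncomputable section

open Matrix Finset

namespace Fermat.Agent.OrdinaryEisenstein

open OrdinaryCurve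

section Residue

variable {k : Type*} [Field k] [IsAlgClosed k] (p : ℕ) [Fact p.Prime] [CharP k p]
variable {d : Type*} [Fintype d] [DecidableEq d]

/-- For an invertible matrix over the prime field the fixed vectors span. -/
theorem span_frobAct_fixed {U : Matrix d d k} (hU : ∀ i j, U i j ^ p = U i j) (hdet : IsUnit U) :
    Submodule.span k {v : d → k | frobAct p U v = v} = ⊤ := by
  obtain ⟨r, hr, hidem⟩ := exists_pow_idempotent p hU
  have hUr : U ^ r = 1 := by
    have h : U ^ r * U ^ r = U ^ r * 1 := by rw [← pow_add, ← two_mul, hidem, mul_one]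
    exact (hdet.pow r).mul_left_cancel h
  by_contra hne
  obtain ⟨φ, hφ0, hφ⟩ := Submodule.exists_dual_map_eq_bot_of_lt_top (Ne.lt_top hne) inferInstance
  refine hφ0 (LinearMap.pi_ext' fun j => LinearMap.ext_ring ?_)
  set v : d → k := Pi.single j 1 with hv
  have hvfix : ∀ n i, v i ^ p ^ n = v i := fun n i => by
    rw [hv]
    rcases eq_or_ne i j with rfl | h
    · simp
    · simp [h, (Fact.out : p.Prime).ne_zero]
  set Q : Polynomial k :=
    ∑ i ∈ range r, Polynomial.C (φ ((U ^ i) *ᵥ v)) * Polynomial.X ^ p ^ i with hQ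
  have hQ1 : Q.coeff 1 = φ v := by
    rw [hQ, Polynomial.finsetSum_coeff, Finset.sum_eq_single 0]
    · simp
    · intro i _ hi
      rw [Polynomial.coeff_C_mul, Polynomial.coeff_X_pow, if_neg, mul_zero]
      exact (Nat.one_lt_pow hi (Fact.out : p.Prime).one_lt).ne
    · intro h
      exact absurd (Finset.mem_range.mpr hr) h
  have h2 : 1 < p ^ r := Nat.one_lt_pow hr.ne' (Fact.out : p.Prime).one_lt
  have hQdeg : Q.natDegree < p ^ r := by
    refine lt_of_le_of_lt
      (Polynomial.natDegree_sum_le_of_forall_le (n := p ^ (r - 1)) _ _ fun i hi => ?_) ?_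
    · exact (Polynomial.natDegree_C_mul_X_pow_le _ _).trans
        (Nat.pow_le_pow_right (Fact.out : p.Prime).pos (by have := Finset.mem_range.mp hi; omega))
    · exact Nat.pow_lt_pow_right (Fact.out : p.Prime).one_lt (by omega)
  have hroot : ∀ lam : k, lam ^ p ^ r = lam → Q.eval lam = 0 := by
    intro lam hlam
    have hsub := frobAct_orbit_sub p hU r (lam • v)
    have hfun : (fun l => (lam • v) l ^ p ^ r) = lam • v := by
      funext l
      simp [mul_pow, hvfix, hlam]
    rw [hfun, hUr, one_mulVec, sub_self, sub_eq_zero] at hsub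
    have hmem : φ (∑ i ∈ range r, (frobAct p U)^[i] (lam • v)) = 0 := by
      have := Submodule.mem_map_of_mem (f := φ)
        (Submodule.subset_span (R := k) (show (∑ i ∈ range r, (frobAct p U)^[i] (lam • v)) ∈
          {v : d → k | frobAct p U v = v} from hsub))
      rwa [hφ, Submodule.mem_bot] at this
    rw [map_sum] at hmem
    rw [hQ, Polynomial.eval_finsetSum, ← hmem]
    refine Finset.sum_congr rfl fun i _ => ?_
    have hfun' : (fun l => (lam • v) l ^ p ^ i) = lam ^ p ^ i • v := by
      funext l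
      simp [mul_pow, hvfix]
    rw [frobAct_iterate p hU, hfun', mulVec_smul, map_smul, smul_eq_mul, Polynomial.eval_mul,
      Polynomial.eval_C, Polynomial.eval_pow, Polynomial.eval_X, mul_comm]
  have hQ0 : Q = 0 := by
    by_contra hQ0
    classical
    set R : Polynomial k := Polynomial.X ^ p ^ r - Polynomial.X
    have hdeg : R.natDegree = p ^ r := FiniteField.X_pow_card_sub_X_natDegree_eq k h2
    have hcard : R.roots.toFinset.card = p ^ r := by
      rw [Multiset.toFinset_card_of_nodup, ← hdeg, IsAlgClosed.card_roots_eq_natDegree]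
      refine Polynomial.nodup_roots ?_
      rw [Polynomial.separable_def, show Polynomial.derivative R = -1 by
        simp [R, Polynomial.derivative_X_pow, hr.ne']]
      exact isCoprime_one_right.neg_right
    have hle : R.roots.toFinset ⊆ Q.roots.toFinset := by
      intro x hx
      simp only [Multiset.mem_toFinset, Polynomial.mem_roots', Polynomial.IsRoot.def, R,
        Polynomial.eval_sub, Polynomial.eval_pow, Polynomial.eval_X, sub_eq_zero] at hx ⊢
      exact ⟨hQ0, hroot x hx.2⟩
    have := (Finset.card_le_card hle).trans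
      ((Multiset.toFinset_card_le _).trans (Polynomial.card_roots' Q))
    omega
  rw [hQ0, Polynomial.coeff_zero] at hQ1
  simpa [hv] using hQ1.symm

end Residue

section Lift

variable {W : Type*} [CommRing W] {k : Type*} [Field k] [IsAlgClosed k]
variable {p : ℕ} [Fact p.Prime] [CharP k p] {d : Type*} [Fintype d] [DecidableEq d]
variable (σ : W →+* W) (res : W →+* k) (hσ : ∀ x, res (σ x) = res x ^ p)
  (hsurj : Function.Surjective res) (hker : ∀ x, res x = 0 → (p : W) ∣ x)
  (hlim : ∀ x : ℕ → W, (∀ n, (p : W) ^ n ∣ x (n + 1) - x n) → ∃ y, ∀ n, (p : W) ^ n ∣ y - x n)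
  (hsep : ∀ x : W, (∀ n, (p : W) ^ n ∣ x) → x = 0)
  (U : Matrix d d W) (hU : ∀ i j, σ (U i j) = U i j)

include hσ hsurj hker hlim hsep hU

/-- A fixed vector modulo `p` lifts to a fixed vector. -/
theorem exists_fixed_lift (d₀ : d → k) (hd₀ : frobAct p (U.map res) d₀ = d₀) :
    ∃ c : d → W, res ∘ c = d₀ ∧ U *ᵥ (fun j => σ (c j)) = c := by
  have hp0 : res (p : W) = 0 := by rw [map_natCast, CharP.cast_eq_zero]
  have hU' : ∀ i j, (U.map res) i j ^ p = (U.map res) i j := fun i j => by
    rw [Matrix.map_apply, ← hσ, hU]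
  have hres : ∀ c : d → W, res ∘ langDefect σ p U 0 c =
      frobAct p (U.map res) (res ∘ c) - res ∘ c := by
    intro c
    funext i
    simp only [langDefect, Function.comp_apply, Pi.sub_apply, Pi.add_apply, Pi.smul_apply,
      smul_eq_mul, map_sub, map_add, map_mul, hp0, zero_mul, add_zero, frobAct, RingHom.map_mulVec]
    congr 2
    funext j
    exact hσ _
  choose lift hlift using hsurj
  have hstart : ∀ j, (p : W) ^ (0 + 1) ∣ langDefect σ p U 0 (lift ∘ d₀) j := fun j => by
    rw [zero_add, pow_one]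
    refine hker _ ?_
    have := congrFun (hres (lift ∘ d₀)) j
    rw [show res ∘ (lift ∘ d₀) = d₀ from funext fun j => hlift _, hd₀, sub_self] at this
    exact this
  have hstep : ∀ n (c : d → W), (∀ j, (p : W) ^ (n + 1) ∣ langDefect σ p U 0 c j) →
      ∃ c' : d → W, (∀ j, (p : W) ^ (n + 1) ∣ c' j - c j) ∧
        ∀ j, (p : W) ^ (n + 2) ∣ langDefect σ p U 0 c' j := by
    intro n c hc
    choose e he using hc
    obtain ⟨b, hb⟩ := exists_frobAct_sub_eq p hU' (-(res ∘ e))
    refine ⟨c + (p : W) ^ (n + 1) • (lift ∘ b), fun j => ⟨lift (b j), by simp⟩, fun j => ?_⟩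
    rw [langDefect_add_smul, Pi.add_apply, he j, Pi.smul_apply, smul_eq_mul, ← mul_add,
      pow_succ (p : W) (n + 1)]
    refine mul_dvd_mul_left _ (hker _ ?_)
    have := congrFun (hres (lift ∘ b)) j
    rw [show res ∘ (lift ∘ b) = b from funext fun j => hlift _, hb] at this
    rw [map_add, show res (langDefect σ p U 0 (lift ∘ b) j) = -res (e j) from this, add_neg_cancel]
  choose next hnext₁ hnext₂ using hstep
  let seq : ∀ n, {c : d → W // ∀ j, (p : W) ^ (n + 1) ∣ langDefect σ p U 0 c j} := fun n =>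
    Nat.rec ⟨lift ∘ d₀, hstart⟩ (fun m c => ⟨next m c.1 c.2, hnext₂ m c.1 c.2⟩) n
  have hcau : ∀ n j, (p : W) ^ (n + 1) ∣ (seq (n + 1)).1 j - (seq n).1 j := fun n j =>
    hnext₁ n (seq n).1 (seq n).2 j
  choose c hc using fun j => hlim (fun n => (seq n).1 j) fun n =>
    (pow_dvd_pow _ n.le_succ).trans (hcau n j)
  refine ⟨c, funext fun j => ?_, ?_⟩
  · have h1 : (p : W) ∣ c j - (seq 0).1 j := by
      have a1 : (p : W) ∣ c j - (seq 1).1 j := by simpa using hc j 1
      have a2 : (p : W) ∣ (seq 1).1 j - (seq 0).1 j := by simpa using hcau 0 j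
      simpa using dvd_add a1 a2
    obtain ⟨w, hw⟩ := h1
    rw [Function.comp_apply, show c j = (seq 0).1 j + (p : W) * w by rw [← hw]; ring, map_add,
      map_mul, hp0, zero_mul, add_zero]
    exact hlift _
  · have hall : ∀ n i, (p : W) ^ n ∣ langDefect σ p U 0 c i := by
      intro n i
      choose b hb using fun j => hc j n
      have hcd : c = (seq n).1 + (p : W) ^ n • b := by
        funext j
        rw [Pi.add_apply, Pi.smul_apply, smul_eq_mul, ← hb j]
        ring
      rw [hcd, langDefect_add_smul, Pi.add_apply, Pi.smul_apply, smul_eq_mul]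
      exact dvd_add ((pow_dvd_pow _ n.le_succ).trans ((seq n).2 i)) (dvd_mul_right _ _)
    have hz : langDefect σ p U 0 c = 0 := funext fun i => hsep _ fun n => hall n i
    rw [langDefect, sub_eq_zero, zero_mulVec, smul_zero, add_zero] at hz
    exact hz

/-- **Lang's theorem**: an invertible `U` is `C σ(C)⁻¹`. -/
theorem exists_fixed_matrix (hunit : ∀ x, res x ≠ 0 → IsUnit x) (hdet : IsUnit U) :
    ∃ C : Matrix d d W, IsUnit C ∧ U * C.map σ = C := by
  classical
  have hU' : ∀ i j, (U.map res) i j ^ p = (U.map res) i j := fun i j => by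
    rw [Matrix.map_apply, ← hσ, hU]
  have hdet' : IsUnit (U.map res) := hdet.map res.mapMatrix
  obtain ⟨s, hs, hspan, hli⟩ :=
    exists_linearIndependent k {v : d → k | frobAct p (U.map res) v = v}
  rw [span_frobAct_fixed p hU' hdet'] at hspan
  let b : Module.Basis s k (d → k) :=
    Module.Basis.mk hli (by rw [Subtype.range_coe_subtype, Set.ofPred_mem_eq, hspan])
  let e : d ≃ s := (Pi.basisFun k d).indexEquiv b
  choose c hc1 hc2 using fun j : d =>
    exists_fixed_lift σ res hσ hsurj hker hlim hsep U hU (e j : d → k) (hs (e j).2)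
  refine ⟨Matrix.of fun i j => c j i, ?_, ?_⟩
  · rw [Matrix.isUnit_iff_isUnit_det]
    refine hunit _ fun h0 => ?_
    rw [RingHom.map_det] at h0
    obtain ⟨w, hw0, hw⟩ := Matrix.exists_mulVec_eq_zero_iff.mpr h0
    apply hw0
    have h2 : ∑ j, w j • b (e j) = 0 := by
      funext i
      have := congrFun hw i
      simp only [mulVec, dotProduct, RingHom.mapMatrix_apply, Matrix.map_apply, Matrix.of_apply,
        Pi.zero_apply] at this
      simp only [Finset.sum_apply, Pi.smul_apply, smul_eq_mul, Pi.zero_apply, b,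
        Module.Basis.mk_apply]
      rw [← this]
      refine Finset.sum_congr rfl fun j _ => ?_
      rw [mul_comm, ← hc1 j]
      rfl
    exact funext ((Fintype.linearIndependent_iff.mp
      (b.linearIndependent.comp e e.injective)) w h2)
  · ext i j
    exact congrFun (hc2 j) i

end Lift

variable (p : ℕ) [hp : Fact p.Prime]

theorem unramRes_ne_zero_isUnit (x : unramHat p) (h : unramRes p x ≠ 0) : IsUnit x := by
  have hx0 : (x : ℂ_[p]) ≠ 0 := fun h0 => h (by rw [show x = 0 from Subtype.ext h0, map_zero])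
  obtain ⟨n, hn⟩ := exists_norm_eq_pow p x.2 hx0
  rcases Nat.eq_zero_or_pos n with rfl | hn0
  · rw [pow_zero] at hn
    exact ⟨⟨x, ⟨_, inv_mem_unramHat p x.2 hn⟩, Subtype.ext (mul_inv_cancel₀ hx0),
      Subtype.ext (inv_mul_cancel₀ hx0)⟩, rfl⟩
  · exfalso
    obtain ⟨y, rfl⟩ := (pow_dvd_iff_norm_le p (n := 1)).mpr (by
      rw [hn, pow_one]
      exact pow_le_of_le_one (norm_nonneg _) (norm_prime_lt_one p).le hn0.ne')
    exact h (by rw [map_mul, map_pow, map_natCast, CharP.cast_eq_zero, pow_one, zero_mul])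

open OrdinaryExclusion in
/-- **A basis of solutions**: columns `Cm` fixed by `α ∘ σ`, with a left inverse `Pm`, such that
`Cm * Pm = e`. -/
theorem exists_solution_basis {ι : Type*} [Fintype ι] [DecidableEq ι]
    (e α α' : Matrix ι ι ℤ_[p]) (hee : e * e = e) (hαe : α * e = α) (hinv : α * α' = e)
    (hinv' : α' * α = e) :
    ∃ (n : ℕ) (Cm : Matrix ι (Fin n) (unramHat p)) (Pm : Matrix (Fin n) ι (unramHat p)),
      α.map (toUnram p) * Cm.map (unramFrob p) = Cm ∧ Pm * Cm = 1 ∧
        Cm * Pm = e.map (toUnram p) := by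
  classical
  obtain ⟨n, b⟩ := Submodule.basisOfPid (Pi.basisFun ℤ_[p] ι) (LinearMap.range (Matrix.toLin' e))
  set B : Matrix ι (Fin n) ℤ_[p] := Matrix.of fun i k => (b k : ι → ℤ_[p]) i with hB
  set L : Matrix (Fin n) ι ℤ_[p] :=
    Matrix.of fun k i => b.repr ⟨e *ᵥ Pi.single i 1, ⟨Pi.single i 1, Matrix.toLin'_apply _ _⟩⟩ k
    with hL
  have hBL : B * L = e := by
    ext i j
    set v : LinearMap.range (Matrix.toLin' e) :=
      ⟨e *ᵥ Pi.single j 1, ⟨Pi.single j 1, Matrix.toLin'_apply _ _⟩⟩
    have h := congrArg (fun z : LinearMap.range (Matrix.toLin' e) => (z : ι → ℤ_[p]) i)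
      (b.sum_repr v)
    simp only [Submodule.coe_sum, Finset.sum_apply, Submodule.coe_smul, Pi.smul_apply,
      smul_eq_mul] at h
    rw [Matrix.mul_apply]
    simp only [hB, hL, Matrix.of_apply]
    rw [show e i j = (v : ι → ℤ_[p]) i by simp [v], ← h]
    exact Finset.sum_congr rfl fun x _ => mul_comm _ _
  have heB : e * B = B := by
    ext i k
    obtain ⟨w, hw⟩ := (b k).2
    rw [Matrix.toLin'_apply] at hw
    change (e *ᵥ (b k : ι → ℤ_[p])) i = (b k : ι → ℤ_[p]) i
    rw [← hw, mulVec_mulVec, hee]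
  have hLB : L * B = 1 := by
    ext k l
    have hz : (∑ x, (L * B) x l • b x : LinearMap.range (Matrix.toLin' e)) = b l := by
      refine Subtype.ext (funext fun i => ?_)
      simp only [Submodule.coe_sum, Finset.sum_apply, Submodule.coe_smul, Pi.smul_apply,
        smul_eq_mul]
      have : (B * (L * B)) i l = B i l := by rw [← Matrix.mul_assoc, hBL, heB]
      rw [Matrix.mul_apply] at this
      exact (Finset.sum_congr rfl fun x _ => mul_comm _ _).trans this
    have h2 := congrArg (fun z => b.repr z k) hz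
    simp only [map_sum, map_smul, Module.Basis.repr_self, Finsupp.coe_finsetSum,
      Finset.sum_apply, Finsupp.smul_single, smul_eq_mul, mul_one, Finsupp.single_apply,
      Finset.sum_ite_eq', Finset.mem_univ, if_true] at h2
    rw [h2, Matrix.one_apply]
    exact if_congr eq_comm rfl rfl
  have heα : e * α = α := by rw [← hinv, Matrix.mul_assoc, hinv', hαe]
  have hαB : α * B = B * (L * α * B) := by
    rw [← Matrix.mul_assoc, ← Matrix.mul_assoc, hBL, heα]
  set U₀ := L * α * B with hU₀
  have hU₀unit : IsUnit U₀ := by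
    refine (Matrix.isUnit_iff_isUnit_det _).mpr (Matrix.isUnit_det_of_right_inverse
        (B := L * α' * B) ?_)
    calc L * α * B * (L * α' * B) = L * (α * (B * L) * α') * B := by simp only [Matrix.mul_assoc]
      _ = L * e * B := by rw [hBL, hαe, hinv]
      _ = 1 := by rw [Matrix.mul_assoc, heB, hLB]
  set f := toUnram p
  obtain ⟨C₀, hC₀, hfix⟩ := exists_fixed_matrix (unramFrob p) (unramRes p)
    (fun x => unramRes_unramFrob p x) (unramRes_surjective p)
    (fun x => dvd_of_unramRes_eq_zero p x) (fun x hx => exists_limit p x hx)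
    (fun x hx => eq_zero_of_forall_dvd p x hx) (U₀.map f)
    (fun i j => unramGal_toUnram p _ _) (unramRes_ne_zero_isUnit p) (hU₀unit.map f.mapMatrix)
  obtain ⟨u, hu⟩ := hC₀
  refine ⟨n, B.map f * C₀, (↑u⁻¹ : Matrix (Fin n) (Fin n) (unramHat p)) * L.map f, ?_, ?_, ?_⟩
  · have hBσ : (B.map f).map (unramFrob p) = B.map f :=
      Matrix.ext fun i j => unramGal_toUnram p _ _
    rw [Matrix.map_mul, hBσ, ← Matrix.mul_assoc, ← Matrix.map_mul, hαB, Matrix.map_mul,
      Matrix.mul_assoc, hfix]
  · rw [Matrix.mul_assoc, ← Matrix.mul_assoc (L.map f), ← Matrix.map_mul, hLB,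
      Matrix.map_one _ (map_zero f) (map_one f), Matrix.one_mul, ← hu, Units.inv_mul]
  · rw [Matrix.mul_assoc, ← Matrix.mul_assoc C₀, ← hu, Units.mul_inv, Matrix.one_mul,
      ← Matrix.map_mul, hBL]

end Fermat.Agent.OrdinaryEisenstein
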