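import Fermat.Agent.OrdinaryEisenstein.Decomposition
import Fermat.Agent.OrdinaryEisenstein.SolutionBasis

/-!
# The ordinary part over `ℂ_p`

The solutions of `c = α σ(c)` in the image of the projector give coordinates, and the ordinary part
of every series with the functional equation has integral exponentials in these coordinates.
-/

set_option autoImplicit false

noncomputable section

open PowerSeries Matrix

namespace Fermat.Agent.OrdinaryEisenstein

open OrdinaryCurve OrdinaryExclusion

variable (p : ℕ) [hp : Fact p.Prime] {ι : Type*} [Fintype ι] [DecidableEq ι]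

/-- The map from `ℤ_p` to `ℂ_p`. -/
abbrev toCp : ℤ_[p] →+* ℂ_[p] := (unramHat p).subtype.comp (toUnram p)

/-- **A basis `c` of solutions, in whose coordinates ordinary parts have integral exponentials.**
The vectors `c k` are fixed by `e` and by `α ∘ σ`; every `e`-fixed integral vector has unique
integral coordinates. -/
theorem exists_ordinary_basis (D : DworkData p ℂ_[p] ι) (hW : D.W = unramHat p)
    (hσ : D.σ = completeGal p (frobElt p)) (hV : D.V = -1) (e α α' : Matrix ι ι ℤ_[p])
    (hee : e * e = e) (hαe : α * e = α) (hinv : α * α' = e) (hinv' : α' * α = e)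
    (hHe : D.U * e.map (toCp p) = e.map (toCp p) * D.U)
    (hroot : α.map (toCp p) * α.map (toCp p) - D.U * α.map (toCp p)
      + (p : ℂ_[p]) • e.map (toCp p) = 0) :
    ∃ (n : ℕ) (c : Fin n → ι → unramHat p),
      (∀ k, e.map (toUnram p) *ᵥ c k = c k) ∧
      (∀ k, α.map (toUnram p) *ᵥ (fun i => unramFrob p (c k i)) = c k) ∧
      (∀ v : ι → unramHat p, e.map (toUnram p) *ᵥ v = v →
        ∃! w : Fin n → unramHat p, v = ∑ k, w k • c k) ∧
      ∀ R : ι → ℂ_[p]⟦X⟧, (∀ i, PowerSeries.map (completeGal p (frobElt p)) (R i) = R i) →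
        D.HasFunctionalEquation R →
        ∃ s : Fin n → ℂ_[p]⟦X⟧,
          (∀ i, seriesMulVec (e.map (toCp p)) R i
            = ∑ k, PowerSeries.C (c k i : ℂ_[p]) * s k) ∧
          (∀ k, constantCoeff (s k) = 0) ∧
          ∀ k, ∃ w : (unramHat p)⟦X⟧, constantCoeff w = 1 ∧
            expOf (s k) = PowerSeries.map (unramHat p).subtype w := by
  classical
  obtain ⟨n, Cm, Pm, hfix, hPC, hCP⟩ := exists_solution_basis p e α α' hee hαe hinv hinv'
  have heC : e.map (toUnram p) * Cm = Cm := by
    rw [← hCP, Matrix.mul_assoc, hPC, Matrix.mul_one]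
  refine ⟨n, fun k i => Cm i k, fun k => funext fun i => congrFun (congrFun heC i) k,
    fun k => funext fun i => congrFun (congrFun hfix i) k, fun v hv => ?_, fun R hσR hR => ?_⟩
  · have hsum : ∀ w : Fin n → unramHat p, (∑ k, w k • fun i => Cm i k) = Cm *ᵥ w := fun w => by
      funext i
      simp [Matrix.mulVec, dotProduct, mul_comm]
    refine ⟨Pm *ᵥ v, ?_, fun w hw => ?_⟩
    · dsimp only
      rw [hsum, mulVec_mulVec, hCP, hv]
    · rw [hw, hsum, mulVec_mulVec, hPC, one_mulVec]
  · obtain ⟨W, σ, h1, h2, h3, h4, A, U, V, h5, h6, h7, h8, h9⟩ := D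
    dsimp only at hW hσ
    subst hW hσ
    refine exists_decomposition _ hV (e.map (toCp p)) (α.map (toCp p)) (α'.map (toCp p))
      (fun i l => Subtype.mem _) (fun i l => Subtype.mem _) ?_
      (by rw [← Matrix.map_mul, hee]) (by rw [← Matrix.map_mul, hαe])
      (by rw [← Matrix.map_mul, hinv]) (by rw [← Matrix.map_mul, hinv']) hHe hroot
      (Cm.map (unramHat p).subtype) (Pm.map (unramHat p).subtype) (fun k i => Subtype.mem _) ?_
      ?_ ?_ R hσR hR
    · exact Matrix.ext fun i j => congrArg Subtype.val (unramGal_toUnram p (frobElt p) (e i j))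
    · have h := congrArg (fun M => M.map (unramHat p).subtype) hfix
      simp only [Matrix.map_mul, Matrix.map_map] at h
      refine Eq.trans ?_ h
      congr 1
    · rw [← Matrix.map_mul, hPC, Matrix.map_one _ (map_zero _) (map_one _)]
    · rw [← Matrix.map_mul, hCP, Matrix.map_map]
      rfl

omit [DecidableEq ι] in
/-- A solution of `c = α σ(c)` in the image of `e` solves `c = H σ(c) - p σ²(c)`. -/
theorem solution_eq (H e α α' : Matrix ι ι ℤ_[p]) (hee : e * e = e) (hαe : α * e = α)
    (hinv : α * α' = e) (hinv' : α' * α = e) (hroot : α * α - H * α + (p : ℤ_[p]) • e = 0)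
    {c : ι → unramHat p} (hec : e.map (toUnram p) *ᵥ c = c)
    (hc : α.map (toUnram p) *ᵥ (fun i => unramFrob p (c i)) = c) :
    H.map (toUnram p) *ᵥ (fun i => unramFrob p (c i))
      - (p : unramHat p) • (fun i => unramFrob p (unramFrob p (c i))) = c := by
  set f := toUnram p
  set σc : ι → unramHat p := fun i => unramFrob p (c i) with hσc
  set σσc : ι → unramHat p := fun i => unramFrob p (unramFrob p (c i)) with hσσc
  have hmap : ∀ (M : Matrix ι ι ℤ_[p]) (v : ι → unramHat p),
      (fun i => unramFrob p ((M.map f *ᵥ v) i)) = M.map f *ᵥ fun i => unramFrob p (v i) :=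
    fun M v => funext fun i => by
      rw [RingHom.map_mulVec, Matrix.map_map]
      congr 2
      exact funext fun a => unramGal_toUnram p _ a
  have h1 : e.map f *ᵥ σc = σc := by rw [hσc, ← hmap, hec]
  have h1' : e.map f *ᵥ σσc = σσc := by rw [hσσc, ← hmap, ← hσc, h1]
  have h2 : α.map f *ᵥ σσc = σc := by rw [hσσc, ← hmap, hc]
  have heα : e * α = α := by rw [← hinv, Matrix.mul_assoc, hinv', hαe]
  have hHe : H * e = α + (p : ℤ_[p]) • (e * α') := by
    have h : H * α * α' = α + (p : ℤ_[p]) • (e * α') := by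
      rw [show H * α = α * α + (p : ℤ_[p]) • e by
        rw [← sub_eq_zero, ← neg_sub, neg_eq_zero, ← hroot]; abel,
        Matrix.add_mul, Matrix.mul_assoc, hinv, hαe, Matrix.smul_mul]
    rwa [Matrix.mul_assoc, hinv] at h
  have hβ : (e * α').map f *ᵥ σc = σσc := by
    conv_lhs => rw [← h2, mulVec_mulVec, ← Matrix.map_mul, Matrix.mul_assoc, hinv', hee]
    exact h1'
  rw [← h1, mulVec_mulVec, ← Matrix.map_mul, hHe, Matrix.map_add _ (map_add f), add_mulVec,
    show ((p : ℤ_[p]) • (e * α')).map f = (p : unramHat p) • (e * α').map f by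
      ext i j
      rw [Matrix.map_apply, Matrix.smul_apply, Matrix.smul_apply, Matrix.map_apply, smul_eq_mul,
        smul_eq_mul, map_mul, map_natCast], smul_mulVec, hβ, hc]
  abel

end Fermat.Agent.OrdinaryEisenstein
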