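import Fermat.Agent.OrdinaryEisenstein.PhiFamily
import Fermat.Agent.OrdinaryEisenstein.FormClass
import Fermat.Agent.OrdinaryEisenstein.Projector
import Fermat.Agent.OrdinaryEisenstein.OrdinaryPart
import Fermat.Agent.OrdinaryEisenstein.ExpEval
import Fermat.Agent.OrdinaryCurve.ClassGalois
import Fermat.Agent.OrdinaryCurve.ClassHecke
import Fermat.Agent.MazurPoint.PointClass
import Fermat.Agent.EisensteinDescent.JZeroDivisible

/-!
# The point step: the Eisenstein part of the point near `∞` is a sum of values of the maps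

Over `ℂ_p` the projection of the class of the point to the primary part at level `r` is `p ^ r`
times a sum of classes at `p ^ r`-th roots of principal units of the completed unramified ring,
plus a class fixed by inertia.
-/

set_option autoImplicit false

noncomputable section

open PowerSeries Matrix AlgebraicCurve ModularCurve Fermat.Agent.FunctionField

namespace Fermat.Agent.OrdinaryEisenstein

open GaloisBasics EisensteinDescent EisensteinTate OrdinaryCurve OrdinaryExclusion
open scoped IsMulCommutative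

variable {p : ℕ} [hp : Fact p.Prime]

section Series

variable {ι : Type*} [Fintype ι]

/-- An integral series with constant term one moves the classes of `c log (1 + X)`. -/
theorem isClass_subst_series {N : ℕ} [NeZero N] (Z : PhiData p N) (c : Z.Sol) {Y : DiscPoint ℂ_[p]}
    {s : ℂ_[p]⟦X⟧} (hs : constantCoeff s = 0) {w : (unramHat p)⟦X⟧} (hw : constantCoeff w = 1)
    (hsw : expOf s = PowerSeries.map (unramHat p).subtype w) :
    Z.S.IsClass Y (fun i => C (c.1 i : ℂ_[p]) * s)
      (Z.phi c ⟨evalAt (unramHat p) (fun _ h => norm_unramHat_le p h) Y w - 1,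
        norm_evalAt_sub_one_lt p _ Y hw⟩) := by
  let φ : (ballRing ℂ_[p])⟦X⟧ :=
    PowerSeries.map (Subring.inclusion fun x hx => norm_unramHat_le p hx :
      unramHat p →+* ballRing ℂ_[p]) (w - 1)
  have hφ : constantCoeff φ = 0 := by
    simp only [φ]
    rw [const_map, map_sub, map_one, hw, sub_self, map_zero]
  have hval : imagePoint (ballRing ℂ_[p]) norm_le_of_mem_ballRing φ hφ Y =
      ⟨evalAt (unramHat p) (fun _ h => norm_unramHat_le p h) Y w - 1,
        norm_evalAt_sub_one_lt p _ Y hw⟩ := by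
    refine DiscPoint.ext ?_
    show evalAt _ _ Y φ = evalAt (unramHat p) (fun _ h => norm_unramHat_le p h) Y w - 1
    rw [← map_one (evalAt (unramHat p) (fun _ h => norm_unramHat_le p h) Y), ← map_sub]
    rw [evalAt_apply, evalAt_apply]
    exact tsum_congr fun m => by simp only [φ, coeff_map]; rfl
  have hmap : PowerSeries.map (ballRing ℂ_[p]).subtype φ = expOf s - 1 := by
    rw [hsw, ← map_one (PowerSeries.map (unramHat p).subtype), ← map_sub]
    exact PowerSeries.ext fun m => by simp only [φ, coeff_map]; rfl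
  rw [← hval]
  refine ((Z.isClass_phi c _).subst hφ).congr fun i => ?_
  rw [hmap, subst_logVecOf _ (by rw [map_sub, constantCoeff_expOf hs, map_one, sub_self]),
    log_subst_expOf_sub_one s hs]

/-- An integral matrix congruent to `e` modulo `p ^ r`, applied to series. -/
theorem series_eq_of_castMat {ι : Type*} [Fintype ι] [DecidableEq ι] (M : Matrix ι ι ℤ)
    (e C' : Matrix ι ι ℤ_[p]) {r : ℕ} (hC : castMat p M = e + (p : ℤ_[p]) ^ r • C')
    (L : ι → ℂ_[p]⟦X⟧) (i : ι) :
    seriesMulVec (e.map (toCp p)) L i + p ^ r • ∑ l, C (padicIntToComplex p (C' i l)) * L l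
      = ∑ b, C ((M i b : ℤ) : ℂ_[p]) * L b := by
  simp only [seriesMulVec, nsmul_eq_mul, Finset.mul_sum, ← Finset.sum_add_distrib]
  refine Finset.sum_congr rfl fun l _ => ?_
  have h1 := congrArg (toCp p) (congrFun (congrFun hC i) l)
  rw [castMat, RingHom.mapMatrix_apply, Matrix.map_apply, eq_intCast, map_intCast,
    Matrix.add_apply, Matrix.smul_apply, smul_eq_mul, map_add, map_mul, map_pow,
    map_natCast] at h1
  rw [h1, map_add, add_mul, map_mul, map_pow, map_natCast, Nat.cast_pow, Matrix.map_apply,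
    mul_assoc]
  rfl

end Series

variable {N : ℕ} [NeZero N] [Fact N.Prime] [IsMulCommutative (awayAlg N)]
  [SMulCommClass GalQ (awayAlg N) (JZero N)] {D : ℕ} (h : HasTorsionRank (JZero N) p D)

omit [SMulCommClass GalQ (↥(awayAlg N)) (JZero N)] in
/-- Hecke matrices of late projectors approximate the projector. -/
theorem exists_idem_eq_eisProj_add (r : ℕ) : ∃ R, r ≤ R ∧
    ∃ C' : Matrix (FormIdx N) (FormIdx N) ℤ_[p],
      castMat p (heckeMatHom N (h.idem (eisensteinIdeal N p) R))
        = eisProj h + (p : ℤ_[p]) ^ r • C' ∧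
      Commute (castMat p (heckeMat N p)) C' := by
  obtain ⟨R₀, hR₀⟩ := isMatLim_limMat h (isCompat_const h 1) r
  have hred := hR₀ (max R₀ r) (le_max_left R₀ r)
  rw [levelMat, one_mul] at hred
  obtain ⟨C', hC, hcomm⟩ := exists_eq_add_pow_smul hred
    (commute_heckeMat_limMat h (isCompat_const h 1)) (commute_heckeMat_castMat _)
  exact ⟨_, le_max_right R₀ r, C', hC, hcomm⟩

variable (S : DiscCurve (curveField p N) (Fin (formQBasis N).rank))
  (hS : S.disc = discData p N) (hA : S.curve.A = fun m i => ((formQBasis N).a m i : ℂ_[p]))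
  (hpN : p ≠ N)

include hS hA in
/-- **The point step.** -/
theorem exists_pointStep
    {n : ℕ} (c : Fin n → (formPhiData hpN S hS hA).Sol)
    (hdec : ∀ R : FormIdx N → ℂ_[p]⟦X⟧,
      (∀ i, PowerSeries.map (completeGal p (frobElt p)) (R i) = R i) →
      (goodDworkData p (formQBasis N) (heckeMat N p)
        (isTMat_heckeMat N hp.out hpN)).HasFunctionalEquation R →
      ∃ s : Fin n → ℂ_[p]⟦X⟧,
        (∀ i, seriesMulVec ((eisProj h).map (toCp p)) R i
          = ∑ k, PowerSeries.C ((c k).1 i : ℂ_[p]) * s k) ∧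
        (∀ k, constantCoeff (s k) = 0) ∧
        ∀ k, ∃ w : (unramHat p)⟦X⟧, constantCoeff w = 1 ∧
          expOf (s k) = PowerSeries.map (unramHat p).subtype w)
    {P : Place Qbar (ModCurveGenus.FN N)} {u v : ℚ}
    (hP : MazurPoint.OverPoint P (u : Qbar) (v : Qbar)) (hu : padicValRat p u < 0)
    (hv : padicValRat p v = N * padicValRat p u)
    (hfix : ∀ g : GalQ, g • MazurPoint.pointClass P = MazurPoint.pointClass P) (r : ℕ) :
    ∃ (u' : Fin n → unramHat p) (b : Fin n → DiscPoint ℂ_[p])
      (z' : Pic0 ℂ_[p] (curveField p N)),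
      (∀ k, ‖(u' k : ℂ_[p])‖ = 1) ∧ (∀ k, (1 + (b k).val) ^ p ^ r = (u' k : ℂ_[p])) ∧
      upHom p N (h.idem (eisensteinIdeal N p) r • MazurPoint.pointClass P)
        = p ^ r • (∑ k, (formPhiData hpN S hS hA).phi (c k) (b k) + z') ∧
      ∀ g, localGaloisToGlobal p g ∈ (padicPlace p).inertiaSubgroupIn ℚ →
        completeGalEquiv p g • z' = z' := by
  classical
  set y := MazurPoint.pointClass P
  set A : ℕ → FormIdx N → ℂ_[p] := fun m i => ((formQBasis N).a m i : ℂ_[p])
  set L : FormIdx N → ℂ_[p]⟦X⟧ := lam A 1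
  have hH := isTMat_heckeMat N hp.out hpN
  have hL := hasFunctionalEquation_lam_good p (formQBasis N) hH 1
  have hAσ : ∀ (g : PadicAlgCl p ≃ₐ[ℚ_[p]] PadicAlgCl p) m i, completeGal p g (A m i) = A m i :=
    fun g m i => map_intCast _ _
  -- the point on the disc
  obtain ⟨Y, hYW, -, hYg, hY⟩ := MazurPoint.exists_isClass_pointClass p N S hS
    (Fact.out : N.Prime) hP hu hv fun a =>
      exists_isClass_of_functionalEquation p (formQBasis N) hH S hA (by rw [hA]; exact hL) a
  rw [hA] at hY
  -- a late projector, its class, and the part divisible by `p ^ r`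
  obtain ⟨R, hrR, C', hC', hCcomm⟩ := exists_idem_eq_eisProj_add h r
  set RC : FormIdx N → ℂ_[p]⟦X⟧ := fun i => ∑ l, C (padicIntToComplex p (C' i l)) * L l with hRC
  obtain ⟨x', hx'⟩ := exists_isClass_of_functionalEquation p (formQBasis N) hH S hA
    (hasFunctionalEquation_mulVec_good p (formQBasis N) hH hL C' hCcomm.eq) Y
  have hTy := isClass_awayAlg_smul S (fun q _ hq hqN a R x hx =>
    hx.hecke hS hA hq ((Nat.prime_dvd_prime_iff_eq hq Fact.out).not.mpr hqN)
      (isTMat_heckeMat N hq hqN)) (h.idem (eisensteinIdeal N p) R) hY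
  obtain ⟨s, hes, hs0, hw⟩ := hdec L (fun i => map_lam _ (hAσ _) 1 i) hL
  choose w hw1 hwexp using hw
  have hW : ∀ x ∈ unramHat p, ‖x‖ ≤ 1 := fun x hx => norm_unramHat_le p hx
  choose b hbr hb1 using fun k => exists_root_principal p r (norm_evalAt_sub_one_lt p hW Y (hw1 k))
  set b' : Fin n → DiscPoint ℂ_[p] := fun k => ⟨b k - 1, hb1 k⟩
  -- the class identity
  have hsum : S.IsClass Y (fun i => ∑ k, C ((c k).1 i : ℂ_[p]) * s k + (p ^ r) • RC i)
      (∑ k, (formPhiData hpN S hS hA).phi (c k) ⟨_, norm_evalAt_sub_one_lt p hW Y (hw1 k)⟩ +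
          (p ^ r) • x') :=
    (DiscCurve.IsClass.sum Finset.univ fun k _ =>
      isClass_subst_series (formPhiData hpN S hS hA) (c k) (hs0 k) (hw1 k) (hwexp k)).add
          (hx'.nsmul _)
  have hid : upHom p N (h.idem (eisensteinIdeal N p) R • y)
      = p ^ r • (∑ k, (formPhiData hpN S hS hA).phi (c k) (b' k) + x') := by
    rw [hTy.eq (hsum.congr fun i => ?_), nsmul_add, Finset.smul_sum]
    · congr 1
      refine Finset.sum_congr rfl fun k _ => (formPhiData hpN S hS hA).phi_pow (c k) (p ^ r) ?_
      show 1 + (evalAt (unramHat p) hW Y (w k) - 1) = (1 + (b k - 1)) ^ p ^ r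
      rw [add_sub_cancel, add_sub_cancel, hbr]
    · exact (congrArg (· + p ^ r • RC i) (hes i).symm).trans
        (series_eq_of_castMat _ _ C' hC' L i)
  -- back to level `r`
  obtain ⟨w₀, hw₀⟩ := exists_nsmul_eq_jZero N (pow_pos hp.out.pos r) y
  set t : awayAlg N := h.idem (eisensteinIdeal N p) R - h.idem (eisensteinIdeal N p) r
  have hty : t • y = p ^ r • t • w₀ := by rw [← hw₀]; exact smul_nsmul_comm t _ w₀
  refine ⟨fun k => ⟨_, evalAt_mem_unramHat p hW hYW (w k)⟩, b', x' - upHom p N (t • w₀),
    fun k => norm_evalAt_eq_one p hW Y (hw1 k), fun k => ?_, ?_, fun g hg => ?_⟩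
  · show (1 + (b k - 1)) ^ p ^ r = evalAt (unramHat p) hW Y (w k)
    rw [add_sub_cancel, hbr]
  · have e : h.idem (eisensteinIdeal N p) r • y
        = h.idem (eisensteinIdeal N p) R • y - t • y := by
      have hsub : t • y = h.idem (eisensteinIdeal N p) R • y
          - h.idem (eisensteinIdeal N p) r • y := sub_smul (R := awayAlg N) (M := JZero N) _ _ y
      rw [hsub, sub_sub_cancel]
    rw [e, map_sub, hid, hty, map_nsmul, ← nsmul_sub, add_sub_assoc]
  · have hgx : completeGalEquiv p g • x' = x' := by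
      refine ((hx'.galois hS hA g (b := Y) (hYg g).symm).congr fun i => ?_).eq hx'
      show PowerSeries.map (completeGal p g) (∑ l, C (padicIntToComplex p (C' i l)) * L l) = _
      rw [map_sum]
      refine Finset.sum_congr rfl fun l _ => ?_
      rw [map_mul, map_C, completeGal_padicIntToComplex, map_lam _ (hAσ g)]; rfl
    have hgw : completeGalEquiv p g • upHom p N (t • w₀) = upHom p N (t • w₀) := by
      rw [← upHom_galois]
      congr 1
      set σ := localGaloisToGlobal p g
      have hd : p ^ r • (σ • w₀ - w₀) = 0 := by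
        rw [nsmul_sub, hw₀, sub_eq_zero, ← hfix σ, ← hw₀]
        exact (map_nsmul (DistribSMul.toAddMonoidHom (JZero N) σ) (p ^ r) w₀).symm
      rw [smul_comm σ t w₀, ← sub_eq_zero]
      refine (smul_sub t (σ • w₀) w₀).symm.trans ?_
      exact (sub_smul (R := awayAlg N) (M := JZero N) _ _ _).trans
        (sub_eq_zero.mpr (h.idem_compat _ hrR hd))
    rw [smul_sub, hgx, hgw]

end Fermat.Agent.OrdinaryEisenstein
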