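import Fermat.Agent.OrdinaryEisenstein.Basis
import Fermat.Agent.OrdinaryEisenstein.KummerRoot
import Fermat.Agent.OrdinaryEisenstein.PhiNonzero
import Fermat.Agent.OrdinaryEisenstein.PointStep
import Fermat.Agent.OrdinaryCurve.ClassHecke
import Fermat.Agent.MazurPoint.DescentKills
import Fermat.Agent.EisensteinDescent.JZeroDivisible

/-!
# The ordinary family at `p` of the Eisenstein part of `J₀(N)`

The solutions of the unit-root equation give inertia-equivariant maps from `μ_{p^∞}` into the
Eisenstein part of `J₀(N)`, so it has an ordinary family at `p ≠ N`.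
-/

set_option autoImplicit false

noncomputable section

open PowerSeries Matrix AlgebraicCurve ModularCurve
open scoped IsMulCommutative

namespace Fermat.Agent.OrdinaryEisenstein

open OrdinaryCurve OrdinaryExclusion GaloisBasics EisensteinDescent EisensteinTate

variable {p : ℕ} [hp : Fact p.Prime] {N : ℕ} [NeZero N] [Fact N.Prime]

/-- The Hecke algebra on classes of families on the curve of level `N`. -/
theorem hsmul_form (S : DiscCurve (curveField p N) (Fin (formQBasis N).rank))
    (hS : S.disc = discData p N) (hA : S.curve.A = fun m i => ((formQBasis N).a m i : ℂ_[p]))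
    (t : awayAlg N) (a : DiscPoint ℂ_[p]) (R : Fin (formQBasis N).rank → ℂ_[p]⟦X⟧) (y : JZero N)
    (hy : S.IsClass a R (upHom p N y)) :
    S.IsClass a (fun i => ∑ b, C (heckeMatHom N t i b : ℂ_[p]) * R b) (upHom p N (t • y)) :=
  isClass_awayAlg_smul (p := p) S
    (fun _ _ hq hqN _ _ _ hx => DiscCurve.IsClass.hecke hS hA hq
      (fun h => hqN (mem_singleton_of_dvd N hq h)) (isTMat_heckeMat N hq hqN) hx) t hy

omit [Fact (Nat.Prime N)] in
/-- The cocycle of a root of a principal unit. -/
theorem galois_phi_root_sub (Z : PhiData p N) (c : Z.Sol) {g : PadicAlgCl p ≃ₐ[ℚ_[p]] PadicAlgCl p}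
    (hg : localGaloisToGlobal p g ∈ (padicPlace p).inertiaSubgroupIn ℚ) (b : DiscPoint ℂ_[p])
    (z : muPow p)
    (hz : complexEmb p (qval (z : Qmul)) = completeGal p g (1 + b.val) / (1 + b.val)) :
    completeGalEquiv p g • Z.phi c b - Z.phi c b = upHom p N (Z.phiMu c z) := by
  let gb : DiscPoint ℂ_[p] :=
    ⟨completeGal p g b.val, by rw [norm_completeGal]; exact b.norm_lt⟩
  rw [Z.galois_phi_of_inertia hg c (b := gb) rfl, PhiData.up_phiMu, sub_eq_iff_eq_add]
  refine Z.phi_add c ?_
  show completeGal p g b.val = (muPt z).val + b.val + (muPt z).val * b.val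
  have hb0 : 1 + b.val ≠ 0 := fun h => by
    have h1 : b.val = -1 := by linear_combination h
    exact absurd b.norm_lt (by rw [h1, norm_neg, norm_one]; exact lt_irrefl 1)
  rw [eq_div_iff hb0, map_add, map_one, ← one_add_muPt] at hz
  linear_combination -hz

/-- The ordinary family, for a disc curve of level `N`. -/
theorem hasOrdinaryFamily_of_curve (hpN : p ≠ N)
    (S : DiscCurve (curveField p N) (Fin (formQBasis N).rank)) (hS : S.disc = discData p N)
    (hA : S.curve.A = fun m i => ((formQBasis N).a m i : ℂ_[p])) :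
    MazurPoint.HasOrdinaryFamily N p := by
  intro h E _ _ _ Eig α A a hinj hα1 hαroot hαcompat _ _ _ P u v hP hu hv hfix
  -- `obtain` on these existentials times out in `whnf`
  refine Exists.elim (exists_eisenstein_basis h hpN hα1 hαroot hαcompat) fun n hn =>
    Exists.elim hn fun c hcc => ?_
  have hc := hcc.1
  have hασ := hcc.2.1
  have hspan := hcc.2.2.1
  have hR := hcc.2.2.2
  refine ⟨padicPlace p, PoitouTate.padicPlace_liesOverPrime p,
    localGaloisToGlobal p (frobElt p), mem_decomposition_localGalois p _, Fin n, inferInstance,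
    phiFamily hpN S hS hA h (hsmul_form S hS hA) c hc,
    unitRoot_frob_phiFamily hpN S hS hA h (hsmul_form S hS hA) c hc hαcompat hασ,
    exists_coord_elem_ne_zero hpN S hS hA h (hsmul_form S hS hA) c hc
      (fun x hx => (hspan x hx).exists) Eig hinj, fun r => ?_⟩
  refine Exists.elim (exists_pointStep (h := h) (S := S) (hS := hS) (hA := hA) (hpN := hpN)
    c hR hP hu hv hfix r) fun u' h1 =>
      Exists.elim h1 fun b h2 => Exists.elim h2 fun z' h3 => ?_
  refine Exists.elim (exists_nsmul_eq_jZero N (pow_pos hp.out.pos r) (MazurPoint.pointClass P))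
    fun w₀ hw₀ => ?_
  exact exists_root_kummerUnits_jZero (torsionBridge p N) h
    (phiFamily hpN S hS hA h (hsmul_form S hS hA) c hc) hfix hw₀ u' h3.1
    (fun k => 1 + (b k).val) h3.2.1
    (fun k => PhiData.phi (formPhiData hpN S hS hA) (c k) (b k)) z' h3.2.2.1 h3.2.2.2
    fun k g hg z _ hzx =>
      galois_phi_root_sub (formPhiData hpN S hS hA) (c k) hg (b k) z hzx

/-- **The ordinary family at `p`.** -/
theorem hasOrdinaryFamily (hpN : p ≠ N) : MazurPoint.HasOrdinaryFamily N p :=
  Exists.elim (exists_discCurve_disc p (formQBasis N)) fun S h =>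
    hasOrdinaryFamily_of_curve hpN S h.1 h.2

end Fermat.Agent.OrdinaryEisenstein
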