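import Fermat.Agent.OrdinaryEisenstein.PhiFamily
import Fermat.Agent.OrdinaryEisenstein.OrdinaryPart

/-!
# The basis of the ordinary Eisenstein solutions on the integral forms

The vectors fixed by the unit root composed with Frobenius in the image of the Eisenstein projector
have a basis in whose coordinates ordinary parts have integral exponentials.
-/

set_option autoImplicit false

noncomputable section

open PowerSeries Matrix AlgebraicCurve ModularCurve
open scoped IsMulCommutative

namespace Fermat.Agent.OrdinaryEisenstein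

open OrdinaryCurve OrdinaryExclusion GaloisBasics EisensteinDescent EisensteinTate

variable {p : ℕ} [hp : Fact p.Prime] {N : ℕ} [NeZero N] [Fact N.Prime] {D : ℕ}
  (h : HasTorsionRank (JZero N) p D)

/-- A basis of solutions in the image of the Eisenstein projector, fixed by the unit root composed
with Frobenius, in whose coordinates ordinary parts have integral exponentials. -/
theorem exists_eisenstein_basis (hpN : p ≠ N) {α : ℕ → awayAlg N}
    (hα1 : ∀ r, α r - 1 ∈ eisensteinIdeal N p)
    (hαroot : ∀ r, ∀ x ∈ primary (JZero N) p (eisensteinIdeal N p) r,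
      α r • α r • x - awayTq N p • α r • x + p • x = 0)
    (hα : IsCompat h α) :
    ∃ (n : ℕ) (c : Fin n → solutions (p := p) (heckeMat N p)),
      (∀ k, matVec (eisProj h) (c k).1 = (c k).1) ∧
      (∀ k, matVec (limMat h α) (fun i => unramFrob p ((c k).1 i)) = (c k).1) ∧
      (∀ v : Fin (formQBasis N).rank → unramHat p, matVec (eisProj h) v = v →
        ∃! w : Fin n → unramHat p, v = ∑ k, w k • (c k).1) ∧
      ∀ R : Fin (formQBasis N).rank → ℂ_[p]⟦X⟧,
        (∀ i, PowerSeries.map (completeGal p (frobElt p)) (R i) = R i) →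
        (goodDworkData p (formQBasis N) (heckeMat N p)
          (isTMat_heckeMat N hp.out hpN)).HasFunctionalEquation R →
        ∃ s : Fin n → ℂ_[p]⟦X⟧,
          (∀ i, seriesMulVec ((eisProj h).map (toCp p)) R i
            = ∑ k, PowerSeries.C ((c k).1 i : ℂ_[p]) * s k) ∧
          (∀ k, constantCoeff (s k) = 0) ∧
          ∀ k, ∃ w : (unramHat p)⟦X⟧, constantCoeff w = 1 ∧
            expOf (s k) = PowerSeries.map (unramHat p).subtype w := by
  classical
  obtain ⟨α', hα', hinv⟩ := exists_inverse_seq h (eisensteinIdeal N p) hα1 hα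
  set e := eisProj h with he
  have hee : e * e = e := eisProj_isIdempotentElem h
  have hαe : limMat h α * e = limMat h α := limMat_mul_eisProj h hα
  have h1 : limMat h α * limMat h α' = e :=
    (limMat_mul h hα hα').symm.trans (limMat_congr h (IsCompat.mul h hα hα') (isCompat_const h 1)
      fun r x hx => (hinv r x hx).trans (one_smul (awayAlg N) x).symm)
  have h2 : limMat h α' * limMat h α = e := (limMat_comm h hα' hα).trans h1
  have hquad : limMat h α * limMat h α - castMat p (heckeMat N p) * limMat h α
      + (p : ℤ_[p]) • e = 0 := limMat_quadratic h hα _ hαroot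
  have hU : (heckeMat N p).map (Int.cast : ℤ → ℂ_[p]) = (castMat p (heckeMat N p)).map (toCp p) :=
    Matrix.ext fun i j => (map_intCast (toCp p) _).symm
  have hq := congrArg (fun M => (toCp p).mapMatrix M) hquad
  simp only [map_add, map_sub, map_mul, map_zero, Nat.cast_smul_eq_nsmul, map_nsmul] at hq
  let D₀ : DworkData p ℂ_[p] (FormIdx N) :=
    goodDworkData p (formQBasis N) (heckeMat N p) (isTMat_heckeMat N hp.out hpN)
  have hHe : (heckeMat N p).map (Int.cast : ℤ → ℂ_[p]) * e.map (toCp p)
      = e.map (toCp p) * (heckeMat N p).map (Int.cast : ℤ → ℂ_[p]) := by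
    rw [hU, ← Matrix.map_mul, ← Matrix.map_mul]
    exact congrArg (fun M => M.map (toCp p))
      (commute_heckeMat_limMat h (isCompat_const h 1)).eq
  have hroot : (limMat h α).map (toCp p) * (limMat h α).map (toCp p)
      - (heckeMat N p).map (Int.cast : ℤ → ℂ_[p]) * (limMat h α).map (toCp p)
      + (p : ℂ_[p]) • e.map (toCp p) = 0 := by
    rw [hU, Nat.cast_smul_eq_nsmul]
    exact hq
  obtain ⟨n, c, hec, hαc, hspan, hR⟩ := exists_ordinary_basis p D₀ rfl rfl rfl e (limMat h α)
    (limMat h α') hee hαe h1 h2 hHe hroot
  have hsol : ∀ k, c k ∈ solutions (p := p) (heckeMat N p) := fun k =>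
    mem_solutions_iff.mpr (solution_eq p (castMat p (heckeMat N p)) e (limMat h α) (limMat h α')
      hee hαe h1 h2 hquad (hec k) (hαc k))
  exact ⟨n, fun k => ⟨c k, hsol k⟩, hec, hαc, hspan, hR⟩

end Fermat.Agent.OrdinaryEisenstein
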