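import Fermat.Agent.OrdinaryCurve.Dwork
import Fermat.Agent.OrdinaryCurve.LogExp

/-!
# The ordinary part of a series with the functional equation has integral exponential coordinates

For Dwork data with `U = H`, `V = -1`, a projector `e`, a unit root `α` of `X² - H X + p` on it
with inverse `α'`, and a basis `c` (columns of `Cm`, with left inverse `Pm`) of the vectors fixed by
`α ∘ σ`: if `R` satisfies the functional equation then `e R = ∑ c_k s_k` with `exp (s_k)` integral.
-/

set_option autoImplicit false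

noncomputable section

open PowerSeries Matrix

namespace Fermat.Agent.OrdinaryEisenstein

open OrdinaryCurve

variable {p : ℕ} [hp : Fact p.Prime] {K : Type*} [Field K] [CharZero K]
  {ι : Type*} [Fintype ι] (D : DworkData p K ι)

section Dwork

/-- Dwork data of the multiplicative group, from any Frobenius lift. -/
@[reducible] def gmData : DworkData p K Unit where
  W := D.W
  σ := D.σ
  inv_mem := D.inv_mem
  not_inv_mem := D.not_inv_mem
  σ_mem := D.σ_mem
  σ_frob := D.σ_frob
  A := fun _ _ => 1
  U := 1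
  V := 0
  A_mem _ _ := one_mem _
  U_mem i l := by simp
  V_mem _ _ := zero_mem _
  σ_A _ _ := map_one _
  A_mul m i := by simp

/-- **Dwork's lemma**: `p s - σ s (X ^ p) ∈ p W⟦X⟧` gives an integral exponential. -/
theorem exists_expOf_eq_map (s : K⟦X⟧) (h0 : constantCoeff s = 0)
    (h : ∀ m, coeff m s - (p : K)⁻¹ * (if p ∣ m then D.σ (coeff (m / p) s) else 0) ∈ D.W) :
    ∃ w : D.W⟦X⟧, constantCoeff w = 1 ∧ expOf s = PowerSeries.map D.W.subtype w := by
  obtain ⟨z, hz0, hz⟩ := (gmData D).exists_series (fun _ => s) ⟨fun _ => h0, fun i m => by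
    simp only [Fintype.sum_unique, one_apply_eq, Matrix.zero_apply, zero_div, zero_mul,
      add_zero, coeff_expand, coeff_map, one_div]
    exact h m⟩ (fun _ => 1) 1 (fun a b => by simp) (fun δ i => by
    simp)
  set y : D.W⟦X⟧ := z ()
  have hy0 : constantCoeff y = 0 := hz0 ()
  set yK := PowerSeries.map D.W.subtype y with hyK
  have hyK0 : constantCoeff yK = 0 := by rw [hyK, const_map, hy0, map_zero]
  have hlam : (lam (gmData D).A 1 ()).subst yK = s := by
    have h1 := hz ()
    rwa [logVec, Fintype.sum_unique] at h1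
  have hresc : rescale (-1 : K) (log K) = -(lam (gmData D).A 1 ()) := by
    ext m
    rcases Nat.eq_zero_or_pos m with rfl | hm
    · rw [map_neg, coeff_lam, coeff_rescale, coeff_log]; simp
    simp only [coeff_rescale, coeff_log, if_neg hm.ne', map_neg, coeff_lam, one_div]
    simp only [eq_ratCast, Rat.cast_div, Rat.cast_pow, Rat.cast_neg, Rat.cast_one,
      Rat.cast_natCast]
    rw [← mul_div_assoc, ← pow_add, ← add_assoc, pow_succ, Even.neg_one_pow ⟨m, rfl⟩, one_mul,
      neg_div, one_div]
  have hsub : HasSubst yK := HasSubst.of_constantCoeff_zero' hyK0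
  have hlog : logOf (1 - yK) = -s := by
    rw [logOf_eq, sub_sub_cancel_left, ← hlam]
    have h2 := congrArg (fun f : K⟦X⟧ => f.subst yK) hresc
    simp only [rescale_eq_subst, subst_comp_subst_apply (HasSubst.smul_X' (-1 : K)) hsub,
      subst_smul hsub, subst_X hsub] at h2
    rw [show ((-1 : K) • yK) = -yK from by rw [neg_smul, one_smul]] at h2
    rw [← coe_substAlgHom hsub, map_neg, coe_substAlgHom hsub] at h2
    exact h2
  have hexp : expOf (-s) = 1 - yK := by
    rw [← hlog, expOf_logOf (by rw [map_sub, map_one, hyK0, sub_zero])]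
  have hmul : expOf s * (1 - yK) = 1 := by
    rw [← hexp, ← expOf_add h0 (by rw [map_neg, h0, neg_zero]), add_neg_cancel]
    exact eq_of_derivative_eq (c := d⁄dX K (0 : K⟦X⟧)) (derivative_expOf (map_zero _))
      (by rw [map_zero, mul_zero, PowerSeries.derivative_one]) (constantCoeff_expOf (map_zero _))
          (map_one _)
  set u := invOfUnit (1 - y) 1 with hu
  have hyu : (1 - y) * u = 1 := mul_invOfUnit _ _ (by simp [hy0])
  refine ⟨u, by simp [hu, constantCoeff_invOfUnit], ?_⟩
  calc expOf s = expOf s * ((1 - yK) * PowerSeries.map D.W.subtype u) := by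
        rw [show (1 - yK) = PowerSeries.map D.W.subtype (1 - y) by rw [map_sub, map_one],
          ← map_mul, hyu, map_one, mul_one]
    _ = PowerSeries.map D.W.subtype u := by rw [← mul_assoc, hmul, one_mul]

end Dwork

variable [DecidableEq ι] {κ : Type*} [Fintype κ] [DecidableEq κ]

/-- Multiplication of a vector of series by a matrix of constants. -/
def seriesMulVec {J : Type*} (M : Matrix J ι K) (R : ι → K⟦X⟧) (i : J) : K⟦X⟧ :=
  ∑ l, PowerSeries.C (M i l) * R l

omit [DecidableEq ι] in
omit [CharZero K] in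
theorem coeff_seriesMulVec {J : Type*} (M : Matrix J ι K) (R : ι → K⟦X⟧) (i : J) (m : ℕ) :
    coeff m (seriesMulVec M R i) = (M *ᵥ fun l => coeff m (R l)) i := by
  simp [seriesMulVec, Matrix.mulVec, dotProduct, coeff_C_mul]

variable (hV : D.V = -1) (e α α' : Matrix ι ι K)
  (hα'mem : ∀ i l, α' i l ∈ D.W) (hemem : ∀ i l, e i l ∈ D.W)
  (hσe : e.map D.σ = e) (hee : e * e = e) (hαe : α * e = α) (hinv : α * α' = e)
  (hinv' : α' * α = e) (hHe : D.U * e = e * D.U)
  (hroot : α * α - D.U * α + (p : K) • e = 0)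
  (Cm : Matrix ι κ K) (Pm : Matrix κ ι K) (hPmem : ∀ k i, Pm k i ∈ D.W)
  (hCfix : α * Cm.map D.σ = Cm) (hPC : Pm * Cm = 1) (hCP : Cm * Pm = e)

include hV hα'mem hemem hσe hee hαe hinv hinv' hHe hroot hPmem hCfix hPC hCP

/-- **The decomposition**: `e R = ∑ c_k s_k` with every `exp (s_k)` integral. -/
theorem exists_decomposition (R : ι → K⟦X⟧) (hσR : ∀ i, PowerSeries.map D.σ (R i) = R i)
    (hR : D.HasFunctionalEquation R) :
    ∃ s : κ → K⟦X⟧, (∀ i, seriesMulVec e R i = ∑ k, PowerSeries.C (Cm i k) * s k) ∧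
      (∀ k, constantCoeff (s k) = 0) ∧
      ∀ k, ∃ w : D.W⟦X⟧, constantCoeff w = 1 ∧ expOf (s k) = PowerSeries.map D.W.subtype w := by
  have hpK : (p : K) ≠ 0 := Nat.cast_ne_zero.mpr hp.out.ne_zero
  set β := α' * e with hβ
  have heα : e * α = α := by rw [← hinv, Matrix.mul_assoc, hinv', hαe]
  have heα' : e * α' = β := by rw [hβ, ← hinv, ← Matrix.mul_assoc, hinv', hinv]
  have hβα : β * α = e := by rw [hβ, Matrix.mul_assoc, heα, hinv']
  have hHee : D.U * e = α + (p : K) • β := by
    have h1 : D.U * α = α * α + (p : K) • e := by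
      rw [← sub_eq_zero, ← neg_sub, neg_eq_zero, ← hroot]
      abel
    have h2 : D.U * α * α' = α + (p : K) • β := by
      rw [h1, Matrix.add_mul, Matrix.mul_assoc, hinv, hαe, Matrix.smul_mul, heα']
    rwa [Matrix.mul_assoc, hinv] at h2
  -- the coefficient vectors
  set r : ℕ → ι → K := fun m i => coeff m (R i) with hr
  have hσr : ∀ m i, D.σ (r m i) = r m i := fun m i => by
    rw [hr]; dsimp only
    rw [← coeff_map, hσR]
  set ρ : ℕ → ι → K := fun m => if p ∣ m then e *ᵥ r (m / p) else 0 with hρ
  set ε : ℕ → ι → K := fun m => e *ᵥ r m - (p : K)⁻¹ • (α *ᵥ ρ m) with hε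
  have hdefect : ∀ m, ∃ d : ι → K, (∀ i, d i ∈ D.W) ∧
      r m - ((p : K)⁻¹ • (D.U *ᵥ (if p ∣ m then r (m / p) else 0)) -
        (p : K)⁻¹ • (if p ∣ m then (if p ∣ m / p then r (m / p / p) else 0) else 0)) = d := by
    intro m
    refine ⟨_, fun i => ?_, rfl⟩
    have h := hR.2 i m
    simp only [hV, coeff_expand, coeff_map] at h
    have hsum : ∀ (x : ι → K), ∑ l, (-1 : Matrix ι ι K) i l / (p : K) * x l = -((p : K)⁻¹ * x i) :=
      fun x => by
      rw [Finset.sum_eq_single i (fun l _ hl => by simp [hl.symm])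
        (fun hi => absurd (Finset.mem_univ i) hi)]
      simp [div_eq_inv_mul, mul_comm]
    rw [Finset.sum_add_distrib, hsum] at h
    by_cases hm : p ∣ m
    · simp only [hm, if_true] at h ⊢
      have hd1 : ∀ (x : ι → K), ∑ l, D.U i l / (p : K) * x l =
          (p : K)⁻¹ * (D.U *ᵥ x) i := fun x => by
        simp only [Matrix.mulVec, dotProduct, Finset.mul_sum, div_eq_inv_mul, mul_assoc]
      have hσk : ∀ k l, D.σ (coeff k (R l)) = r k l := fun k l => hσr k l
      rw [hd1] at h
      by_cases hm2 : p ∣ m / p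
      · simp only [hm2, if_true, hσk, hσr] at h ⊢
        rw [← sub_eq_add_neg] at h
        exact h
      · simp only [hm2, if_false, hσk, hσr, mul_zero, neg_zero, add_zero] at h
        simp only [hm2, if_false, smul_zero, sub_zero]
        exact h
    · simp only [hm, if_false] at h ⊢
      simpa using h
  have hmem : ∀ (M : Matrix ι ι K), (∀ i l, M i l ∈ D.W) → ∀ x : ι → K, (∀ i, x i ∈ D.W) →
      ∀ i, (M *ᵥ x) i ∈ D.W := fun M hM x hx i =>
    D.W.sum_mem fun l _ => D.W.mul_mem (hM i l) (hx l)
  have hβmem : ∀ i l, β i l ∈ D.W := fun i l => by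
    rw [hβ, Matrix.mul_apply]
    exact D.W.sum_mem fun j _ => D.W.mul_mem (hα'mem i j) (hemem j l)
  -- integrality of `ε`
  have hεmem : ∀ m i, ε m i ∈ D.W := by
    intro m
    induction m using Nat.strong_induction_on with
    | _ m ih =>
      rcases Nat.eq_zero_or_pos m with rfl | hm0
      · intro i
        have h0 : r 0 = 0 := funext fun i => by
          rw [hr]; dsimp only
          rw [coeff_zero_eq_constantCoeff_apply, hR.1]
          rfl
        simp [hε, hρ, h0]
      obtain ⟨d, hd, hde⟩ := hdefect m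
      by_cases hm : p ∣ m
      · have key : ε m - β *ᵥ ε (m / p) = e *ᵥ d := by
          rw [← hde, hε]
          dsimp only
          simp only [hρ, if_pos hm]
          by_cases hm2 : p ∣ m / p
          · simp only [if_pos hm2, mulVec_sub, mulVec_smul, mulVec_mulVec, ← hHe]
            have hβe : β * e = β := by rw [hβ, Matrix.mul_assoc, hee]
            rw [hβe, hαe, hHee, add_mulVec, smul_mulVec, smul_add, inv_smul_smul₀ hpK]
            simp only [hβα]
            abel
          · simp only [if_neg hm2, mulVec_sub, mulVec_smul, mulVec_mulVec, mulVec_zero, smul_zero,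
              sub_zero, ← hHe]
            have hβe : β * e = β := by rw [hβ, Matrix.mul_assoc, hee]
            rw [hβe, hαe, hHee, add_mulVec, smul_mulVec, smul_add, inv_smul_smul₀ hpK]
            abel
        intro i
        rw [show ε m = e *ᵥ d + β *ᵥ ε (m / p) by rw [← key]; abel]
        exact D.W.add_mem (hmem e hemem d hd i)
          (hmem β hβmem _ (ih (m / p) (Nat.div_lt_self hm0 hp.out.one_lt)) i)
      · intro i
        have : ε m = e *ᵥ d := by
          rw [← hde, hε]
          simp [hρ, hm]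
        rw [this]
        exact hmem e hemem d hd i
  -- the coordinates
  set s : κ → K⟦X⟧ := fun k => PowerSeries.mk fun m => (Pm *ᵥ (e *ᵥ r m)) k with hs
  have hCs : ∀ m, Cm *ᵥ (fun k => coeff m (s k)) = e *ᵥ r m := fun m => by
    simp only [hs, coeff_mk]
    rw [mulVec_mulVec, hCP, mulVec_mulVec, hee]
  refine ⟨s, fun i => ?_, fun k => ?_, fun k => exists_expOf_eq_map D (s k) ?_ fun m => ?_⟩
  · ext m
    rw [coeff_seriesMulVec]
    change (e *ᵥ r m) i = _
    rw [← hCs, map_sum]
    simp [Matrix.mulVec, dotProduct, coeff_C_mul]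
  · rw [← coeff_zero_eq_constantCoeff_apply]
    simp only [hs, coeff_mk]
    have h0 : r 0 = 0 := funext fun i => by
      rw [hr]; dsimp only
      rw [coeff_zero_eq_constantCoeff_apply, hR.1]
      rfl
    simp [h0]
  · rw [← coeff_zero_eq_constantCoeff_apply]
    simp only [hs, coeff_mk]
    have h0 : r 0 = 0 := funext fun i => by
      rw [hr]; dsimp only
      rw [coeff_zero_eq_constantCoeff_apply, hR.1]
      rfl
    simp [h0]
  · have hσs : p ∣ m → Pm *ᵥ (α *ᵥ (e *ᵥ r (m / p))) = fun k => D.σ (coeff (m / p) (s k)) := by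
      intro _
      have hfix : e *ᵥ r (m / p) = fun i => D.σ ((e *ᵥ r (m / p)) i) := funext fun i => by
        rw [RingHom.map_mulVec, hσe]
        simp only [Function.comp_def, hσr]
      have hCσ : (fun i => D.σ ((e *ᵥ r (m / p)) i)) =
          Cm.map D.σ *ᵥ fun k => D.σ (coeff (m / p) (s k)) := funext fun i => by
        rw [← hCs, RingHom.map_mulVec]
        rfl
      rw [hfix, hCσ, mulVec_mulVec _ α, hCfix, mulVec_mulVec, hPC, one_mulVec]
    have hval : coeff m (s k) - (p : K)⁻¹ * (if p ∣ m then D.σ (coeff (m / p) (s k)) else 0) =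
        (Pm *ᵥ ε m) k := by
      rw [hε]
      dsimp only
      rw [mulVec_sub, mulVec_smul, Pi.sub_apply, Pi.smul_apply, smul_eq_mul]
      congr 1
      · simp [hs]
      · congr 1
        simp only [hρ]
        split_ifs with hm
        · rw [hσs hm]
        · simp
    rw [hval]
    exact D.W.sum_mem fun l _ => D.W.mul_mem (hPmem k l) (hεmem m l)

end Fermat.Agent.OrdinaryEisenstein
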