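import Fermat.Agent.Eisenstein.Duality
import Fermat.Agent.EisensteinDescent.HeckeGalois
import Fermat.Agent.EisensteinDescent.EisensteinGen
import Fermat.Agent.JacCompare.Main
import Fermat.Agent.CuspIntStr.Main
import Fermat.Agent.EisensteinTate.Primary

/-!
# Integral matrices of the anemic Hecke algebra of `J₀(N)`

The algebra generated by the `T_q`, `q ≠ N`, on `J₀(N)` acts on the lattice of integral cusp forms.
Its matrices are divisible by a high power of `p` exactly when the operator kills a high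
`p`-power torsion.
-/

set_option autoImplicit false

noncomputable section

open ModularCurve CongruenceSubgroup ModularFormClass Matrix

namespace Fermat.Agent.OrdinaryEisenstein

open Fermat.Agent.EisensteinDescent

variable (N : ℕ) [NeZero N] [Fact N.Prime]

/-- The index of a basis of the integral cusp forms of weight two. -/
abbrev FormIdx : Type := Fin (Module.finrank ℤ ↥(CuspForm.intLattice N 2))

/-- A basis of the integral cusp forms of weight two. -/
def formBasis : Module.Basis (FormIdx N) ℤ ↥(CuspForm.intLattice N 2) :=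
  haveI := CuspForm.intLattice.moduleFinite N
  haveI := CuspForm.intLattice.moduleFree N
  Module.finBasis ℤ _

/-- The `m`-th coefficients of the basis. -/
def coeffVec (m : ℕ) : FormIdx N → ℤ := fun i => Eisenstein.intCoeff N (formBasis N i) m

omit [Fact (Nat.Prime N)] in
theorem coeffVec_apply (m : ℕ) (i : FormIdx N) :
    coeffVec N m i = Eisenstein.intCoeff N (formBasis N i) m := rfl

omit [Fact (Nat.Prime N)] in
theorem qCoeff_formBasis (m : ℕ) (i : FormIdx N) :
    qCoeff (⇑((formBasis N i : ↥(CuspForm.intLattice N 2)) : CuspForm (Gamma0 N) 2)) m =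
      (coeffVec N m i : ℂ) :=
  Eisenstein.qCoeff_eq_intCoeff N _ m

/-- The coefficient vectors span the dual of the forms. -/
theorem eq_zero_of_dotProduct_coeffVec (v : FormIdx N → ℤ)
    (h : ∀ m, v ⬝ᵥ coeffVec N m = 0) : v = 0 := by
  have h0 : (formBasis N).equivFun.symm v = 0 := by
    refine Eisenstein.lattice_eq_zero_of_intCoeff N _ fun m => ?_
    rw [← Eisenstein.coeffLin_apply, Module.Basis.equivFun_symm_apply, map_sum]
    refine (Finset.sum_congr rfl fun i _ => ?_).trans (h m)
    rw [map_smul, Eisenstein.coeffLin_apply, smul_eq_mul, coeffVec_apply]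
  exact (formBasis N).equivFun.symm.injective (by rw [h0, map_zero])

omit [NeZero N] in
/-- Every prime dividing `N` is excluded from `{N}`. -/
theorem mem_singleton_of_dvd {q : ℕ} (hq : q.Prime) (h : q ∣ N) : q ∈ ({N} : Set ℕ) :=
  (Nat.prime_dvd_prime_iff_eq hq Fact.out).mp h

/-- The Hecke algebra of forms, as matrices; the transpose makes it act on coefficient vectors. -/
def formsMat : ↥(CuspForm.heckeAlgebra N 2 ({N} : Set ℕ)) →+*
    Matrix (FormIdx N) (FormIdx N) ℤ where
  toFun u :=
    (LinearMap.toMatrix (formBasis N) (formBasis N) (CuspForm.latticeActionHom N {N} u))ᵀ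
  map_one' := by rw [map_one, LinearMap.toMatrix_one, transpose_one]
  map_mul' a b := by
    rw [mul_comm a b, map_mul, LinearMap.toMatrix_mul, transpose_mul]
  map_zero' := by rw [map_zero, map_zero, transpose_zero]
  map_add' a b := by rw [map_add, map_add, transpose_add]

omit [Fact (Nat.Prime N)] in
theorem formsMat_mulVec_coeffVec (u : ↥(CuspForm.heckeAlgebra N 2 ({N} : Set ℕ))) (m : ℕ)
    (i : FormIdx N) :
    (formsMat N u *ᵥ coeffVec N m) i =
      Eisenstein.intCoeff N (CuspForm.latticeActionHom N {N} u (formBasis N i)) m := by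
  refine Eq.trans ?_ (congrArg (Eisenstein.coeffLin N m)
    ((formBasis N).sum_repr (CuspForm.latticeActionHom N {N} u (formBasis N i))))
  refine Eq.trans ?_ (map_sum (Eisenstein.coeffLin N m) _ _).symm
  show ∑ j, formsMat N u i j * coeffVec N m j = _
  refine Finset.sum_congr (M := ℤ) rfl fun j _ => ?_
  show (LinearMap.toMatrix (formBasis N) (formBasis N) (CuspForm.latticeActionHom N {N} u)) j i *
    coeffVec N m j = _
  rw [LinearMap.toMatrix_apply, map_smul, Eisenstein.coeffLin_apply, smul_eq_mul, coeffVec_apply]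

omit [Fact (Nat.Prime N)] in
theorem coe_latticeActionHom (u : ↥(CuspForm.heckeAlgebra N 2 ({N} : Set ℕ)))
    (f : ↥(CuspForm.intLattice N 2)) :
    ((CuspForm.latticeActionHom N {N} u f : ↥(CuspForm.intLattice N 2)) :
        CuspForm (Gamma0 N) 2) =
      (u : Module.End ℂ (CuspForm (Gamma0 N) 2)) (f : CuspForm (Gamma0 N) 2) := rfl

omit [Fact (Nat.Prime N)] in
theorem formsMat_injective : Function.Injective (formsMat N) := fun _ _ h =>
  CuspForm.latticeActionHom_injective N {N} (CuspIntStr.hasIntegralStructure N 2)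
    ((LinearMap.toMatrix (formBasis N) (formBasis N)).injective (Matrix.transpose_injective h))

/-- Evaluation of the formal algebra on `J₀(N)`. -/
def awayEval : HeckeDatum.AwayPoly ({N} : Set ℕ) →+* awayAlg N :=
  MvPolynomial.eval₂Hom (Int.castRingHom _) fun l => awayT N l.1 fun h => l.2 h

omit [Fact (Nat.Prime N)] in
theorem awayEval_X (l : HeckeDatum.AwayPrimes ({N} : Set ℕ)) :
    awayEval N (MvPolynomial.X l) = awayT N l.1 fun h => l.2 h :=
  MvPolynomial.eval₂Hom_X' _ _ _

omit [Fact (Nat.Prime N)] in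
/-- Every operator of the anemic algebra is a polynomial in the `T_q`. -/
theorem awayEval_surjective : Function.Surjective (awayEval N) := by
  rintro ⟨t, ht⟩
  induction ht using Algebra.adjoin_induction with
  | mem x hx =>
    obtain ⟨q, hq, rfl⟩ := hx
    exact ⟨MvPolynomial.X ⟨q, hq⟩, awayEval_X N _⟩
  | algebraMap r =>
    exact ⟨(r : HeckeDatum.AwayPoly ({N} : Set ℕ)), by
      rw [map_intCast]; exact (eq_intCast (algebraMap ℤ (awayAlg N)) r).symm⟩
  | add x y _ _ hx hy =>
    obtain ⟨P, hP⟩ := hx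
    obtain ⟨Q, hQ⟩ := hy
    exact ⟨P + Q, by rw [map_add, hP, hQ]; rfl⟩
  | mul x y _ _ hx hy =>
    obtain ⟨P, hP⟩ := hx
    obtain ⟨Q, hQ⟩ := hy
    exact ⟨P * Q, by rw [map_mul, hP, hQ]; rfl⟩

omit [Fact (Nat.Prime N)] in
/-- The formal algebra acts on `J₀(N)` through `awayEval`. -/
theorem toHeckeAlg_smul (Q : HeckeDatum.AwayPoly ({N} : Set ℕ)) (x : JZero N) :
    (letI := heckeModuleBar N; HeckeDatum.toHeckeAlg ({N} : Set ℕ) Q • x) = awayEval N Q • x := by
  have h := HeckeCommute.heckeOperatorsCommuteBar N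
  have key : (heckeEvalBar h).comp (HeckeDatum.toHeckeAlg ({N} : Set ℕ)) =
      (awayAlg N).val.toRingHom.comp (awayEval N) := by
    refine MvPolynomial.ringHom_ext (fun r => ?_) fun l => ?_
    · rw [show (MvPolynomial.C r : HeckeDatum.AwayPoly ({N} : Set ℕ)) = (r : ℤ) from
        eq_intCast MvPolynomial.C r, map_intCast, map_intCast]
    · show heckeEvalBar h (HeckeDatum.toHeckeAlg _ (MvPolynomial.X l)) =
        ((awayEval N (MvPolynomial.X l) : awayAlg N) : Module.End ℤ (JZero N))
      rw [awayEval_X, show HeckeDatum.toHeckeAlg ({N} : Set ℕ) (MvPolynomial.X l) = heckeGen l.1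
        from MvPolynomial.rename_X _ _, heckeEvalBar_heckeGen]
      rfl
  rw [heckeModuleBar_smul_def h]
  exact LinearMap.congr_fun (RingHom.congr_fun key Q) x

/-- Evaluation of the formal algebra on forms, as matrices. -/
def polyMat : HeckeDatum.AwayPoly ({N} : Set ℕ) →+* Matrix (FormIdx N) (FormIdx N) ℤ :=
  (formsMat N).comp (HeckeDatum.evalForms (fun _ hq h => mem_singleton_of_dvd N hq h))

/-- A relation among the `T_q` on `J₀(N)` holds among their matrices on forms. -/
theorem polyMat_eq_zero_of_awayEval {Q : HeckeDatum.AwayPoly ({N} : Set ℕ)}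
    (hQ : awayEval N Q = 0) : polyMat N Q = 0 := by
  have hF := JacCompare.jacobianFaithful_all (N := N)
    (fun _ hq h => mem_singleton_of_dvd N hq h) Nat.prime_two
  refine Matrix.ext fun i l => Int.eq_zero_of_abs_lt_dvd
    (m := 2 ^ ((polyMat N Q i l).natAbs + 1)) ?_ ?_
  · obtain ⟨k, hk⟩ := hF.ann_le ((polyMat N Q i l).natAbs + 1)
    obtain ⟨u, hu⟩ := hk Q fun x _ => by rw [toHeckeAlg_smul, hQ]; exact zero_smul (awayAlg N) x
    have e : polyMat N Q = 2 ^ ((polyMat N Q i l).natAbs + 1) • formsMat N u := by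
      conv_lhs => rw [polyMat, RingHom.comp_apply, hu, map_mul, map_pow, map_natCast,
        ← Nat.cast_pow, ← nsmul_eq_mul]
    generalize hn : (polyMat N Q i l).natAbs + 1 = n at e ⊢
    rw [e, Matrix.smul_apply, nsmul_eq_mul]
    push_cast
    exact dvd_mul_right _ _
  · rw [Int.abs_eq_natAbs]
    exact_mod_cast Nat.lt_two_pow_self.trans (Nat.pow_lt_pow_right one_lt_two (Nat.lt_succ_self _))

/-- **The matrices of the anemic Hecke algebra of `J₀(N)`.** -/
def heckeMatHom : awayAlg N →+* Matrix (FormIdx N) (FormIdx N) ℤ :=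
  RingHom.liftOfRightInverse (awayEval N) _ (Function.rightInverse_surjInv (awayEval_surjective N))
    ⟨polyMat N, fun _ hQ => RingHom.mem_ker.mpr
      (polyMat_eq_zero_of_awayEval N (RingHom.mem_ker.mp hQ))⟩

theorem heckeMatHom_awayEval (Q : HeckeDatum.AwayPoly ({N} : Set ℕ)) :
    heckeMatHom N (awayEval N Q) = polyMat N Q :=
  RingHom.liftOfRightInverse_comp_apply _ _ _ _ Q

theorem heckeMatHom_commute (s t : awayAlg N) :
    Commute (heckeMatHom N s) (heckeMatHom N t) :=
  (Commute.all s t).map (heckeMatHom N)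

/-- The matrix of `T_q` (junk `0` unless `q` is a prime `≠ N`). -/
def heckeMat (q : ℕ) : Matrix (FormIdx N) (FormIdx N) ℤ := heckeMatHom N (awayTq N q)

theorem heckeMatHom_awayT (l : HeckeDatum.AwayPrimes ({N} : Set ℕ))
    (h' : ¬ (l.1 : ℕ) ∣ N) :
    heckeMatHom N (awayT N l.1 fun h => l.2 h) =
      formsMat N (CuspForm.heckeAlgebra.T l.1.2 h' l.2) :=
  (congrArg (heckeMatHom N) (awayEval_X N l).symm).trans ((heckeMatHom_awayEval N _).trans
    (congrArg (formsMat N) (MvPolynomial.eval₂Hom_X' _ _ _)))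

theorem heckeMatHom_awayTq (q : ℕ) : heckeMatHom N (awayTq N q) = heckeMat N q := rfl

/-- The coefficient recursion. -/
theorem heckeMat_mulVec_coeffVec {q : ℕ} (hq : q.Prime) (hqN : q ≠ N) (m : ℕ) :
    heckeMat N q *ᵥ coeffVec N m =
      coeffVec N (q * m) + (q : ℤ) • (if q ∣ m then coeffVec N (m / q) else 0) := by
  have h' : ¬ q ∣ N := fun h => hqN (mem_singleton_of_dvd N hq h)
  have e : heckeMat N q = formsMat N (CuspForm.heckeAlgebra.T hq h'
      (fun h => hqN h)) := by
    exact (congrArg (heckeMatHom N) (awayTq_eq N hq hqN)).trans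
      (heckeMatHom_awayT N ⟨⟨q, hq⟩, fun h => hqN h⟩ h')
  funext i
  rw [e, formsMat_mulVec_coeffVec, Eisenstein.intCoeff_eq_iff]
  rw [coe_latticeActionHom, CuspForm.heckeAlgebra.coe_T, HeckeLift.qCoeff_heckeTLin hq h',
      qCoeff_formBasis,
    qCoeff_formBasis, Pi.add_apply, Pi.smul_apply, mul_comm m q]
  split_ifs <;> simp

omit [Fact (Nat.Prime N)] in
/-- Induction along the generators. -/
theorem awayAlg_induction {motive : awayAlg N → Prop} (hC : ∀ a : ℤ, motive (a : awayAlg N))
    (hadd : ∀ s t, motive s → motive t → motive (s + t))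
    (hmulT : ∀ t (q : ℕ), q.Prime → q ≠ N → motive t → motive (t * awayTq N q))
    (t : awayAlg N) : motive t := by
  obtain ⟨Q, rfl⟩ := awayEval_surjective N t
  induction Q using MvPolynomial.induction_on with
  | C a =>
    rw [show (MvPolynomial.C a : HeckeDatum.AwayPoly ({N} : Set ℕ)) = (a : ℤ) from
      eq_intCast MvPolynomial.C a, map_intCast]
    exact hC a
  | add P Q hP hQ => rw [map_add]; exact hadd _ _ hP hQ
  | mul_X P l hP =>
    rw [map_mul, awayEval_X,
      show awayT N l.1 (fun h => l.2 h) = awayTq N (l.1 : ℕ) from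
        (awayTq_eq N l.1.2 fun h => l.2 h).symm]
    exact hmulT _ _ l.1.2 (fun h => l.2 h) hP

variable {N} {p : ℕ}

/-- Operators killing enough torsion have matrices divisible by `p ^ j`. -/
theorem exists_dvd_heckeMatHom (hp : p.Prime) (j : ℕ) : ∃ k : ℕ, ∀ t : awayAlg N,
    (∀ x : JZero N, p ^ k • x = 0 → t • x = 0) →
      ∃ M : Matrix (FormIdx N) (FormIdx N) ℤ, heckeMatHom N t = ((p : ℤ) ^ j) • M := by
  obtain ⟨k, hk⟩ := (JacCompare.jacobianFaithful_all (N := N)
    (fun _ hq h => mem_singleton_of_dvd N hq h) hp).ann_le j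
  refine ⟨k, fun t ht => ?_⟩
  obtain ⟨Q, rfl⟩ := awayEval_surjective N t
  obtain ⟨u, hu⟩ := hk Q fun x hx => by rw [toHeckeAlg_smul]; exact ht x hx
  refine ⟨formsMat N u, ?_⟩
  rw [heckeMatHom_awayEval, polyMat, RingHom.comp_apply, hu, map_mul, map_pow, map_natCast,
    zsmul_eq_mul]
  push_cast
  rfl

/-- Operators whose matrix is divisible by a high power of `p` kill the `p ^ r`-torsion. -/
theorem exists_smul_eq_zero_of_dvd (hp : p.Prime) (r : ℕ) : ∃ j : ℕ, ∀ t : awayAlg N,
    (∃ M : Matrix (FormIdx N) (FormIdx N) ℤ, heckeMatHom N t = ((p : ℤ) ^ j) • M) →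
      ∀ x : JZero N, p ^ r • x = 0 → t • x = 0 := by
  let L : ↥(CuspForm.heckeAlgebra N 2 ({N} : Set ℕ)) →ₗ[ℤ] Matrix (FormIdx N) (FormIdx N) ℤ :=
    (formsMat N).toAddMonoidHom.toIntLinearMap
  obtain ⟨c, hc⟩ := (Ideal.span {(p : ℤ)}).exists_pow_inf_eq_pow_smul (LinearMap.range L)
  refine ⟨r + c, fun t ⟨M, hM⟩ x hx => ?_⟩
  obtain ⟨Q, rfl⟩ := awayEval_surjective N t
  have hNS : ∀ q : ℕ, q.Prime → q ∣ N → q ∈ ({N} : Set ℕ) :=
    fun _ hq h => mem_singleton_of_dvd N hq h
  rw [heckeMatHom_awayEval] at hM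
  have hmem : polyMat N Q ∈ (Ideal.span {(p : ℤ)}) ^ (r + c) •
      (⊤ : Submodule ℤ (Matrix (FormIdx N) (FormIdx N) ℤ)) ⊓ LinearMap.range L := by
    refine ⟨?_, ⟨_, rfl⟩⟩
    rw [hM]
    exact Submodule.smul_mem_smul (Ideal.pow_mem_pow (Ideal.mem_span_singleton_self _) _)
      Submodule.mem_top
  rw [hc (r + c) (Nat.le_add_left c r), Nat.add_sub_cancel, Ideal.span_singleton_pow,
    Submodule.ideal_span_singleton_smul] at hmem
  obtain ⟨y, ⟨-, u, rfl⟩, hy⟩ := hmem
  obtain ⟨R, hR⟩ := HeckeDatum.evalForms_surjective hNS u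
  have hz : HeckeDatum.evalForms hNS (Q - ((p ^ r : ℕ) : HeckeDatum.AwayPoly _) * R) = 0 := by
    refine formsMat_injective N ?_
    rw [map_sub, map_sub, map_zero, sub_eq_zero, map_mul, map_natCast, map_mul, map_natCast, hR]
    refine hy.symm.trans ?_
    show ((p : ℤ) ^ r) • formsMat N u = _
    rw [zsmul_eq_mul]
    push_cast
    rfl
  have h0 := (JacCompare.jacobianFaithful_all hNS hp).smul_eq_zero _ hz r x hx
  rw [toHeckeAlg_smul, map_sub, map_mul, map_natCast] at h0
  have hsub : ∀ a b : awayAlg N, (a - b) • x = a • x - b • x := fun a b => sub_smul a b x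
  have hmul : ∀ a b : awayAlg N, (a * b) • x = a • b • x := fun a b => mul_smul a b x
  have h1 : awayEval N Q • x = ((p ^ r : ℕ) : awayAlg N) • (awayEval N R • x) :=
    sub_eq_zero.mp (((hsub _ _).trans (congrArg _ (hmul _ _))).symm.trans h0)
  rw [h1]
  refine (Nat.cast_smul_eq_nsmul (awayAlg N) (p ^ r) (awayEval N R • x)).trans ?_
  refine (EisensteinTate.smul_nsmul_comm (awayEval N R) (p ^ r) x).symm.trans ?_
  exact (congrArg _ hx).trans (smul_zero _)

end Fermat.Agent.OrdinaryEisenstein
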