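import Fermat.Agent.OrdinaryCurve.GoodCurve
import Fermat.Agent.OrdinaryCurve.Assembly

/-!
# The map of a solution vector on principal units

For a vector `c` with `c = H σ c - p σ² c` the vector of logarithms `c log (1 + X)` has a class at
every point of the disc; as a function of `1 + X` it is a homomorphism, linear in `c`.
-/

set_option autoImplicit false

noncomputable section

open PowerSeries Matrix AlgebraicCurve ModularCurve Fermat.Agent.FunctionField

namespace Fermat.Agent.OrdinaryEisenstein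

open OrdinaryCurve

variable {p : ℕ} [hp : Fact p.Prime]

/-- The vectors with `c = H σ c - p σ² c`. -/
def solutions {n : ℕ} (H : Matrix (Fin n) (Fin n) ℤ) : AddSubgroup (Fin n → unramHat p) where
  carrier := {c | ∀ i, ∑ l, (H i l : unramHat p) * unramFrob p (c l) -
    (p : unramHat p) * unramFrob p (unramFrob p (c i)) = c i}
  zero_mem' i := by simp
  add_mem' {c d} hc hd i := by
    simp only [Pi.add_apply, map_add, mul_add, Finset.sum_add_distrib]
    conv_rhs => rw [← hc i, ← hd i]
    ring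
  neg_mem' {c} hc i := by
    simp only [Pi.neg_apply, map_neg, mul_neg, Finset.sum_neg_distrib]
    conv_rhs => rw [← hc i]
    ring

/-- The vector of series `c log (1 + X)`. -/
def logVecOf {ι : Type*} (c : ι → unramHat p) : ι → ℂ_[p]⟦X⟧ :=
  fun i => C (c i : ℂ_[p]) * log ℂ_[p]

theorem subst_logVecOf {ι : Type*} (c : ι → unramHat p) {f : ℂ_[p]⟦X⟧} (hf : constantCoeff f = 0)
    (i : ι) : (logVecOf c i).subst f = C (c i : ℂ_[p]) * (log ℂ_[p]).subst f := by
  rw [logVecOf, subst_mul (HasSubst.of_constantCoeff_zero' hf), subst_C]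
  rfl

variable {N : ℕ} [NeZero N]

/-- What the map of solution vectors uses: a disc curve, integral forms, the matrix of `T_p`. -/
structure PhiData (p : ℕ) [Fact p.Prime] (N : ℕ) [NeZero N] where
  Q : QBasis N
  S : DiscCurve (curveField p N) (Fin Q.rank)
  disc_eq : S.disc = discData p N
  A_eq : S.curve.A = fun m i => (Q.a m i : ℂ_[p])
  H : Matrix (Fin Q.rank) (Fin Q.rank) ℤ
  isT : IsTMat Q p H

namespace PhiData

variable (Z : PhiData p N)

/-- The solution vectors. -/
abbrev Sol : AddSubgroup (Fin Z.Q.rank → unramHat p) := solutions Z.H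

/-- The logarithm vector of a solution has a class at every point of the disc. -/
theorem exists_isClass (c : Z.Sol) (a : DiscPoint ℂ_[p]) :
    ∃ x, Z.S.IsClass a (logVecOf c.1) x :=
  exists_isClass_of_functionalEquation p Z.Q Z.isT Z.S Z.A_eq
    (hasFunctionalEquation_log_good p Z.Q Z.isT c.1 c.2) a

/-- The class of `c log (1 + X)` at a point. -/
def phi (c : Z.Sol) (a : DiscPoint ℂ_[p]) : Pic0 ℂ_[p] (curveField p N) :=
  (Z.exists_isClass c a).choose

/-- `phi c a` is the class of `c log (1 + X)` at `a`. -/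
theorem isClass_phi (c : Z.Sol) (a : DiscPoint ℂ_[p]) :
    Z.S.IsClass a (logVecOf c.1) (Z.phi c a) :=
  (Z.exists_isClass c a).choose_spec

theorem phi_eq {c : Z.Sol} {a : DiscPoint ℂ_[p]} {R : Fin Z.Q.rank → ℂ_[p]⟦X⟧}
    {x : Pic0 ℂ_[p] (curveField p N)} (hx : Z.S.IsClass a R x) (hR : ∀ i, R i = logVecOf c.1 i) :
    x = Z.phi c a :=
  (hx.congr hR).eq (Z.isClass_phi c a)

theorem phi_add_vec (c d : Z.Sol) (a : DiscPoint ℂ_[p]) :
    Z.phi (c + d) a = Z.phi c a + Z.phi d a :=
  (Z.phi_eq ((Z.isClass_phi c a).add (Z.isClass_phi d a)) fun i => by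
    simp only [logVecOf, AddSubgroup.coe_add, Pi.add_apply, Subring.coe_add, map_add, add_mul]).symm

/-- The map as a homomorphism in the vector. -/
def phiHom (a : DiscPoint ℂ_[p]) : Z.Sol →+ Pic0 ℂ_[p] (curveField p N) :=
  AddMonoidHom.mk' (fun c => Z.phi c a) fun c d => Z.phi_add_vec c d a

theorem phi_nsmul_vec (k : ℕ) (c : Z.Sol) (a : DiscPoint ℂ_[p]) :
    Z.phi (k • c) a = k • Z.phi c a := map_nsmul (Z.phiHom a) k c

/-- Multiplicativity in `1 + X`. -/
theorem phi_add (c : Z.Sol) {a b d : DiscPoint ℂ_[p]}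
    (hd : d.val = a.val + b.val + a.val * b.val) :
    Z.phi c d = Z.phi c a + Z.phi c b := by
  obtain ⟨t, lu, mu, hlu, hmu, ha, hb⟩ : ∃ (t : DiscPoint ℂ_[p]) (lu mu : ℂ_[p]),
      ‖lu‖ ≤ 1 ∧ ‖mu‖ ≤ 1 ∧ lu * t.val = a.val ∧ mu * t.val = b.val := by
    rcases le_total ‖b.val‖ ‖a.val‖ with h | h
    · refine ⟨a, 1, b.val / a.val, norm_one.le, ?_, one_mul _, ?_⟩
      · rw [norm_div]
        exact div_le_one_of_le₀ h (norm_nonneg _)
      · rcases eq_or_ne a.val 0 with h0 | h0
        · rw [h0, norm_zero, norm_le_zero_iff] at h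
          rw [h0, h, mul_zero]
        · exact div_mul_cancel₀ _ h0
    · refine ⟨b, a.val / b.val, 1, ?_, norm_one.le, ?_, one_mul _⟩
      · rw [norm_div]
        exact div_le_one_of_le₀ h (norm_nonneg _)
      · rcases eq_or_ne b.val 0 with h0 | h0
        · rw [h0, norm_zero, norm_le_zero_iff] at h
          rw [h0, h, mul_zero]
        · exact div_mul_cancel₀ _ h0
  let fa : (ballRing ℂ_[p])⟦X⟧ := C (⟨lu, hlu⟩ : ballRing ℂ_[p]) * X
  let fb : (ballRing ℂ_[p])⟦X⟧ := C (⟨mu, hmu⟩ : ballRing ℂ_[p]) * X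
  have hfa : constantCoeff fa = 0 := by simp [fa]
  have hfb : constantCoeff fb = 0 := by simp [fb]
  have hfd : constantCoeff (fa + fb + fa * fb) = 0 := by simp [hfa, hfb]
  have va : evalAt (ballRing ℂ_[p]) norm_le_of_mem_ballRing t fa = a.val := by
    rw [map_mul, evalAt_C, evalAt_X, ha]
  have vb : evalAt (ballRing ℂ_[p]) norm_le_of_mem_ballRing t fb = b.val := by
    rw [map_mul, evalAt_C, evalAt_X, hb]
  have ea : imagePoint (ballRing ℂ_[p]) norm_le_of_mem_ballRing fa hfa t = a :=
    DiscPoint.ext va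
  have eb : imagePoint (ballRing ℂ_[p]) norm_le_of_mem_ballRing fb hfb t = b :=
    DiscPoint.ext vb
  have ed : imagePoint (ballRing ℂ_[p]) norm_le_of_mem_ballRing _ hfd t = d :=
    DiscPoint.ext (by
      show evalAt _ _ t (fa + fb + fa * fb) = d.val
      rw [map_add (evalAt _ _ t), map_add (evalAt _ _ t), map_mul (evalAt _ _ t) fa fb, va, vb, hd])
  rw [← ea, ← eb, ← ed]
  have h1 := (Z.isClass_phi c
    (imagePoint (ballRing ℂ_[p]) norm_le_of_mem_ballRing fa hfa t)).subst hfa
  have h2 := (Z.isClass_phi c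
    (imagePoint (ballRing ℂ_[p]) norm_le_of_mem_ballRing fb hfb t)).subst hfb
  have h3 := (Z.isClass_phi c
    (imagePoint (ballRing ℂ_[p]) norm_le_of_mem_ballRing _ hfd t)).subst hfd
  refine h3.eq ((h1.add h2).congr fun i => ?_)
  set F := PowerSeries.map (ballRing ℂ_[p]).subtype fa with hF
  set G := PowerSeries.map (ballRing ℂ_[p]).subtype fb with hG
  have hF0 : constantCoeff F = 0 := by rw [hF, const_map, hfa, map_zero]
  have hG0 : constantCoeff G = 0 := by rw [hG, const_map, hfb, map_zero]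
  have hsum : PowerSeries.map (ballRing ℂ_[p]).subtype (fa + fb + fa * fb) = F + G + F * G := by
    rw [map_add (PowerSeries.map _), map_add (PowerSeries.map _), map_mul (PowerSeries.map _) fa fb]
  have h := logOf_mul (A := ℂ_[p]) (f := 1 + F) (g := 1 + G) (by simp [hF0]) (by simp [hG0])
  rw [logOf_eq, logOf_eq, logOf_eq, show (1 + F) * (1 + G) - 1 = F + G + F * G by ring,
    add_sub_cancel_left, add_sub_cancel_left] at h
  rw [hsum, subst_logVecOf _ hF0, subst_logVecOf _ hG0,
    subst_logVecOf _ (by simp [hF0, hG0]), h, mul_add]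

/-- `phi c` vanishes at the centre of the disc. -/
theorem phi_zero (c : Z.Sol) : Z.phi c (discZero ℂ_[p]) = 0 := by
  have h := Z.phi_add c (a := discZero ℂ_[p]) (b := discZero ℂ_[p]) (d := discZero ℂ_[p])
    (by simp [discZero])
  exact left_eq_add.mp h

/-- Powers of `1 + X`. -/
theorem phi_pow (c : Z.Sol) {a d : DiscPoint ℂ_[p]} (k : ℕ)
    (hd : 1 + d.val = (1 + a.val) ^ k) : Z.phi c d = k • Z.phi c a := by
  induction k generalizing d with
  | zero =>
    rw [zero_nsmul, show d = discZero ℂ_[p] from DiscPoint.ext (by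
      show d.val = 0
      simpa using hd)]
    exact Z.phi_zero c
  | succ k ih =>
    have hb : ‖(1 + a.val) ^ k - 1‖ < 1 := by
      rw [show (1 + a.val) ^ k - 1 = (imagePoint (ballRing ℂ_[p]) norm_le_of_mem_ballRing _
        (constantCoeff_powParam _ k) a).val by
          show _ = evalAt _ _ a (powParam _ k)
          rw [powParam, map_sub, map_pow, map_add, map_one, evalAt_X]]
      exact DiscPoint.norm_lt _
    rw [succ_nsmul, ← ih (d := ⟨_, hb⟩) (by ring)]
    exact Z.phi_add c (by
      show d.val = _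
      linear_combination hd)

end PhiData

end Fermat.Agent.OrdinaryEisenstein
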