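import Fermat.Agent.OrdinaryEisenstein.PhiMap
import Fermat.Agent.OrdinaryEisenstein.Projector
import Fermat.Agent.OrdinaryEisenstein.OrdinaryPart
import Fermat.Agent.OrdinaryCurve.ClassGalois

/-!
# Matrices and Frobenius acting on solution vectors

`ℤ_p`-matrices commuting with `H` and local Galois elements act on the solution vectors; an
integral matrix congruent to `A` modulo `p ^ j` acts as `A` on the classes at `p ^ j`-th roots of
unity.
-/

set_option autoImplicit false

noncomputable section

open PowerSeries Matrix AlgebraicCurve ModularCurve Fermat.Agent.FunctionField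

namespace Fermat.Agent.OrdinaryEisenstein

open OrdinaryCurve OrdinaryExclusion

variable {p : ℕ} [hp : Fact p.Prime]

/-- A `ℤ_p`-matrix acting on vectors over the completed unramified ring. -/
def matVec {n : ℕ} (A : Matrix (Fin n) (Fin n) ℤ_[p]) (c : Fin n → unramHat p) :
    Fin n → unramHat p :=
  A.map (toUnram p) *ᵥ c

theorem matVec_apply {n : ℕ} (A : Matrix (Fin n) (Fin n) ℤ_[p]) (c : Fin n → unramHat p)
    (i : Fin n) : matVec A c i = ∑ b, toUnram p (A i b) * c b := rfl

theorem unramGal_matVec {n : ℕ} (g : PadicAlgCl p ≃ₐ[ℚ_[p]] PadicAlgCl p)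
    (A : Matrix (Fin n) (Fin n) ℤ_[p]) (c : Fin n → unramHat p) (i : Fin n) :
    unramGal p g (matVec A c i) = matVec A (fun b => unramGal p g (c b)) i := by
  rw [matVec_apply, matVec_apply, map_sum]
  exact Finset.sum_congr rfl fun b _ => by rw [map_mul, unramGal_toUnram]

/-- The integral matrix as a map on vectors. -/
theorem matVec_castMat {n : ℕ} (M : Matrix (Fin n) (Fin n) ℤ) (c : Fin n → unramHat p) (i : Fin n) :
    matVec (castMat p M) c i = ∑ b, (M i b : unramHat p) * c b := by
  rw [matVec_apply]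
  exact Finset.sum_congr rfl fun b _ => by
    rw [show castMat p M i b = ((M i b : ℤ) : ℤ_[p]) from rfl, map_intCast]

theorem mem_solutions_iff {n : ℕ} {H : Matrix (Fin n) (Fin n) ℤ} {c : Fin n → unramHat p} :
    c ∈ solutions H ↔ matVec (castMat p H) (fun l => unramFrob p (c l))
      - (p : unramHat p) • (fun i => unramFrob p (unramFrob p (c i))) = c := by
  rw [funext_iff]
  refine forall_congr' fun i => ?_
  rw [Pi.sub_apply, Pi.smul_apply, smul_eq_mul, matVec_castMat]

/-- Matrices commuting with `H` preserve the solutions. -/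
theorem matVec_mem_solutions {n : ℕ} {H : Matrix (Fin n) (Fin n) ℤ}
    {A : Matrix (Fin n) (Fin n) ℤ_[p]} (hA : Commute (castMat p H) A) {c : Fin n → unramHat p}
    (hc : c ∈ solutions H) : matVec A c ∈ solutions H := by
  rw [mem_solutions_iff] at hc ⊢
  have hσ : ∀ v : Fin n → unramHat p,
      (fun l => unramFrob p (matVec A v l)) = matVec A fun l => unramFrob p (v l) :=
    fun v => funext fun l => unramGal_matVec _ A v l
  rw [show (fun i => unramFrob p (unramFrob p (matVec A c i)))
      = matVec A (fun i => unramFrob p (unramFrob p (c i))) by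
    rw [← hσ, ← funext_iff.mp (hσ c) |> funext], hσ]
  conv_rhs => rw [← hc]
  simp only [matVec, mulVec_mulVec, mulVec_sub, mulVec_smul, ← Matrix.map_mul, hA.eq]

/-- A matrix as an endomorphism of the solutions. -/
def matSol {n : ℕ} {H : Matrix (Fin n) (Fin n) ℤ} (A : Matrix (Fin n) (Fin n) ℤ_[p])
    (hA : Commute (castMat p H) A) (c : solutions (p := p) H) : solutions (p := p) H :=
  ⟨matVec A c.1, matVec_mem_solutions hA c.2⟩

/-- Frobenius preserves the solutions. -/
theorem frob_mem_solutions {n : ℕ} {H : Matrix (Fin n) (Fin n) ℤ} {c : Fin n → unramHat p}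
    (hc : c ∈ solutions H) : (fun i => unramFrob p (c i)) ∈ solutions H := fun i => by
  have h := congrArg (unramFrob p) (hc i)
  simpa only [map_sub, map_sum, map_mul, map_intCast, map_natCast] using h

/-- Frobenius on the solutions. -/
def frobSol {n : ℕ} {H : Matrix (Fin n) (Fin n) ℤ} (c : solutions (p := p) H) :
    solutions (p := p) H :=
  ⟨fun i => unramFrob p (c.1 i), frob_mem_solutions c.2⟩

/-- A congruence as an equation, keeping commutation with a fixed matrix. -/
theorem exists_eq_add_pow_smul {ι : Type*} [Fintype ι] [DecidableEq ι] {j : ℕ}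
    {A X H : Matrix ι ι ℤ_[p]} (h : redMat p j A = redMat p j X) (hA : Commute H A)
    (hX : Commute H X) : ∃ C, X = A + (p : ℤ_[p]) ^ j • C ∧ Commute H C := by
  have hd : ∀ i k, (p : ℤ_[p]) ^ j ∣ X i k - A i k := fun i k => by
    rw [← Ideal.mem_span_singleton, ← PadicInt.ker_toZModPow, RingHom.mem_ker, map_sub,
      sub_eq_zero]
    exact (congrFun (congrFun h i) k).symm
  choose C hC using hd
  have e : X = A + (p : ℤ_[p]) ^ j • Matrix.of C := Matrix.ext fun i k => by
    rw [Matrix.add_apply, Matrix.smul_apply, Matrix.of_apply, smul_eq_mul, ← hC, add_sub_cancel]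
  refine ⟨_, e, Matrix.ext fun i k => ?_⟩
  have h1 : H * (X - A) = (X - A) * H := (hX.sub_right hA).eq
  rw [e, add_sub_cancel_left, Matrix.mul_smul, Matrix.smul_mul] at h1
  exact mul_left_cancel₀ (pow_ne_zero j (Nat.cast_ne_zero.mpr hp.out.ne_zero))
    (congrFun (congrFun h1 i) k)

variable {N : ℕ} [NeZero N] (Z : PhiData p N)

namespace PhiData

/-- An integral matrix applied to `c log (1 + X)`. -/
theorem sum_mul_logVecOf (M : Matrix (Fin Z.Q.rank) (Fin Z.Q.rank) ℤ)
    (c : Fin Z.Q.rank → unramHat p) (i : Fin Z.Q.rank) :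
    ∑ b, C (M i b : ℂ_[p]) * logVecOf c b = logVecOf (matVec (castMat p M) c) i := by
  simp only [logVecOf, matVec_castMat, ← mul_assoc, ← map_mul]
  rw [← Finset.sum_mul, ← map_sum]
  push_cast
  rfl

/-- The congruence at roots of unity. -/
theorem phi_matSol_of_congr {j : ℕ} {A X : Matrix (Fin Z.Q.rank) (Fin Z.Q.rank) ℤ_[p]}
    (h : redMat p j A = redMat p j X) (hA : Commute (castMat p Z.H) A)
    (hX : Commute (castMat p Z.H) X) (c : Z.Sol) {a : DiscPoint ℂ_[p]}
    (ha : (1 + a.val) ^ p ^ j = 1) : Z.phi (matSol X hX c) a = Z.phi (matSol A hA c) a := by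
  obtain ⟨C, hC, hHC⟩ := exists_eq_add_pow_smul h hA hX
  have e : matSol X hX c = matSol A hA c + (p ^ j) • matSol C hHC c := Subtype.ext
      (funext fun i => by
    simp only [matSol, AddSubgroup.coe_add, AddSubgroup.coe_nsmul, Pi.add_apply, hC]
    rw [Pi.smul_apply, nsmul_eq_mul, matVec_apply, matVec_apply, matVec_apply, Finset.mul_sum,
      ← Finset.sum_add_distrib]
    refine Finset.sum_congr rfl fun b _ => ?_
    rw [Matrix.add_apply, Matrix.smul_apply, smul_eq_mul, map_add, map_mul, map_pow, map_natCast,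
      Nat.cast_pow]
    ring)
  rw [e, Z.phi_add_vec, Z.phi_nsmul_vec, ← Z.phi_pow (matSol C hHC c) (p ^ j)
    (d := discZero ℂ_[p]) (by simp [discZero, ha]), Z.phi_zero, add_zero]

/-- The action of the local Galois group. -/
theorem galois_phi (g : PadicAlgCl p ≃ₐ[ℚ_[p]] PadicAlgCl p) {c c' : Z.Sol}
    (hc : ∀ i, c'.1 i = unramGal p g (c.1 i)) {a b : DiscPoint ℂ_[p]}
    (hb : b.val = completeGal p g a.val) :
    completeGalEquiv p g • Z.phi c a = Z.phi c' b :=
  Z.phi_eq ((Z.isClass_phi c a).galois Z.disc_eq Z.A_eq g hb) fun i => by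
    rw [logVecOf, logVecOf, map_mul, map_C, map_log, hc, coe_unramGal]

/-- Inertia fixes the vectors. -/
theorem galois_phi_of_inertia {g : PadicAlgCl p ≃ₐ[ℚ_[p]] PadicAlgCl p}
    (hg : localGaloisToGlobal p g ∈ (padicPlace p).inertiaSubgroupIn ℚ) (c : Z.Sol)
    {a b : DiscPoint ℂ_[p]} (hb : b.val = completeGal p g a.val) :
    completeGalEquiv p g • Z.phi c a = Z.phi c b :=
  Z.galois_phi g (fun i => Subtype.ext (by
    rw [coe_unramGal, completeGal_eq_self_of_inertia p hg (c.1 i).2])) hb

end PhiData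

end Fermat.Agent.OrdinaryEisenstein
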